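import Fermat.Agent.Density.Traces
import Fermat.Agent.Deform.MatrixRep
import Mathlib.LinearAlgebra.Matrix.Charpoly.Coeff

/-!
# A representation in characteristic two with the traces of a dihedral one of order six

If a two dimensional representation `r` over a field of characteristic `2` has, at almost all
Frobenius elements, determinant `1` and trace `0`, or `1` but then only where `e : GQ → GL₂(𝔽₂)`
has trace `1`, and if its trace is not identically zero, then `r` and `e` have the same traces.
-/

set_option autoImplicit false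

noncomputable section

namespace FA.Theta

open FA.Deform

local notation "Qb" => AlgebraicClosure ℚ

/-- Trace and determinant from a characteristic polynomial. -/
lemma trace_det_of_charpoly {R : Type} [CommRing R] [Nontrivial R] {M : M2 R} {t d : R}
    (h : M.charpoly = Polynomial.X ^ 2 - Polynomial.C t * Polynomial.X + Polynomial.C d) :
    M.trace = t ∧ M.det = d := by
  rw [Matrix.charpoly_fin_two] at h
  have h0 := congrArg (fun q => Polynomial.coeff q 0) h
  have h1 := congrArg (fun q => Polynomial.coeff q 1) h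
  simp [Polynomial.coeff_X_pow] at h0 h1
  exact ⟨h1, h0⟩

/-- Commutator trick: multiplying by a unipotent whose commutator is unipotent keeps the trace. -/
lemma trace_mul_of_unipotent {k : Type} [Field k] [CharP k 2] {g g' n : M2 k} (hgg : g' * g = 1)
    (hg : g.det = 1) (hn : n.det = 1) (htn : n.trace = 0)
    (h : (g * n * g' * n).trace = 0) : (g * n).trace = g.trace := by
  have hadj : g' = g.adjugate := by
    have h1 := congrArg (· * g.adjugate) hgg
    simp only [mul_assoc, Matrix.mul_adjugate, hg, one_smul, mul_one, one_mul] at h1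
    exact h1
  have h2 : (2 : k) = 0 := CharTwo.two_eq_zero
  rw [hadj, Matrix.adjugate_fin_two] at h
  simp only [Matrix.det_fin_two, Matrix.trace_fin_two, Matrix.mul_apply, Fin.sum_univ_two,
    Matrix.cons_val', Matrix.cons_val_zero, Matrix.cons_val_one, Matrix.empty_val',
    Matrix.cons_val_fin_one, Matrix.of_apply] at *
  have hsq : (g 0 0 * n 0 0 + g 0 1 * n 1 0 + (g 1 0 * n 0 1 + g 1 1 * n 1 1) -
      (g 0 0 + g 1 1)) ^ 2 = 0 := by
    grind
  exact sub_eq_zero.mp (pow_eq_zero_iff two_ne_zero |>.mp hsq)

/-- The two elements of `GL₂(𝔽₂)` of order three. -/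
lemma eq_or_mul_eq_one : ∀ A B : M2 (ZMod 2), A.trace = 1 → A.det = 1 → B.trace = 1 → B.det = 1 →
    A = B ∨ A * B = 1 := by
  decide

theorem trace_eq_of_dihedral {k : Type} [Field k] [CharP k 2] (r : GQ →* M2 k)
    (e : GQ →* M2 (ZMod 2)) (hr : IsOpen (r.ker : Set GQ)) (he : IsOpen (e.ker : Set GQ))
    (S : Finset ℕ)
    (hfrob : ∀ q : ℕ, q.Prime → q ∉ S → ∀ A : ValuationSubring Qb, A.LiesOverPrime q →
      ∀ σ : GQ, A.IsFrobeniusAt σ q → (r σ).det = 1 ∧ (e σ).det = 1 ∧
        ((r σ).trace = 0 ∨ ((r σ).trace = 1 ∧ (e σ).trace = 1)))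
    {g : GQ} (hg : (r g).trace ≠ 0) (s : GQ) :
    (r s).trace = ZMod.castHom (dvd_refl 2) k (e s).trace := by
  have key : ∀ s : GQ, (r s).det = 1 ∧ (e s).det = 1 ∧
      ((r s).trace = 0 ∨ ((r s).trace = 1 ∧ (e s).trace = 1)) := by
    have hN : IsOpen ((r.ker ⊓ e.ker : Subgroup GQ) : Set GQ) := by
      rw [Subgroup.coe_inf]; exact hr.inter he
    intro s
    refine FA.Density.forall_of_frobenius_pow (r.ker ⊓ e.ker) hN
      (fun s => (r s).det = 1 ∧ (e s).det = 1 ∧
        ((r s).trace = 0 ∨ ((r s).trace = 1 ∧ (e s).trace = 1)))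
      (fun σ n hn hσ => ?_) S (fun q hq hqS A hA σ hσ j => ?_) s
    · rw [map_mul, map_mul, MonoidHom.mem_ker.mp hn.1, MonoidHom.mem_ker.mp hn.2, mul_one, mul_one]
      exact hσ
    · obtain ⟨h1, h2, h3⟩ := hfrob q hq hqS A hA σ hσ
      refine ⟨by rw [map_pow, Matrix.det_pow, h1, one_pow],
        by rw [map_pow, Matrix.det_pow, h2, one_pow], ?_⟩
      set φ := ZMod.castHom (dvd_refl 2) k
      rcases h3 with h | ⟨h, h'⟩
      · left
        rw [map_pow]
        -- trace zero, determinant one: the square is `1`
        have hsq := (r σ).aeval_self_charpoly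
        rw [Matrix.charpoly_fin_two, h, h1] at hsq
        simp only [map_zero, zero_mul, sub_zero, map_one, map_add, map_pow, Polynomial.aeval_X] at hsq
        have h2' : (r σ) ^ 2 = 1 := by
          rw [eq_neg_of_add_eq_zero_left hsq, ← neg_one_smul k (1 : M2 k), CharTwo.neg_eq, one_smul]
        rcases Nat.even_or_odd j with ⟨i, hi⟩ | ⟨i, hi⟩
        · rw [hi, ← two_mul, pow_mul, h2', one_pow, Matrix.trace_one]
          simp [CharTwo.two_eq_zero]
        · rw [hi, pow_succ, pow_mul, h2', one_pow, one_mul, h]
      · have hE : ((φ.mapMatrix (e σ)) ^ j).trace = φ ((e σ) ^ j).trace := by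
          rw [← map_pow, RingHom.mapMatrix_apply, ← AddMonoidHom.map_trace]
        have hpow := (FA.Density.trace_det_pow_eq (A := r σ) (B := φ.mapMatrix (e σ))
          (by rw [h, RingHom.mapMatrix_apply, ← AddMonoidHom.map_trace]
              exact (map_one φ).symm.trans (congrArg φ h'.symm))
          (by rw [h1, ← RingHom.map_det, h2, map_one]) j).1
        rw [map_pow, map_pow, hpow, hE]
        rcases (show ∀ x : ZMod 2, x = 0 ∨ x = 1 by decide) ((e σ) ^ j).trace with h0 | h0
        · left; rw [h0, map_zero]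
        · right; exact ⟨by rw [h0, map_one], h0⟩
  have hgt : (r g).trace = 1 ∧ (e g).trace = 1 := (key g).2.2.resolve_left hg
  have hN0 : ∀ n, e n = 1 → (r n).trace = 0 := fun n hn =>
    (key n).2.2.resolve_right fun h => by
      have h' := h.2
      rw [hn] at h'
      exact absurd h' (by decide)
  have shift : ∀ x n : GQ, e n = 1 → (r (x * n)).trace = (r x).trace := fun x n hn => by
    rw [map_mul]
    refine trace_mul_of_unipotent (g' := r x⁻¹) ?_ (key x).1 (key n).1 (hN0 n hn) ?_
    · rw [← map_mul, inv_mul_cancel, map_one]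
    · rw [← map_mul, ← map_mul, ← map_mul]
      refine hN0 _ ?_
      rw [map_mul, map_mul, map_mul, hn, mul_one, mul_one, ← map_mul, mul_inv_cancel, map_one]
  rcases (key s).2.2 with h0 | ⟨h1, h1'⟩
  · rcases (show ∀ x : ZMod 2, x = 0 ∨ x = 1 by decide) (e s).trace with he0 | he1
    · rw [h0, he0, map_zero]
    exfalso
    rcases eq_or_mul_eq_one _ _ hgt.2 (key g).2.1 he1 (key s).2.1 with h | h
    · have hn : e (g⁻¹ * s) = 1 := by
        rw [map_mul, ← h, ← map_mul, inv_mul_cancel, map_one]
      have := shift g (g⁻¹ * s) hn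
      rw [mul_inv_cancel_left, h0, hgt.1] at this
      exact zero_ne_one this
    · have hn : e (g * s) = 1 := by rw [map_mul, h]
      have := shift g⁻¹ (g * s) hn
      rw [inv_mul_cancel_left, h0] at this
      have hinv : (r g⁻¹).trace = (r g).trace := by
        have hm : r g⁻¹ * r g = 1 := by rw [← map_mul, inv_mul_cancel, map_one]
        have hadj : r g⁻¹ = (r g).adjugate := by
          have h1 := congrArg (· * (r g).adjugate) hm
          simp only [mul_assoc, Matrix.mul_adjugate, (key g).1, one_smul, mul_one, one_mul] at h1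
          exact h1
        rw [hadj, Matrix.adjugate_fin_two]
        simp [Matrix.trace_fin_two, add_comm]
      rw [hinv, hgt.1] at this
      exact zero_ne_one this
  · rw [h1, h1', map_one]

end FA.Theta
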