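import Fermat.Agent.Theta.CubicField
import Fermat.Agent.Theta.Galois
import Fermat.Agent.Switch.AtTwo
import Fermat.Agent.Frob.Charpoly
import Fermat.Agent.Deform.Frobenius
import Fermat.Prelude.Def_FLTPrelim_ModularRep

/-!
# Residual modularity at `2` of a semistable curve with supersingular reduction at `2`

The theta series of the cubic character of `ℚ(√Δ)` cut out by the `2`-torsion field, times the
weight one theta series of the principal form, is congruent mod `2` to an eigenform of weight two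
and level `4|d|`, `d` the product of the bad primes.  Its residual representation has the traces
of `E[2]`.
-/

set_option autoImplicit false

noncomputable section

open Module NumberField Ideal WeierstrassCurve
open scoped nonZeroDivisors WeierstrassCurve.Affine

namespace FA.Theta

local notation "Qb" => AlgebraicClosure ℚ

namespace IQ

variable {K : Type} [Field K] [NumberField K] {D : ℕ} (S : IQ K D)
  (c : Ray K →* Multiplicative (ZMod 3))

/-- A surjective character is nontrivial at some prime of degree one outside `2D`. -/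
lemma exists_hasDegOne (hc : Function.Surjective c) :
    ∃ l : ℕ, l.Prime ∧ ¬ l ∣ 4 * D ∧ S.HasDegOne c l := by
  obtain ⟨b, hb, hcb⟩ := S.exists_coprime_nontrivial c hc D S.pos.ne'
  by_contra hcon
  push Not at hcon
  refine hcb ?_
  have key : ∀ I : Ideal (𝓞 K), ∀ hI : I ∈ oddIdeals K, (absNorm I).Coprime D →
      c (S.cls ⟨I, hI⟩) = 1 := by
    intro I
    induction I using UniqueFactorizationMonoid.induction_on_prime with
    | h₁ => intro hI; exact absurd rfl (ne_bot_of_odd hI)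
    | h₂ I hu =>
      intro hI _
      obtain rfl := Ideal.isUnit_iff.mp hu
      have : (⟨⊤, hI⟩ : oddIdeals K) = 1 := Subtype.ext one_eq_top.symm
      rw [this, map_one, map_one]
    | h₃ I P hI0 hP ih =>
      intro hPI hcop
      rw [mem_oddIdeals, map_mul, Nat.odd_mul] at hPI
      rw [map_mul, Nat.coprime_mul_iff_left] at hcop
      have hPI' : (⟨P * I, by rw [mem_oddIdeals, map_mul, Nat.odd_mul]; exact hPI⟩ : oddIdeals K) =
          ⟨P, hPI.1⟩ * ⟨I, hPI.2⟩ := rfl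
      rw [hPI', map_mul, map_mul, ih hPI.2 hcop.2, mul_one]
      have hPm : P.IsMaximal := (isPrime_of_prime hP).isMaximal hP.ne_zero
      have hne1 : absNorm P ≠ 1 := fun h => hPm.ne_top (absNorm_eq_one_iff.mp h)
      set p := (absNorm P).minFac
      have hp : p.Prime := Nat.minFac_prime hne1
      obtain ⟨Q, hQ, hpQ, hQP⟩ := exists_prime_dvd_of_dvd_absNorm hp (I := P) (Nat.minFac_dvd _)
      have hQeq : P = Q := hPm.eq_of_le hQ.ne_top (Ideal.le_of_dvd hQP)
      rw [← hQeq] at hpQ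
      have hle : span {(p : 𝓞 K)} ≤ P := (span_singleton_le_iff_mem _).mpr hpQ
      have hdvd := absNorm_dvd_absNorm_of_le hle
      rw [absNorm_span_natCast, RingOfIntegers.rank, S.deg] at hdvd
      obtain ⟨i, hi, hPi⟩ := (Nat.dvd_prime_pow hp).mp hdvd
      interval_cases i
      · exact absurd hPi hne1
      · rw [pow_one] at hPi
        by_contra hcP
        refine hcon p hp ?_ ⟨⟨P, hPI.1⟩, hPi, hcP⟩
        intro h
        rcases hp.dvd_mul.mp h with h | h
        · have : p = 2 := (Nat.prime_dvd_prime_iff_eq hp Nat.prime_two).mp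
            (hp.dvd_of_dvd_pow (show p ∣ 2 ^ 2 from h))
          have h2 := hPI.1
          rw [hPi, this] at h2
          exact absurd h2 (by decide)
        · exact hp.not_dvd_one (hcop.1 ▸ Nat.dvd_gcd (by rw [hPi]) h)
      · obtain ⟨R, hR⟩ := Ideal.dvd_iff_le.mpr hle
        have hnorm := congrArg absNorm hR
        rw [absNorm_span_natCast, RingOfIntegers.rank, S.deg, map_mul, hPi] at hnorm
        have hR1 : absNorm R = 1 := by
          have : 0 < p ^ 2 := pow_pos hp.pos 2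
          exact (mul_eq_left₀ this.ne').mp hnorm.symm
        rw [absNorm_eq_one_iff.mp hR1, mul_top] at hR
        have hodd : Odd p := by
          rcases hp.eq_two_or_odd' with h | h
          · have h2 := hPI.1
            rw [hPi, h] at h2
            exact absurd h2 (by decide)
          · exact h
        rw [S.cls_eq_one_of_oneMod2 (x := (p : 𝓞 K)) hR.symm (by
          obtain ⟨k, hk⟩ := hodd
          exact ⟨k, by rw [hk]; push_cast; ring⟩), map_one]
  exact key _ b.2 hb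

end IQ

/-- Good reduction at `2` with `a₂ = 0` forces `a₁` even. -/
lemma a₁_even_of_apOfModel_two {W : WeierstrassCurve ℤ} (h2 : W.IsGoodPrimeFor 2)
    (hap : W.apOfModel 2 = 0) : (2 : ℤ) ∣ W.a₁ ∧ ¬ (2 : ℤ) ∣ W.a₃ := by
  have key : ∀ a₁ a₂ a₃ a₄ a₆ : ZMod 2,
      (⟨a₁, a₂, a₃, a₄, a₆⟩ : WeierstrassCurve (ZMod 2)).Δ ≠ 0 →
      (FA.Switch.nsSet a₁ a₂ a₃ a₄ a₆).card = 2 → a₁ = 0 ∧ a₃ ≠ 0 := by
    intro a₁ a₂ a₃ a₄ a₆
    simp only [WeierstrassCurve.Δ, WeierstrassCurve.b₂, WeierstrassCurve.b₄, WeierstrassCurve.b₆,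
      WeierstrassCurve.b₈]
    revert a₁ a₂ a₃ a₄ a₆
    decide
  have hred : W.reductionMod 2 = ⟨(W.a₁ : ZMod 2), W.a₂, W.a₃, W.a₄, W.a₆⟩ := by
    ext <;> simp [reductionMod]
  have hd : (⟨(W.a₁ : ZMod 2), W.a₂, W.a₃, W.a₄, W.a₆⟩ : WeierstrassCurve (ZMod 2)).Δ ≠ 0 := by
    rw [← hred, reductionMod, WeierstrassCurve.map_Δ, eq_intCast]
    exact fun h => h2 ((ZMod.intCast_zmod_eq_zero_iff_dvd _ _).mp h)
  rw [apOfModel, traceOfFrobenius, FA.Switch.card_eq_nsSet, hred, Nat.card_zmod] at hap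
  obtain ⟨h1, h3⟩ := key _ _ _ _ _ hd (by push_cast at hap; omega)
  exact ⟨(ZMod.intCast_zmod_eq_zero_iff_dvd _ 2).mp h1,
    fun h => h3 ((ZMod.intCast_zmod_eq_zero_iff_dvd _ 2).mpr h)⟩

lemma zmod_two_cases : ∀ x : ZMod 2, x = 0 ∨ x = 1 := by decide

/-- The product of the bad primes. -/
def badProd (W : WeierstrassCurve ℤ) : ℕ := ∏ q ∈ W.Δ.natAbs.primeFactors, q

lemma squarefree_prod_primes (S : Finset ℕ) (hS : ∀ p ∈ S, p.Prime) :
    Squarefree (∏ p ∈ S, p) := by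
  classical
  induction S using Finset.induction_on with
  | empty => simp
  | insert a S ha ih =>
    have hp := hS a (Finset.mem_insert_self _ _)
    rw [Finset.prod_insert ha, Nat.squarefree_mul]
    · exact ⟨hp.squarefree, ih fun p h => hS p (Finset.mem_insert_of_mem h)⟩
    · refine Nat.Coprime.prod_right fun q hq => ?_
      exact (Nat.coprime_primes hp (hS q (Finset.mem_insert_of_mem hq))).mpr
        fun e => ha (e ▸ hq)

/-- The cubic datum of a curve. -/
lemma exists_datum {W : WeierstrassCurve ℤ} (hneg : W.Δ < 0) (hss : W.IsSemistableModel)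
    (h2 : W.IsGoodPrimeFor 2) (hap : W.apOfModel 2 = 0)
    (hodd : ∀ q : ℕ, q.Prime → (q : ℤ) ∣ W.Δ → Odd (padicValInt q W.Δ))
    (hne3 : ∃ q : ℕ, q.Prime ∧ (q : ℤ) ∣ W.Δ ∧ q ≠ 3) :
    ∃ T : CubicDatum (badProd W), W.Δ = -(badProd W : ℤ) * T.s ^ 2 ∧
      ∀ l : ℕ, l.Prime → l ≠ 2 → W.IsGoodPrimeFor l → (2 : ℤ) ∣ W.apOfModel l →
        ∃ r : ℤ, (l : ℤ) ∣ T.ev r := by
  classical
  obtain ⟨⟨c, hc⟩, h3⟩ := a₁_even_of_apOfModel_two h2 hap
  obtain ⟨d, hd⟩ := Int.not_even_iff_odd.mp fun h => h3 (even_iff_two_dvd.mp h)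
  set n := W.Δ.natAbs with hn
  have hn0 : n ≠ 0 := Int.natAbs_ne_zero.mpr hneg.ne
  set D := badProd W with hD
  set s : ℕ := ∏ q ∈ n.primeFactors, q ^ (n.factorization q / 2) with hs
  have hDs : D * s ^ 2 = n := by
    have h1 : D * s ^ 2 = ∏ q ∈ n.primeFactors, q * (q ^ (n.factorization q / 2)) ^ 2 := by
      rw [Finset.prod_mul_distrib, Finset.prod_pow]
      rfl
    rw [h1]
    conv_rhs => rw [← Nat.factorization_prod_pow_eq_self hn0, Finsupp.prod, Nat.support_factorization]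
    refine Finset.prod_congr rfl fun q hq => ?_
    have hqp := Nat.prime_of_mem_primeFactors hq
    have hv : Odd (n.factorization q) := by
      have h := hodd q hqp (Int.natCast_dvd.mpr (Nat.dvd_of_mem_primeFactors hq))
      rwa [padicValInt, ← Nat.factorization_def _ hqp] at h
    obtain ⟨j, hj⟩ := hv
    rw [← pow_mul, ← pow_succ', hj]
    congr 1
    omega
  have hΔ : W.Δ = -(D : ℤ) * (s : ℤ) ^ 2 := by
    have e : (n : ℤ) = -W.Δ := by rw [hn, Int.ofNat_natAbs_of_nonpos hneg.le]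
    rw [← hDs] at e
    push_cast at e
    linarith
  set B : ℤ := c ^ 2 + W.a₂
  set C : ℤ := W.a₄ + c * W.a₃
  set E : ℤ := W.b₆
  have hb2 : W.b₂ = 4 * B := by simp only [B, WeierstrassCurve.b₂, hc]; ring
  have hb4 : W.b₄ = 2 * C := by simp only [C, WeierstrassCurve.b₄, hc]; ring
  have hEdef : E = 4 * (d ^ 2 + d + W.a₆) + 1 := by
    simp only [E, WeierstrassCurve.b₆, hd]; ring
  have hdelta : W.Δ = -16 * B ^ 3 * E + 16 * B ^ 2 * C ^ 2 - 64 * C ^ 3 - 27 * E ^ 2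
      + 72 * B * C * E := by
    have h8 : 4 * W.b₈ = W.b₂ * W.b₆ - W.b₄ ^ 2 := W.b_relation
    rw [hb2, hb4] at h8
    have h8' : W.b₈ = B * E - C ^ 2 := by linarith
    rw [WeierstrassCurve.Δ, hb2, hb4, h8']
    ring
  have hsodd : Odd s := by
    refine Nat.not_even_iff_odd.mp fun he => h2 ?_
    obtain ⟨t, ht⟩ := he
    exact ⟨-(2 * (D : ℤ) * (t : ℤ) ^ 2), by rw [hΔ, ht]; push_cast; ring⟩
  have hD8 : D % 8 = 3 := by
    have hΔ8 : (8 : ℤ) ∣ W.Δ - 5 := by
      refine ⟨-2 * B ^ 3 * E + 2 * B ^ 2 * C ^ 2 - 8 * C ^ 3 + 9 * B * C * E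
        - 54 * (d ^ 2 + d + W.a₆) ^ 2 - 27 * (d ^ 2 + d + W.a₆) - 4, ?_⟩
      rw [hdelta, hEdef]; ring
    obtain ⟨j, hj⟩ := hsodd
    obtain ⟨i, hi⟩ := Int.even_mul_succ_self (j : ℤ)
    obtain ⟨z, hz⟩ := hΔ8
    rw [hΔ, hj] at hz
    have e : ((2 * j + 1 : ℕ) : ℤ) ^ 2 = 8 * i + 1 := by push_cast; linear_combination 4 * hi
    rw [e] at hz
    have : ((D : ℤ)) % 8 = 3 := by
      have : (D : ℤ) = 8 * (-z - (D : ℤ) * i) - 5 := by linarith
      omega
    omega
  have hgt : 3 < D := by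
    obtain ⟨q, hq, hqd, hq3⟩ := hne3
    have hqD : q ∣ D := Finset.dvd_prod_of_mem _
      (Nat.mem_primeFactors.mpr ⟨hq, Int.natCast_dvd.mp hqd, hn0⟩)
    rcases (show D = 3 ∨ 3 < D by omega) with h | h
    · rw [h] at hqD
      exact absurd ((Nat.prime_dvd_prime_iff_eq hq Nat.prime_three).mp hqD) hq3
    · exact h
  have hcop : IsCoprime (B ^ 2 - 3 * C) ((D : ℤ) * (s : ℤ) ^ 2) := by
    refine isCoprime_of_prime_dvd (by
      rintro ⟨-, h⟩
      rw [hΔ] at hneg
      linarith) fun z hz hzc hzd => ?_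
    have hq : z.natAbs.Prime := Int.prime_iff_natAbs_prime.mp hz
    refine hss z.natAbs hq ?_ ?_
    · rw [hΔ, neg_mul, dvd_neg]; exact Int.natAbs_dvd.mpr hzd
    · rw [Int.natAbs_dvd, show W.c₄ = (B ^ 2 - 3 * C) * 16 by
        rw [WeierstrassCurve.c₄, hb2, hb4]; ring]
      exact hzc.mul_right _
  refine ⟨⟨B, C, E, s, by rw [hEdef]; omega, ?_, hcop,
    squarefree_prod_primes _ fun p hp => Nat.prime_of_mem_primeFactors hp, hD8, hgt⟩, hΔ, ?_⟩
  · linear_combination 4 * (hΔ.symm.trans hdelta).symm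
  intro l hl hl2 hgood heven
  have : Fact l.Prime := ⟨hl⟩
  set V := W.reductionMod l with hV
  have hcard : 2 ∣ Nat.card V.toAffine.Point := by
    have h : (W.apOfModel l) = (l : ℤ) + 1 - (Nat.card V.toAffine.Point : ℤ) := by
      rw [apOfModel, traceOfFrobenius, Nat.card_zmod]; rfl
    have hlo := hl.eq_two_or_odd.resolve_left hl2
    omega
  obtain ⟨P, hP⟩ := exists_prime_addOrderOf_dvd_card' 2 hcard
  rcases P with _ | ⟨x, y, hxy⟩
  · rw [← Affine.Point.zero_def, addOrderOf_zero] at hP; omega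
  have h2P : (Affine.Point.some x y hxy : V.toAffine.Point) + Affine.Point.some x y hxy = 0 := by
    rw [← two_nsmul, ← hP, addOrderOf_nsmul_eq_zero]
  rw [← eq_neg_iff_add_eq_zero, Affine.Point.neg_some] at h2P
  obtain ⟨-, hy⟩ := Affine.Point.some.inj h2P
  rw [Affine.negY] at hy
  have heq := (Affine.nonsingular_iff _ _).mp hxy |>.1
  rw [Affine.equation_iff] at heq
  refine ⟨((2 * x).val : ℤ), ?_⟩
  rw [← ZMod.intCast_zmod_eq_zero_iff_dvd, ← eq_intCast (Int.castRingHom (ZMod l)),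
    CubicDatum.map_ev, eq_intCast, Int.cast_natCast, ZMod.natCast_zmod_val]
  have ha1 : V.a₁ = 2 * (c : ZMod l) := by simp [hV, reductionMod, hc]
  have ha : V.a₂ = (W.a₂ : ZMod l) ∧ V.a₃ = (W.a₃ : ZMod l) ∧ V.a₄ = (W.a₄ : ZMod l) ∧
      V.a₆ = (W.a₆ : ZMod l) := by simp [hV, reductionMod]
  simp only [CubicDatum.ev, B, C, E, WeierstrassCurve.b₆]
  push_cast
  simp only [ha1, ha.1, ha.2.1, ha.2.2.1, ha.2.2.2] at heq hy
  linear_combination (-8 : ZMod l) * heq + 2 * (2 * y + 2 * (c : ZMod l) * x + (W.a₃ : ZMod l)) * hy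

/-- The predicted values are the traces of `E[2]`. -/
theorem exists_congruent_datum {W : WeierstrassCurve ℤ} (hneg : W.Δ < 0)
    (hss : W.IsSemistableModel) (h2 : W.IsGoodPrimeFor 2) (hap : W.apOfModel 2 = 0)
    (hodd : ∀ q : ℕ, q.Prime → (q : ℤ) ∣ W.Δ → Odd (padicValInt q W.Δ))
    (hne3 : ∃ q : ℕ, q.Prime ∧ (q : ℤ) ∣ W.Δ ∧ q ≠ 3)
    (hatt : ∀ (g : CuspForm (CongruenceSubgroup.Gamma0 (4 * badProd W)) 2),
      g.IsNormalizedEigenform → ∀ (k : Type) [Field k] [CharP k 2]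
        (φ : integralClosure ℤ ℂ →+* k), ∃ ρ : ResidualGaloisRep k, ρ.IsAttachedTo g φ) :
    ∃ (T : CubicDatum (badProd W)) (c : Ray T.QF →* Multiplicative (ZMod 3)),
      Function.Surjective c ∧ ∀ l : ℕ, l.Prime → ¬ l ∣ 4 * badProd W →
        (W.apOfModel l : ZMod 2) = (T.iq.predicted c l : ZMod 2) := by
  classical
  obtain ⟨T, hΔ, hroot⟩ := exists_datum hneg hss h2 hap hodd hne3
  let D := badProd W
  obtain ⟨c, hc, hno⟩ := T.exists_character
  obtain ⟨f, m, hf, hm, h2m, hcong⟩ := T.iq.exists_eigenform c hc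
  have h2m' : ((2 : ℕ) : integralClosure ℤ ℂ) ∈ m := by exact_mod_cast h2m
  let k := integralClosure ℤ ℂ ⧸ m
  let : Field k := Ideal.Quotient.field m
  let φ : integralClosure ℤ ℂ →+* k := Ideal.Quotient.mk m
  have : CharP k 2 := CharTwo.of_one_ne_zero_of_two_eq_zero one_ne_zero (by
    rw [← map_ofNat φ 2]
    exact Ideal.Quotient.eq_zero_iff_mem.mpr h2m)
  obtain ⟨ρ, hρ⟩ := hatt f hf k φ
  let r := FA.Deform.resMatrix ρ
  have hr : IsOpen (r.ker : Set FA.Deform.GQ) := by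
    obtain ⟨L, hL, h⟩ := FA.Deform.resMatrix_eq_one ρ
    exact Subgroup.isOpen_mono (H₁ := L.fixingSubgroup)
      (fun σ hσ => h σ ((IntermediateField.mem_fixingSubgroup_iff L σ).mp hσ))
      (IntermediateField.fixingSubgroup_isOpen L)
  have : (FA.Frob.ratCurve W).IsElliptic := FA.Frob.ratCurve_isElliptic_of_Δ hneg.ne
  have : Fact (Nat.Prime 2) := ⟨Nat.prime_two⟩
  let ρE : ResidualGaloisRep (ZMod 2) := (FA.Frob.ratCurve W).residualGaloisRepOf 2
    (FA.EC.natCard_torsion _ two_ne_zero) (FA.EC.galoisFactorsThroughFiniteLevel _ two_ne_zero)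
  let e := FA.Deform.resMatrix ρE
  have he : IsOpen (e.ker : Set FA.Deform.GQ) := by
    obtain ⟨L, hL, h⟩ := FA.Deform.resMatrix_eq_one ρE
    exact Subgroup.isOpen_mono (H₁ := L.fixingSubgroup)
      (fun σ hσ => h σ ((IntermediateField.mem_fixingSubgroup_iff L σ).mp hσ))
      (IntermediateField.fixingSubgroup_isOpen L)
  -- the traces at good primes
  have hgoodD : ∀ l : ℕ, l.Prime → ¬ l ∣ 4 * D → W.IsGoodPrimeFor l ∧
      ¬ (l : ℤ) ∣ (D : ℤ) * (2 * T.s) ^ 2 ∧ l ≠ 2 := by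
    intro l hl hlN
    have hg : W.IsGoodPrimeFor l := fun h => hlN (dvd_mul_of_dvd_right
      (Finset.dvd_prod_of_mem _ (Nat.mem_primeFactors.mpr
        ⟨hl, Int.natCast_dvd.mp h, Int.natAbs_ne_zero.mpr hneg.ne⟩)) 4)
    have hl2 : l ≠ 2 := fun e => hlN (e ▸ dvd_mul_of_dvd_left (by norm_num) D)
    refine ⟨hg, fun h => ?_, hl2⟩
    have hp := Nat.prime_iff_prime_int.mp hl
    rw [mul_pow, mul_left_comm] at h
    rcases hp.dvd_or_dvd h with h | h
    · exact hl2 ((Nat.prime_dvd_prime_iff_eq hl Nat.prime_two).mp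
        (Int.natCast_dvd_natCast.mp (hp.dvd_of_dvd_pow h)))
    · refine hg ?_
      show (l : ℤ) ∣ W.Δ
      rw [hΔ, neg_mul, dvd_neg]
      exact h
  have hat : ∀ l : ℕ, l.Prime → ¬ l ∣ 4 * D → ∀ A : ValuationSubring Qb, A.LiesOverPrime l →
      ∀ σ : FA.Deform.GQ, A.IsFrobeniusAt σ l →
        (r σ).trace = (if T.iq.HasDegOne c l then 1 else 0) ∧ (r σ).det = 1 ∧
        (e σ).trace = (W.apOfModel l : ZMod 2) ∧ (e σ).det = 1 ∧
        ∀ a : integralClosure ℤ ℂ, (a : ℂ) = ModularFormClass.qCoeff f l → φ a = (r σ).trace := by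
    intro l hl hlN A hA σ hσ
    obtain ⟨hg, -, hl2⟩ := hgoodD l hl hlN
    have hl1 : ∀ (R : Type) [CommRing R] [CharP R 2], (l : R) = 1 := by
      intro R _ _
      obtain ⟨j, hj⟩ := hl.odd_of_ne_two hl2
      rw [hj]
      push_cast
      rw [CharTwo.two_eq_zero, zero_mul, zero_add]
    obtain ⟨a, ha, hchar⟩ := hρ l hl hlN (by rw [hl1]; exact one_ne_zero) A hA σ hσ
    have hr' : (r σ).charpoly = _ := (LinearMap.charpoly_toMatrix (ρ.ρ σ)
      (FA.Deform.resBasis ρ)).trans hchar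
    obtain ⟨htr, hdet⟩ := trace_det_of_charpoly hr'
    obtain ⟨x, hx, hxm⟩ := hcong l hl hlN
    have hax : a = x := Subtype.ext (ha.trans hx.symm)
    have hE := FA.Frob.charpoly_galoisRep W hl hg (p := 2) hl2.symm hA hσ
    have he' : (e σ).charpoly = _ := (LinearMap.charpoly_toMatrix (ρE.ρ σ)
      (FA.Deform.resBasis ρE)).trans hE
    obtain ⟨htE, hdE⟩ := trace_det_of_charpoly he'
    refine ⟨?_, by rw [hdet, hl1], htE, by rw [hdE, hl1], fun a' ha' => ?_⟩
    · rw [htr, hax]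
      have : φ x = φ (if T.iq.HasDegOne c l then 1 else 0) := Ideal.Quotient.eq.mpr hxm
      rw [this]
      split_ifs <;> simp
    · rw [htr, show a' = a from Subtype.ext (ha'.trans ha.symm)]
  have hz2 : ∀ x : ZMod 2, x = 0 ∨ x = 1 := zmod_two_cases
  have hfrob : ∀ q : ℕ, q.Prime → q ∉ (4 * D).primeFactors → ∀ A : ValuationSubring Qb,
      A.LiesOverPrime q → ∀ σ : FA.Deform.GQ, A.IsFrobeniusAt σ q →
        (r σ).det = 1 ∧ (e σ).det = 1 ∧
          ((r σ).trace = 0 ∨ ((r σ).trace = 1 ∧ (e σ).trace = 1)) := by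
    intro q hq hqS A hA σ hσ
    have hqN : ¬ q ∣ 4 * D := fun h =>
      hqS (Nat.mem_primeFactors.mpr ⟨hq, h, mul_ne_zero four_ne_zero T.pos.ne'⟩)
    obtain ⟨htr, hdet, htE, hdE, -⟩ := hat q hq hqN A hA σ hσ
    refine ⟨hdet, hdE, ?_⟩
    obtain ⟨hg, hqD, hq2⟩ := hgoodD q hq hqN
    split_ifs at htr with h
    · refine Or.inr ⟨htr, ?_⟩
      rw [htE]
      by_contra hne
      have h0 : (W.apOfModel q : ZMod 2) = 0 :=
        (hz2 _).resolve_right hne
      obtain ⟨z, hz⟩ := hroot q hq hq2 hg ((ZMod.intCast_zmod_eq_zero_iff_dvd _ 2).mp h0)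
      exact hno q hq hqD h z hz
    · exact Or.inl htr
  obtain ⟨l₀, hl₀, hl₀N, hdeg⟩ := T.iq.exists_hasDegOne c hc
  obtain ⟨A₀, hA₀⟩ := FA.Deform.exists_liesOverPrime hl₀
  obtain ⟨g₀, hg₀⟩ := FA.Deform.exists_isFrobeniusAt hl₀ hA₀
  have hg₀t : (r g₀).trace ≠ 0 := by
    rw [(hat l₀ hl₀ hl₀N A₀ hA₀ g₀ hg₀).1, if_pos hdeg]
    exact one_ne_zero
  have htraces := trace_eq_of_dihedral r e hr he _ hfrob hg₀t
  refine ⟨T, c, hc, fun l hl hlN => ?_⟩
  obtain ⟨A, hA⟩ := FA.Deform.exists_liesOverPrime hl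
  obtain ⟨σ, hσ⟩ := FA.Deform.exists_isFrobeniusAt hl hA
  obtain ⟨htr, -, htE, -, -⟩ := hat l hl hlN A hA σ hσ
  have h := htraces σ
  rw [htr, htE] at h
  refine (ZMod.castHom (dvd_refl 2) k).injective ?_
  simp only [IQ.predicted]
  split_ifs at h ⊢ <;> simpa using h.symm

/-- Residual modularity at `2`, given the residual representations of the eigenforms. -/
theorem isResiduallyModularOfLevel_two {W : WeierstrassCurve ℤ} (hneg : W.Δ < 0)
    (hss : W.IsSemistableModel) (h2 : W.IsGoodPrimeFor 2) (hap : W.apOfModel 2 = 0)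
    (hodd : ∀ q : ℕ, q.Prime → (q : ℤ) ∣ W.Δ → Odd (padicValInt q W.Δ))
    (hne3 : ∃ q : ℕ, q.Prime ∧ (q : ℤ) ∣ W.Δ ∧ q ≠ 3)
    (hatt : ∀ (g : CuspForm (CongruenceSubgroup.Gamma0 (4 * badProd W)) 2),
      g.IsNormalizedEigenform → ∀ (k : Type) [Field k] [CharP k 2]
        (φ : integralClosure ℤ ℂ →+* k), ∃ ρ : ResidualGaloisRep k, ρ.IsAttachedTo g φ) :
    W.IsResiduallyModularOfLevel 2 (4 * badProd W) := by
  classical
  obtain ⟨T, c, hc, hpred⟩ := exists_congruent_datum hneg hss h2 hap hodd hne3 hatt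
  obtain ⟨f, m, hf, hm, h2m, hcong⟩ := T.iq.exists_eigenform c hc
  refine ⟨f, m, hf, hm, by exact_mod_cast h2m, fun l hl _ hlN _ => ?_⟩
  obtain ⟨x, hx, hxm⟩ := hcong l hl hlN
  refine ⟨x, hx, ?_⟩
  have h := (ZMod.intCast_eq_intCast_iff_dvd_sub _ _ 2).mp (hpred l hl hlN)
  obtain ⟨z, hz⟩ := h
  have e : x - ((W.apOfModel l : ℤ) : integralClosure ℤ ℂ) =
      (x - (T.iq.predicted c l : integralClosure ℤ ℂ)) + 2 * (z : integralClosure ℤ ℂ) := by
    have h' := congrArg (Int.cast : ℤ → integralClosure ℤ ℂ) hz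
    push_cast at h'
    linear_combination h'
  rw [e]
  refine add_mem ?_ (Ideal.mul_mem_right _ _ h2m)
  convert hxm using 2
  simp only [IQ.predicted]
  split_ifs <;> simp

end FA.Theta
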