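import Fermat.Agent.Theta.Poisson
import Fermat.Agent.Eisenstein.QExp
import Fermat.Prelude.Def_FLTPrelim_Modularity

/-!
# Binary theta series: `Γ₀(4D)` and all cusps

`θ_Q (γτ) = (cτ+d) (G(b,d)/d) θ_Q τ` for `γ ∈ Γ₀(4D)`, and the product of two theta series of the
same determinant is invariant in weight two.  At any cusp the limit is a Gauss sum.
-/

set_option autoImplicit false

noncomputable section

open UpperHalfPlane hiding I
open Complex Filter Topology CongruenceSubgroup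
open scoped Real MatrixGroups ModularForm

local notation "𝕢" => Function.Periodic.qParam

namespace FA.Theta

/-- Residues times the lattice. -/
def resEquiv (d : ℕ) [NeZero d] : (ZMod d × ZMod d) × (ℤ × ℤ) ≃ ℤ × ℤ where
  toFun p := ((p.1.1.val : ℤ) + d * p.2.1, (p.1.2.val : ℤ) + d * p.2.2)
  invFun v := (((v.1 : ZMod d), (v.2 : ZMod d)), (v.1 / d, v.2 / d))
  left_inv p := by
    have hd : (d : ℤ) ≠ 0 := by exact_mod_cast NeZero.ne d
    have h : ∀ (r : ZMod d) (m : ℤ), ((r.val : ℤ) + d * m) / (d : ℤ) = m := fun r m => by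
      rw [Int.add_mul_ediv_left _ _ hd, Int.ediv_eq_zero_of_lt (by positivity)
        (by exact_mod_cast ZMod.val_lt r), zero_add]
    simp only [h, Int.cast_add, Int.cast_natCast, Int.cast_mul, ZMod.natCast_self, zero_mul,
      add_zero, ZMod.natCast_zmod_val]
  right_inv v := by
    simp only [ZMod.val_intCast, Int.emod_add_mul_ediv]

lemma stdAddChar_ex {d : ℕ} [NeZero d] (j : ℤ) :
    ZMod.stdAddChar (j : ZMod d) = ex ((j : ℂ) / d) := by
  rw [ZMod.stdAddChar_coe, ex]; congr 1; ring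

namespace BQF

variable {D : ℕ} (Q : BQF D)

/-- The theta series. -/
def theta (τ : ℍ) : ℂ := ∑' v : ℤ × ℤ, ex ((τ : ℂ) * Q.val ((v.1 : ℂ), (v.2 : ℂ)))

/-- Its q-series. -/
def series : PowerSeries ℂ := PowerSeries.mk fun n => (Q.rep n : ℂ)

lemma summable_theta {z : ℂ} (hz : 0 < z.im) :
    Summable fun v : ℤ × ℤ => ex (z * Q.val ((v.1 : ℂ), (v.2 : ℂ))) := by
  simpa using Q.summable_val hz (0, 0)

theorem hasQ_theta : FA.Eis.HasQ 1 Q.theta Q.series := by
  intro τ
  let g : ℤ × ℤ → ℕ := fun v => (Q.val v).toNat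
  have hterm : ∀ v : ℤ × ℤ, ex ((τ : ℂ) * Q.val ((v.1 : ℂ), (v.2 : ℂ))) = 𝕢 1 τ ^ g v := by
    intro v
    have h1 : ((g v : ℕ) : ℤ) = Q.val v := Int.toNat_of_nonneg (Q.val_nonneg v)
    have h2 : Q.val ((v.1 : ℂ), (v.2 : ℂ)) = ((g v : ℕ) : ℂ) := by
      rw [← Int.cast_natCast (R := ℂ) (g v), h1]
      exact (Q.map_val (Int.castRingHom ℂ) v).symm
    rw [h2, Function.Periodic.qParam, ← Complex.exp_nat_mul, ex]
    congr 1
    push_cast
    ring
  have hfib : ∀ n, {v | g v = n} = {v : ℤ × ℤ | Q.val v = n} := fun n => by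
    ext v
    simp only [Set.mem_ofPred_eq, g]
    have := Q.val_nonneg v
    omega
  have hfin : ∀ n, {v | g v = n}.Finite := fun n => (hfib n).symm ▸ Q.finite_val_eq n
  refine ((Equiv.sigmaFiberEquiv g).hasSum_iff.mpr (Q.summable_theta τ.im_pos).hasSum).sigma
    fun n => ?_
  have : Fintype {v // g v = n} := (hfin n).fintype
  convert hasSum_fintype (fun _ : {v // g v = n} => 𝕢 1 (τ : ℂ) ^ n) using 1
  · funext v
    simp [hterm, v.2]
  rw [Finset.sum_const, nsmul_eq_mul, Finset.card_univ, series, PowerSeries.coeff_mk, rep]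
  congr 2
  exact (Fintype.card_of_subtype _ fun v => by simp [← hfib n]).symm

lemma summable_dual {z : ℂ} (hz : 0 < z.im) :
    Summable fun w : ℤ × ℤ => ex (-(Q.adj.val ((w.1 : ℂ), (w.2 : ℂ))) / (4 * D * z)) := by
  have hz0 : z ≠ 0 := fun h => by simp [h] at hz
  have him : 0 < (-1 / (4 * (D : ℂ) * z)).im := by
    rw [neg_div, Complex.neg_im, one_div, Complex.inv_im, neg_div, neg_neg]
    refine div_pos ?_ (Complex.normSq_pos.mpr (by simp [hz0, Q.D_pos.ne']))
    simp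
    have : (0 : ℝ) < (D : ℝ) := by exact_mod_cast Q.D_pos
    positivity
  refine (Q.adj.summable_theta him).congr fun w => ?_
  congr 1
  ring

/-- Splitting modulo `d` and Poisson summation. -/
theorem split_poisson {d : ℕ} [NeZero d] (β : ℤ) {z : ℂ} (hz : 0 < z.im) :
    ∑' v : ℤ × ℤ, ex (((β : ℂ) / d + z / (d : ℂ) ^ 2) * Q.val ((v.1 : ℂ), (v.2 : ℂ))) =
      I / (2 * z * (Real.sqrt D : ℝ)) *
        ∑' w : ℤ × ℤ, Q.gauss d β ((w.1 : ZMod d), (w.2 : ZMod d)) *
          ex (-(Q.adj.val ((w.1 : ℂ), (w.2 : ℂ))) / (4 * D * z)) := by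
  have hd : (d : ℂ) ≠ 0 := by exact_mod_cast NeZero.ne d
  set f : ℤ × ℤ → ℂ := fun v =>
    ex (((β : ℂ) / d + z / (d : ℂ) ^ 2) * Q.val ((v.1 : ℂ), (v.2 : ℂ)))
  have him : 0 < ((β : ℂ) / d + z / (d : ℂ) ^ 2).im := by
    have : (0 : ℝ) < (d : ℝ) := by exact_mod_cast NeZero.pos d
    rw [show (d : ℂ) ^ 2 = (((d : ℝ) ^ 2 : ℝ) : ℂ) by push_cast; ring, Complex.add_im,
      show (β : ℂ) / d = (((β : ℝ) / d : ℝ) : ℂ) by push_cast; ring, Complex.ofReal_im, zero_add,
      Complex.div_ofReal_im]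
    positivity
  have hf : Summable f := Q.summable_theta him
  have hterm : ∀ (r : ZMod d × ZMod d) (m : ℤ × ℤ), f (resEquiv d (r, m)) =
      ZMod.stdAddChar ((β : ZMod d) * Q.val r) *
        ex (z * Q.val ((m.1 : ℂ) + (((r.1.val : ℝ) / d : ℝ) : ℂ),
          (m.2 : ℂ) + (((r.2.val : ℝ) / d : ℝ) : ℂ))) := by
    intro r m
    set V : ℤ × ℤ := resEquiv d (r, m) with hV
    have hr : (β : ZMod d) * Q.val r = ((β * Q.val V : ℤ) : ZMod d) := by
      have := Q.map_val (Int.castRingHom (ZMod d)) V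
      simp only [eq_intCast] at this
      rw [Int.cast_mul, this]
      simp [hV, resEquiv]
    rw [hr, stdAddChar_ex, ← ex_add]
    simp only [f]
    congr 1
    have := Q.map_val (Int.castRingHom ℂ) V
    simp only [eq_intCast] at this
    push_cast
    rw [this]
    simp only [val, hV, resEquiv, Equiv.coe_fn_mk]
    push_cast
    field_simp
    ring
  calc ∑' v, f v = ∑' p : (ZMod d × ZMod d) × (ℤ × ℤ), f (resEquiv d p) :=
        ((resEquiv d).tsum_eq f).symm
    _ = ∑ r : ZMod d × ZMod d, ∑' m : ℤ × ℤ, f (resEquiv d (r, m)) := by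
        rw [Summable.tsum_prod (f := fun p => f (resEquiv d p)) ((resEquiv d).summable_iff.mpr hf),
          tsum_fintype]
    _ = ∑ r : ZMod d × ZMod d, ZMod.stdAddChar ((β : ZMod d) * Q.val r) *
          (I / (2 * z * (Real.sqrt D : ℝ)) *
            ∑' w : ℤ × ℤ, ex (-(Q.adj.val ((w.1 : ℂ), (w.2 : ℂ))) / (4 * D * z)) *
              ZMod.stdAddChar ((w.1 : ZMod d) * r.1 + (w.2 : ZMod d) * r.2)) := by
        refine Finset.sum_congr rfl fun r _ => ?_
        rw [tsum_congr (hterm r), tsum_mul_left,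
          Q.poisson hz (((r.1.val : ℝ) / d), ((r.2.val : ℝ) / d))]
        congr 2
        refine tsum_congr fun w => ?_
        rw [ex_add]
        congr 1
        rw [show (w.1 : ZMod d) * r.1 + (w.2 : ZMod d) * r.2 =
          ((w.1 * r.1.val + w.2 * r.2.val : ℤ) : ZMod d) by simp, stdAddChar_ex]
        congr 1
        push_cast
        ring
    _ = _ := by
        simp_rw [mul_left_comm (ZMod.stdAddChar _), ← Finset.mul_sum, ← tsum_mul_left]
        rw [← Summable.tsum_finsetSum (fun r _ => ?_), ← tsum_mul_left]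
        · refine tsum_congr fun w => ?_
          rw [gauss, Finset.sum_mul, Finset.mul_sum, Finset.mul_sum]
          refine Finset.sum_congr rfl fun r _ => ?_
          simp only [AddChar.map_add_eq_mul]
          ring
        · refine Summable.of_norm_bounded (Q.summable_dual hz).norm fun w => le_of_eq ?_
          simp [ZMod.stdAddChar_apply, Circle.norm_coe]

/-- The transformation law for a positive lower right entry. -/
theorem theta_smul_of_pos {a b c' : ℤ} {d : ℕ} [NeZero d]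
    (hdet : a * d - b * (4 * D * c') = 1) (τ : ℍ) (σ : ℍ)
    (hσ : (σ : ℂ) = ((a : ℂ) * τ + b) / ((4 * D * c' : ℤ) * (τ : ℂ) + d)) :
    Q.theta σ = ((4 * D * c' : ℤ) * (τ : ℂ) + d) * (gaussOne D d / d) * Q.theta τ := by
  have hd : (d : ℂ) ≠ 0 := by exact_mod_cast NeZero.ne d
  set w : ℂ := (4 * D * c' : ℤ) * (τ : ℂ) + d with hw
  have hw0 : w ≠ 0 := by
    intro h
    by_cases hc : c' = 0
    · simp [hw, hc, hd] at h
    · have := congrArg Complex.im h
      simp [hw, hc, τ.im_ne_zero, Q.D_pos.ne'] at this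
  have hdetC : (a : ℂ) * d - b * (4 * D * c' : ℤ) = 1 := by exact_mod_cast hdet
  set z : ℂ := (τ : ℂ) * d / w with hz'
  have hσz : (σ : ℂ) = (b : ℂ) / d + z / (d : ℂ) ^ 2 := by
    rw [hσ, hz']
    field_simp
    rw [hw]
    linear_combination (τ : ℂ) * hdetC
  have hz : 0 < z.im := by
    have h : z = (((d : ℝ) ^ 2 : ℝ) : ℂ) * (σ : ℂ) - (((d : ℝ) * b : ℝ) : ℂ) := by
      rw [hσz]; push_cast; field_simp; ring
    rw [h, Complex.sub_im, Complex.im_ofReal_mul, Complex.ofReal_im, sub_zero]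
    have : (0 : ℝ) < (d : ℝ) := by exact_mod_cast NeZero.pos d
    exact mul_pos (by positivity) σ.im_pos
  have hadm : Adm D d := by
    rw [Adm, ← Nat.isCoprime_iff_coprime]
    exact ⟨a, -(b * 2 * c'), by push_cast; linear_combination hdet⟩
  have hb : IsUnit ((b : ℤ) : ZMod d) := by
    refine IsUnit.of_mul_eq_one (-((4 * D * c' : ℤ) : ZMod d)) ?_
    have := congrArg (Int.cast : ℤ → ZMod d) hdet
    push_cast at this ⊢
    rw [ZMod.natCast_self, mul_zero, zero_sub] at this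
    linear_combination this
  have hi : 4 * ((b : ℤ) : ZMod d) * (D : ZMod d) * (-(c' : ZMod d)) = 1 := by
    have := congrArg (Int.cast : ℤ → ZMod d) hdet
    push_cast at this ⊢
    rw [ZMod.natCast_self, mul_zero, zero_sub] at this
    linear_combination this
  have h0 := Q.poisson τ.im_pos (0, 0)
  simp only [Complex.ofReal_zero, add_zero, mul_zero] at h0
  rw [theta, hσz, Q.split_poisson b hz, theta, h0]
  have key : ∀ v : ℤ × ℤ, Q.gauss d b ((v.1 : ZMod d), (v.2 : ZMod d)) *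
      ex (-(Q.adj.val ((v.1 : ℂ), (v.2 : ℂ))) / (4 * D * z)) =
      gaussOne D d * ex (-(Q.adj.val ((v.1 : ℂ), (v.2 : ℂ))) / (4 * D * (τ : ℂ))) := by
    intro v
    have e := Q.adj.map_val (Int.castRingHom (ZMod d)) v
    simp only [eq_intCast] at e
    have e' := Q.adj.map_val (Int.castRingHom ℂ) v
    simp only [eq_intCast] at e'
    rw [Q.gauss_linear hi, Q.gauss_unit hadm hb, neg_mul, neg_neg, ← e, ← Int.cast_mul,
      stdAddChar_ex, mul_assoc, ← ex_add]
    congr 2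
    rw [Int.cast_mul, e', hz', hw]
    have hτ : (τ : ℂ) ≠ 0 := τ.ne_zero
    have hD : (D : ℂ) ≠ 0 := by exact_mod_cast Q.D_pos.ne'
    push_cast
    field_simp
    ring
  rw [tsum_congr key, tsum_mul_left, hz']
  have hτ : (τ : ℂ) ≠ 0 := τ.ne_zero
  field_simp

/-- Every product of two theta series of determinant `D` is invariant in weight two. -/
theorem theta_mul_slash (Q' : BQF D) {γ : SL(2, ℤ)} (hγ : γ ∈ Gamma0 (4 * D)) :
    (Q.theta * Q'.theta) ∣[(2 : ℤ)] γ = Q.theta * Q'.theta := by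
  funext τ
  obtain ⟨c', hc⟩ := (ZMod.intCast_zmod_eq_zero_iff_dvd (γ 1 0) _).mp (Gamma0_mem.mp hγ)
  have hdet : γ 0 0 * γ 1 1 - γ 0 1 * γ 1 0 = 1 := by
    have := γ.2; rwa [Matrix.det_fin_two] at this
  have hd0 : γ 1 1 ≠ 0 := by
    intro h
    rw [h, hc, mul_zero, zero_sub] at hdet
    have : (4 : ℤ) ∣ 1 := ⟨-(γ 0 1 * D * c'), by push_cast at hdet ⊢; linear_combination -hdet⟩
    norm_num at this
  rw [ModularForm.SL_slash_apply]
  obtain ⟨e, d, he, hd⟩ : ∃ (e : ℤ) (d : ℕ), (e = 1 ∨ e = -1) ∧ e * γ 1 1 = d := by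
    rcases lt_or_gt_of_ne hd0 with h | h
    · exact ⟨-1, (γ 1 1).natAbs, Or.inr rfl, by omega⟩
    · exact ⟨1, (γ 1 1).natAbs, Or.inl rfl, by omega⟩
  have : NeZero d := ⟨by rintro rfl; rcases he with rfl | rfl <;> simp [hd0] at hd⟩
  have he2 : e * e = 1 := by rcases he with rfl | rfl <;> rfl
  have hdet' : e * γ 0 0 * d - e * γ 0 1 * (4 * D * (e * c')) = 1 := by
    rw [← hd]
    rw [hc] at hdet
    push_cast at hdet
    linear_combination hdet + (γ 0 0 * γ 1 1 - γ 0 1 * (4 * D * c')) * he2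
  have hden : UpperHalfPlane.denom γ τ = (γ 1 0 : ℂ) * τ + γ 1 1 := by
    simp [UpperHalfPlane.denom]
  have hne : (γ 1 0 : ℂ) * τ + γ 1 1 ≠ 0 := hden ▸ UpperHalfPlane.denom_ne_zero γ τ
  have heC : (e : ℂ) ≠ 0 := by rcases he with rfl | rfl <;> simp
  have hw : (((4 * D * (e * c') : ℤ)) : ℂ) * τ + d = e * ((γ 1 0 : ℂ) * τ + γ 1 1) := by
    rw [← Int.cast_natCast d, ← hd, hc]; push_cast; ring
  have hσ : ((γ • τ : ℍ) : ℂ) = (((e * γ 0 0 : ℤ) : ℂ) * τ + (e * γ 0 1 : ℤ)) /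
      ((((4 * D * (e * c') : ℤ)) : ℂ) * τ + d) := by
    rw [hw, UpperHalfPlane.coe_specialLinearGroup_apply]
    simp only [algebraMap_int_eq, eq_intCast]
    push_cast
    field_simp
  rw [Pi.mul_apply, Q.theta_smul_of_pos hdet' τ _ hσ, Q'.theta_smul_of_pos hdet' τ _ hσ, hw,
    Pi.mul_apply, hden]
  have hg := gaussOne_sq (D := D) (n := d) (by
    rw [Adm, ← Nat.isCoprime_iff_coprime]
    exact ⟨e * γ 0 0, -(e * γ 0 1 * 2 * (e * c')), by push_cast; linear_combination hdet'⟩)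
  have hdC : (d : ℂ) ≠ 0 := by exact_mod_cast NeZero.ne d
  have he2C : (e : ℂ) * e = 1 := by exact_mod_cast he2
  field_simp
  linear_combination (Q.theta τ * Q'.theta τ * (e : ℂ) ^ 2) * hg +
    (Q.theta τ * Q'.theta τ * (d : ℂ) ^ 2) * he2C

lemma gauss_one (u : ZMod 1) : Q.gauss 1 u 0 = 1 := by
  simp [gauss, Subsingleton.elim u 0, AddChar.map_zero_eq_one]

/-- The value at a cusp. -/
theorem tendsto_cusp_of_pos (γ : SL(2, ℤ)) {c : ℕ} [NeZero c] (hc : γ 1 0 = c) :
    Tendsto (fun τ : ℍ => Q.theta (γ • τ) / ((γ 1 0 : ℂ) * τ + γ 1 1)) atImInfty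
      (𝓝 (-I / (2 * c * (Real.sqrt D : ℝ)) * Q.gauss c (γ 0 0 : ℤ) 0)) := by
  have hcC : (c : ℂ) ≠ 0 := by exact_mod_cast NeZero.ne c
  have hD : (0 : ℝ) < (D : ℝ) := by exact_mod_cast Q.D_pos
  have hdet : (γ 0 0 : ℂ) * γ 1 1 - γ 0 1 * c = 1 := by
    have := γ.2
    rw [Matrix.det_fin_two, hc] at this
    exact_mod_cast this
  let ζ : ℍ → ℂ := fun τ => ((c : ℂ) * τ + γ 1 1) / (4 * D * c)
  let S : ℍ → ℂ := fun τ => ∑' v : ℤ × ℤ, Q.gauss c (γ 0 0 : ℤ) ((v.1 : ZMod c), (v.2 : ZMod c)) *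
    ex (ζ τ * Q.adj.val ((v.1 : ℂ), (v.2 : ℂ)))
  have hw0 : ∀ τ : ℍ, (c : ℂ) * τ + γ 1 1 ≠ 0 := fun τ h => by
    have := congrArg Complex.im h
    simp [NeZero.ne c, τ.im_ne_zero] at this
  have hval : ∀ τ : ℍ, Q.theta (γ • τ) / ((γ 1 0 : ℂ) * τ + γ 1 1) =
      -I / (2 * c * (Real.sqrt D : ℝ)) * S τ := by
    intro τ
    set z : ℂ := -(c : ℂ) / ((c : ℂ) * τ + γ 1 1) with hz'
    have hz : 0 < z.im := by
      have hn := Complex.normSq_pos.mpr (hw0 τ)
      have hc0 : (0 : ℝ) < c := by exact_mod_cast NeZero.pos c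
      rw [hz', div_eq_mul_inv, show -(c : ℂ) = ((-(c : ℝ) : ℝ) : ℂ) by push_cast; rfl,
        Complex.im_ofReal_mul, Complex.inv_im, neg_div, neg_mul_neg]
      refine mul_pos hc0 (div_pos ?_ hn)
      simp
      positivity
    have hσ : ((γ • τ : ℍ) : ℂ) = ((γ 0 0 : ℤ) : ℂ) / c + z / (c : ℂ) ^ 2 := by
      rw [UpperHalfPlane.coe_specialLinearGroup_apply]
      simp only [algebraMap_int_eq, eq_intCast, hc, hz', Int.cast_natCast]
      have := hw0 τ
      have e : -(c : ℂ) / ((c : ℂ) * τ + γ 1 1) / (c : ℂ) ^ 2 =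
          -1 / ((c : ℂ) * ((c : ℂ) * τ + γ 1 1)) := by field_simp
      simp only [Complex.ofReal_intCast, Complex.ofReal_natCast]
      rw [e, div_add_div _ _ hcC (mul_ne_zero hcC this),
        div_eq_div_iff this (mul_ne_zero hcC (mul_ne_zero hcC this))]
      linear_combination -((c : ℂ) * ((c : ℂ) * τ + γ 1 1)) * hdet
    rw [theta, hσ, Q.split_poisson _ hz, hc, Int.cast_natCast, hz']
    simp only [S, ζ]
    have hsum : ∀ v : ℤ × ℤ, -(Q.adj.val ((v.1 : ℂ), (v.2 : ℂ))) /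
        (4 * D * (-(c : ℂ) / ((c : ℂ) * τ + γ 1 1))) =
        ((c : ℂ) * τ + γ 1 1) / (4 * D * c) * Q.adj.val ((v.1 : ℂ), (v.2 : ℂ)) := fun v => by
      have := hw0 τ
      field_simp
    simp only [hsum]
    have := hw0 τ
    have : (Real.sqrt (D : ℝ) : ℂ) ≠ 0 := by exact_mod_cast (Real.sqrt_pos.mpr hD).ne'
    field_simp
  simp only [hval]
  refine Tendsto.const_mul _ ?_
  have h0 : Q.gauss c (γ 0 0 : ℤ) 0 = ∑' v : ℤ × ℤ,
      if v = 0 then Q.gauss c (γ 0 0 : ℤ) 0 else 0 := (tsum_ite_eq (0 : ℤ × ℤ) (fun _ => Q.gauss c (γ 0 0 : ℤ) 0)).symm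
  rw [h0]
  set z₀ : ℂ := I / (4 * D) with hz₀
  have hz₀' : 0 < z₀.im := by
    rw [hz₀, show (4 : ℂ) * D = ((4 * D : ℝ) : ℂ) by push_cast; ring, Complex.div_ofReal_im]
    simp [Q.D_pos]
  refine tendsto_tsum_of_dominated_convergence
    (bound := fun v : ℤ × ℤ => (c : ℝ) * c * ‖ex (z₀ * Q.adj.val ((v.1 : ℂ), (v.2 : ℂ)))‖)
    ((Q.adj.summable_theta hz₀').norm.mul_left _) (fun v => ?_) ?_
  · by_cases hv : v = 0
    · subst hv
      simp [val, ex]
      rfl
    · rw [if_neg hv]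
      have hpos : (0 : ℤ) < Q.adj.val v := by
        have h := Q.adj.lower_bound ((v.1 : ℝ), (v.2 : ℝ))
        have h2 : (0 : ℝ) < (v.1 : ℝ) ^ 2 + (v.2 : ℝ) ^ 2 := by
          rcases not_and_or.mp (fun h : v.1 = 0 ∧ v.2 = 0 => hv (Prod.ext h.1 h.2)) with h | h
          · have : (v.1 : ℝ) ≠ 0 := by exact_mod_cast h
            positivity
          · have : (v.2 : ℝ) ≠ 0 := by exact_mod_cast h
            positivity
        have h3 : (0 : ℝ) < Q.adj.val ((v.1 : ℝ), (v.2 : ℝ)) :=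
          (mul_pos_iff_of_pos_left Q.adj.sum_pos).mp ((mul_pos hD h2).trans_le h)
        have e := Q.adj.map_val (Int.castRingHom ℝ) v
        simp only [eq_intCast] at e
        rw [← e] at h3
        exact_mod_cast h3
      rw [← mul_zero (Q.gauss c (γ 0 0 : ℤ) ((v.1 : ZMod c), (v.2 : ZMod c)))]
      refine Tendsto.const_mul _ ?_
      rw [tendsto_zero_iff_norm_tendsto_zero]
      have e := Q.adj.map_val (Int.castRingHom ℂ) v
      simp only [eq_intCast] at e
      simp only [← e, norm_ex, ζ]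
      refine Real.tendsto_exp_neg_atTop_nhds_zero.comp ?_
      have hlin : ∀ τ : ℍ, 2 * π * ((((c : ℂ) * τ + γ 1 1) / (4 * D * c)) * (Q.adj.val v : ℤ)).im =
          (2 * π * (Q.adj.val v : ℤ) / (4 * D)) * τ.im := fun τ => by
        simp only [Complex.mul_im, Complex.intCast_re, Complex.intCast_im, mul_zero, zero_add]
        rw [show (4 : ℂ) * D * c = ((4 * D * c : ℝ) : ℂ) by push_cast; ring,
          Complex.div_ofReal_im]
        simp
        have : (c : ℝ) ≠ 0 := by exact_mod_cast NeZero.ne c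
        field_simp
      simp only [hlin]
      refine Tendsto.const_mul_atTop ?_ tendsto_comap
      have : (0 : ℝ) < ((Q.adj.val v : ℤ) : ℝ) := by exact_mod_cast hpos
      positivity
  · rw [Filter.Eventually, atImInfty_mem]
    refine ⟨1, fun τ hτ v => ?_⟩
    rw [norm_mul]
    refine mul_le_mul ?_ ?_ (norm_nonneg _) (by positivity)
    · refine (norm_sum_le _ _).trans ?_
      simp [ZMod.stdAddChar_apply, Circle.norm_coe]
    · have hv := Q.adj.val_nonneg v
      have e := Q.adj.map_val (Int.castRingHom ℂ) v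
      simp only [eq_intCast] at e
      rw [norm_ex, norm_ex, ← e, ← Complex.ofReal_intCast, Complex.im_mul_ofReal,
        Complex.im_mul_ofReal, hz₀]
      refine Real.exp_le_exp.mpr (neg_le_neg (mul_le_mul_of_nonneg_left
        (mul_le_mul_of_nonneg_right ?_ (by exact_mod_cast hv)) (by positivity)))
      simp only [ζ]
      rw [show (4 : ℂ) * D * c = ((4 * D * c : ℝ) : ℂ) by push_cast; ring,
        show (4 : ℂ) * D = ((4 * D : ℝ) : ℂ) by push_cast; ring, Complex.div_ofReal_im,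
        Complex.div_ofReal_im]
      have hc0 : (0 : ℝ) < c := by exact_mod_cast NeZero.pos c
      simp
      rw [show (c : ℝ) * τ.im / (4 * D * c) = τ.im * ((D : ℝ)⁻¹ * 4⁻¹) by field_simp]
      exact le_mul_of_one_le_left (by positivity) hτ

/-- The value at every cusp, without a sign restriction. -/
theorem tendsto_cusp (γ : SL(2, ℤ)) :
    ∃ (n : ℕ) (_ : NeZero n) (u : ZMod n) (K : ℂ), ∀ Q : BQF D,
      Tendsto (fun τ : ℍ => Q.theta (γ • τ) / ((γ 1 0 : ℂ) * τ + γ 1 1)) atImInfty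
        (𝓝 (K * Q.gauss n u 0)) := by
  rcases lt_trichotomy (γ 1 0) 0 with h | h | h
  · obtain ⟨c, hc⟩ : ∃ c : ℕ, -(γ 1 0) = c := ⟨(γ 1 0).natAbs, by omega⟩
    have : NeZero c := ⟨by omega⟩
    refine ⟨c, inferInstance, ((-γ) 0 0 : ℤ), -(-I / (2 * c * (Real.sqrt D : ℝ))), fun Q => ?_⟩
    have := (Q.tendsto_cusp_of_pos (-γ) (c := c) (by simpa using hc)).neg
    rw [← neg_mul] at this
    refine this.congr fun τ => ?_
    rw [ModularGroup.SL_neg_smul, ← div_neg]
    simp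
    ring_nf
  · refine ⟨1, inferInstance, 0, 1 / (γ 1 1 : ℂ), fun Q => ?_⟩
    rw [gauss_one, mul_one]
    have hdet : γ 0 0 * γ 1 1 = 1 := by
      have := γ.2; rw [Matrix.det_fin_two, h] at this; simpa using this
    have hperiod : ∀ τ : ℍ, Q.theta (γ • τ) = Q.theta τ := by
      intro τ
      simp only [theta]
      refine tsum_congr fun v => ?_
      have hm : ((γ • τ : ℍ) : ℂ) = (τ : ℂ) + ((γ 0 0 * γ 0 1 : ℤ) : ℂ) := by
        rw [UpperHalfPlane.coe_specialLinearGroup_apply]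
        simp only [algebraMap_int_eq, eq_intCast, h, Int.cast_zero, zero_mul, zero_add]
        rcases Int.mul_eq_one_iff_eq_one_or_neg_one.mp hdet with ⟨h1, h2⟩ | ⟨h1, h2⟩ <;>
          simp [h1, h2] <;> ring
      have e := Q.map_val (Int.castRingHom ℂ) v
      simp only [eq_intCast] at e
      rw [hm, add_mul, ex_add, ← e, ← Int.cast_mul, ex_intCast, mul_one]
    have ht := (Q.hasQ_theta.tendsto one_pos).div_const (γ 1 1 : ℂ)
    have h0 : PowerSeries.coeff 0 Q.series = 1 := by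
      have : (Q.finite_val_eq ((0 : ℕ) : ℤ)).toFinset = {0} := by
        ext v
        simp only [Set.Finite.mem_toFinset, Set.mem_ofPred_eq, Finset.mem_singleton, Nat.cast_zero]
        constructor
        · intro hv
          have h' := Q.det
          have hc := Q.pos
          have hD : (0 : ℤ) < D := by exact_mod_cast Q.D_pos
          simp only [val, Int.cast_id] at hv
          have e : (Q.a * v.1 + Q.b * v.2) ^ 2 + D * v.2 ^ 2 = 0 := by
            linear_combination Q.a * hv - v.2 ^ 2 * h'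
          have e2 : v.2 = 0 := by
            have := sq_nonneg (Q.a * v.1 + Q.b * v.2)
            have h2 : (D : ℤ) * v.2 ^ 2 = 0 :=
              le_antisymm (by linarith) (mul_nonneg hD.le (sq_nonneg _))
            simpa [Q.D_pos.ne'] using h2
          simp only [e2, ne_eq, OfNat.ofNat_ne_zero, not_false_eq_true, zero_pow, mul_zero,
            add_zero, pow_eq_zero_iff, mul_eq_zero, Q.pos.ne', false_or] at e
          exact Prod.ext e e2
        · rintro rfl; simp [val]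
      simp [series, rep, this]
    rw [h0] at ht
    refine ht.congr fun τ => ?_
    rw [hperiod, h]
    simp
  · obtain ⟨c, hc⟩ : ∃ c : ℕ, γ 1 0 = c := ⟨(γ 1 0).natAbs, by omega⟩
    have : NeZero c := ⟨by omega⟩
    exact ⟨c, inferInstance, (γ 0 0 : ℤ), _, fun Q => Q.tendsto_cusp_of_pos γ hc⟩

end BQF

/-- The cusp form attached to a family of forms whose weighted Gauss sums all vanish. -/
theorem exists_cuspForm {D : ℕ} {ι : Type*} (s : Finset ι) (Q : ι → BQF D) (P : BQF D) (u : ι → ℂ)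
    (hG : ∀ (n : ℕ) [NeZero n] (a : ZMod n), ∑ i ∈ s, u i * (Q i).gauss n a 0 = 0) :
    ∃ F : CuspForm (Gamma0 (4 * D)) 2,
      FA.Eis.HasQ 1 ⇑F ((∑ i ∈ s, u i • (Q i).series) * P.series) := by
  let f : ℍ → ℂ := (∑ i ∈ s, u i • (Q i).theta) * P.theta
  have hq : FA.Eis.HasQ 1 f ((∑ i ∈ s, u i • (Q i).series) * P.series) :=
    (FA.Eis.HasQ.sum s fun i _ => (Q i).hasQ_theta.smul (u i)).mul one_pos P.hasQ_theta
  have hexp : f = ∑ i ∈ s, u i • ((Q i).theta * P.theta) := by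
    funext τ
    simp [f, Finset.sum_apply, Finset.sum_mul, mul_assoc]
  have hinv : ∀ γ ∈ Gamma0 (4 * D), f ∣[(2 : ℤ)] γ = f := fun γ hγ => by
    rw [hexp, SlashAction.sum_slash]
    refine Finset.sum_congr rfl fun i _ => ?_
    rw [ModularForm.SL_smul_slash, (Q i).theta_mul_slash P hγ]
  have hz : ∀ γ : SL(2, ℤ), IsZeroAtImInfty (f ∣[(2 : ℤ)] γ) := fun γ => by
    obtain ⟨n, hn, a, K, hK⟩ := BQF.tendsto_cusp (D := D) γ
    have := (tendsto_finsetSum s fun i _ => (hK (Q i)).const_mul (u i)).mul (hK P)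
    rw [show ∑ i ∈ s, u i * (K * (Q i).gauss n a 0) = K * ∑ i ∈ s, u i * (Q i).gauss n a 0 by
      rw [Finset.mul_sum]; exact Finset.sum_congr rfl fun i _ => by ring, hG n a, mul_zero,
      zero_mul] at this
    refine this.congr fun τ => ?_
    rw [ModularForm.SL_slash_apply]
    have hden : UpperHalfPlane.denom γ τ = (γ 1 0 : ℂ) * τ + γ 1 1 := by
      simp [UpperHalfPlane.denom]
    rw [hden]
    simp only [f, Pi.mul_apply, Finset.sum_apply, Pi.smul_apply, smul_eq_mul, Finset.sum_mul]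
    refine Finset.sum_congr rfl fun i _ => ?_
    rw [zpow_neg, zpow_two, mul_inv]
    ring
  refine ⟨{ toFun := f, slash_action_eq' := ?_, holo' := hq.mdiff one_pos, zero_at_cusps' := ?_ },
    hq⟩
  · rintro γ ⟨M, hM, rfl⟩
    exact hinv M hM
  · intro c hc
    rcases Nat.eq_zero_or_pos D with rfl | hD
    · exact absurd P.D_pos (lt_irrefl 0)
    have : NeZero (4 * D) := ⟨by positivity⟩
    rw [Subgroup.IsArithmetic.isCusp_iff_isCusp_SL2Z] at hc
    exact (OnePoint.isZeroAt_iff_forall_SL2Z hc).mpr fun M _ => hz M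

end FA.Theta
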