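import Fermat.Agent.Theta.Lattice
import Fermat.Agent.Theta.Modular
import Fermat.Agent.Period.Integral
import Fermat.Agent.Deform.EigenLift

/-!
# The eigenform modulo `2` attached to a cubic ray class character

For a surjection `c` of the ray class group onto `ℤ/3` there is a normalised eigenform of weight two
and level `4D` whose eigenvalue at `l ∤ 4D` is odd exactly when `l` has a prime of degree one whose
class is not killed by `c`.
-/

set_option autoImplicit false

noncomputable section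

open Module NumberField Ideal Finset

namespace FA.Theta

variable {K : Type*} [Field K] [NumberField K]

namespace IQ

variable {D : ℕ} (S : IQ K D)

include S

lemma cnt_zero (a : oddIdeals K) : S.cnt a 0 = 1 := by
  have : S.cntSet a 0 = {0} := by
    ext x
    simp only [cntSet, Set.mem_ofPred_eq, Set.mem_singleton_iff, Nat.cast_zero, zero_mul]
    constructor
    · exact fun h => Algebra.norm_eq_zero_iff.mp h.2
    · rintro rfl
      exact ⟨⟨zero_mem _, by simp [im]⟩, Algebra.norm_zero⟩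
  simp [cnt, this]

lemma even_cnt (a : oddIdeals K) {n : ℕ} (hn : n ≠ 0) : Even (S.cnt a n) := by
  rw [← rep_form]; exact BQF.even_rep _ hn

lemma cnt_one_one : S.cnt 1 1 = 2 := by
  have : S.cntSet 1 1 = {1, -1} := by
    ext x
    simp only [cntSet, InLat, Set.mem_ofPred_eq, Submonoid.coe_one, one_eq_top, Submodule.mem_top,
      true_and, absNorm_top, Nat.cast_one, mul_one, Set.mem_insert_iff, Set.mem_singleton_iff]
    constructor
    · rintro ⟨-, h⟩
      refine S.units x (span_singleton_eq_top.mp (absNorm_eq_one_iff.mp ?_))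
      have := S.absNorm_span x
      rw [h] at this
      exact_mod_cast this
    · have h1 : (1 : 𝓞 K) = S.el 1 0 := by simp [el]
      have h2 : (-1 : 𝓞 K) = S.el (-1) 0 := by simp [el]
      rintro (rfl | rfl)
      · rw [h1, S.im_el, S.norm_el]; simp
      · rw [h2, S.im_el, S.norm_el]; simp
  rw [cnt, this]
  exact Set.ncard_pair (by norm_num)

/-- Only the trivial class represents `1`. -/
lemma cnt_one_eq_zero (a : oddIdeals K) (ha : S.cls a ≠ 1) : S.cnt a 1 = 0 := by
  rw [cnt, Set.ncard_eq_zero (S.finite_cntSet a 1)]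
  by_contra hne
  obtain ⟨x, ⟨hx, hi⟩, hn⟩ := Set.nonempty_iff_ne_empty.mpr hne
  obtain ⟨J, hJ⟩ := dvd_span_singleton.mpr hx
  have hN : absNorm (span {x}) = absNorm (a : Ideal (𝓞 K)) := by
    have := S.absNorm_span x
    rw [hn, Nat.cast_one, one_mul] at this
    exact_mod_cast this
  have hJ1 : absNorm J = 1 := by
    rw [hJ, map_mul] at hN
    exact mul_left_cancel₀ (absNorm_pos a).ne' (by rw [hN, mul_one])
  rw [absNorm_eq_one_iff.mp hJ1, mul_top] at hJ
  have hodd : ¬ (2 : 𝓞 K) ∣ x := by rw [← S.odd_span_iff, hJ]; exact a.2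
  refine ha (S.cls_eq_one_of_oneMod2 hJ.symm ?_)
  rw [OneMod2, S.two_dvd_iff]
  rw [S.two_dvd_iff] at hodd
  have h1 : x - 1 = S.el (S.re x - 1) (S.im x) := by
    conv_lhs => rw [← S.el_re_im x]
    simp [el]; ring
  rw [h1, S.re_el, S.im_el]
  exact ⟨by omega, hi⟩

/-- A representative of a class. -/
def rep (g : Ray K) : oddIdeals K := (S.cls_surjective g).choose

lemma cls_rep (g : Ray K) : S.cls (S.rep g) = g := (S.cls_surjective g).choose_spec

lemma cnt_rep_mul (g : Ray K) (P : oddIdeals K) (n : ℕ) :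
    S.cnt (S.rep g * P) n = S.cnt (S.rep (g * S.cls P)) n :=
  S.cnt_congr (S.cls_eq_iff.mp (by rw [map_mul, cls_rep, cls_rep])) n

lemma gauss_rep_sq (g : Ray K) (b : oddIdeals K) (n : ℕ) [NeZero n]
    (hb : (absNorm (b : Ideal (𝓞 K))).Coprime n) (u : ZMod n) :
    (S.form (S.rep (g * (S.cls b * S.cls b)))).gauss n u 0 = (S.form (S.rep g)).gauss n u 0 := by
  rw [← S.gauss_mul_sq (S.rep g) b n hb u]
  exact S.gauss_congr (S.cls_eq_iff.mp (by simp [cls_rep])) n u

variable (c : Ray K →* Multiplicative (ZMod 3)) (hc : Function.Surjective c)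

include hc

/-- An odd ideal prime to `n` outside the kernel. -/
theorem exists_coprime_nontrivial (n : ℕ) (hn : n ≠ 0) :
    ∃ b : oddIdeals K, (absNorm (b : Ideal (𝓞 K))).Coprime n ∧ c (S.cls b) ≠ 1 := by
  classical
  by_contra hcon
  push Not at hcon
  have hprime : ∀ P : oddIdeals K, Prime (P : Ideal (𝓞 K)) → c (S.cls P) = 1 := by
    intro P hP
    have hPm : (P : Ideal (𝓞 K)).IsMaximal := (isPrime_of_prime hP).isMaximal hP.ne_zero
    by_cases hcop : (absNorm (P : Ideal (𝓞 K))).Coprime n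
    · exact hcon P hcop
    have hI : span {((2 * n : ℕ) : 𝓞 K)} ≠ ⊥ := by simp [hn]
    let s : Finset (Ideal (𝓞 K)) := insert (P : Ideal (𝓞 K))
      (UniqueFactorizationMonoid.normalizedFactors (span {((2 * n : ℕ) : 𝓞 K)})).toFinset
    have hs : ∀ R ∈ s, Prime R := by
      intro R hR
      rcases Finset.mem_insert.mp hR with rfl | hR
      · exact hP
      · exact UniqueFactorizationMonoid.prime_of_normalized_factor R (Multiset.mem_toFinset.mp hR)
    obtain ⟨π, hπ, hπ2⟩ : ∃ π, π ∈ (P : Ideal (𝓞 K)) ∧ π ∉ (P : Ideal (𝓞 K)) ^ 2 := by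
      obtain ⟨π, h1, h2⟩ := exists_mem_pow_notMem_pow_succ (P : Ideal (𝓞 K)) hP.ne_zero hPm.ne_top 1
      exact ⟨π, by simpa using h1, h2⟩
    obtain ⟨α, hα⟩ := IsDedekindDomain.exists_forall_sub_mem_ideal (s := s) id
      (fun R => if R = (P : Ideal (𝓞 K)) then 2 else 1) hs (fun i _ j _ h => h)
      (fun R => if (R : Ideal (𝓞 K)) = (P : Ideal (𝓞 K)) then π else 1)
    have hαP := hα (P : Ideal (𝓞 K)) (Finset.mem_insert_self _ _)
    simp only [id_eq, if_true] at hαP
    have hαP1 : α ∈ (P : Ideal (𝓞 K)) := by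
      have := add_mem (Ideal.pow_le_self two_ne_zero hαP) hπ
      simpa using this
    have hαR : ∀ R ∈ s, R ≠ (P : Ideal (𝓞 K)) → α - 1 ∈ R := by
      intro R hR hne
      have := hα R hR
      simpa [hne] using this
    have hmem : ∀ R : Ideal (𝓞 K), R.IsMaximal → ((2 * n : ℕ) : 𝓞 K) ∈ R → R ∈ s := by
      intro R hR hmem
      refine Finset.mem_insert_of_mem (Multiset.mem_toFinset.mpr ?_)
      exact (Ideal.mem_normalizedFactors_iff hI).mpr
        ⟨hR.isPrime, (span_singleton_le_iff_mem R).mpr hmem⟩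
    have h2P : (2 : 𝓞 K) ∉ (P : Ideal (𝓞 K)) := fun h => by
      have hdvd := absNorm_dvd_norm_of_mem h
      have hmax : (span {(2 : 𝓞 K)}).IsMaximal :=
        ((span_singleton_prime two_ne_zero).mpr S.prime_two).isMaximal (by simp)
      have e : span {(2 : 𝓞 K)} = (P : Ideal (𝓞 K)) :=
        hmax.eq_of_le hPm.ne_top ((span_singleton_le_iff_mem _).mpr h)
      exact (S.odd_span_iff 2).mp (e ▸ P.2) dvd_rfl
    have hone : OneMod2 α := by
      have hmax : (span {(2 : 𝓞 K)}).IsMaximal :=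
        ((span_singleton_prime two_ne_zero).mpr S.prime_two).isMaximal (by simp)
      refine mem_span_singleton.mp (hαR _ (hmem _ hmax ?_) fun e => h2P ?_)
      · rw [Nat.cast_mul]; exact Ideal.mul_mem_right _ _ (mem_span_singleton_self _)
      · rw [← e]; exact mem_span_singleton_self _
    have hα0 : α ≠ 0 := fun h => S.not_dvd_of_oneMod2 hone (h ▸ dvd_zero _)
    obtain ⟨R, hR⟩ := dvd_span_singleton.mpr hαP1
    have hRodd : R ∈ oddIdeals K := by
      have : Odd (absNorm (span {α})) := (S.odd_span_iff α).mpr (S.not_dvd_of_oneMod2 hone)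
      rw [hR, map_mul, Nat.odd_mul] at this
      exact this.2
    have hRcop : (absNorm R).Coprime n := by
      refine Nat.coprime_of_dvd fun p hp hpR hpn => ?_
      obtain ⟨R', hR', hpR', hdvd⟩ := exists_prime_dvd_of_dvd_absNorm hp hpR
      have hn' : ((2 * n : ℕ) : 𝓞 K) ∈ R' := by
        obtain ⟨k, rfl⟩ := hpn
        rw [show 2 * (p * k) = p * (2 * k) by ring, Nat.cast_mul]
        exact Ideal.mul_mem_right _ _ hpR'
      by_cases hne : R' = (P : Ideal (𝓞 K))
      · refine hπ2 ?_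
        have hα2 : α ∈ (P : Ideal (𝓞 K)) ^ 2 := by
          rw [← dvd_span_singleton, hR, pow_two]
          exact mul_dvd_mul_left _ (hne ▸ hdvd)
        simpa using sub_mem hα2 hαP
      · have h1 : α ∈ R' := by
          rw [← dvd_span_singleton, hR]; exact hdvd.trans (dvd_mul_left _ _)
        have := sub_mem h1 (hαR R' (hmem R' hR' hn') hne)
        exact hR'.ne_top ((eq_top_iff_one _).mpr (by simpa using this))
    have h1 : S.cls (P * ⟨R, hRodd⟩) = 1 :=
      S.cls_eq_one_of_oneMod2 (x := α) (by simp [hR]) hone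
    have := congrArg c h1
    rwa [map_mul, map_mul, hcon ⟨R, hRodd⟩ hRcop, mul_one, map_one] at this
  have hall : ∀ (I : Ideal (𝓞 K)) (hI : I ∈ oddIdeals K), c (S.cls ⟨I, hI⟩) = 1 := by
    intro I
    induction I using UniqueFactorizationMonoid.induction_on_prime with
    | h₁ => intro hI; exact absurd rfl (ne_bot_of_odd hI)
    | h₂ I hI' =>
      intro hI
      obtain rfl : I = ⊤ := Ideal.isUnit_iff.mp hI'
      rw [show (⟨⊤, hI⟩ : oddIdeals K) = 1 from Subtype.ext one_eq_top.symm, map_one, map_one]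
    | h₃ I P hI' hP ih =>
      intro hI
      have hh : Odd (absNorm P) ∧ Odd (absNorm I) := by
        rw [← Nat.odd_mul, ← map_mul]; exact hI
      rw [show (⟨P * I, hI⟩ : oddIdeals K) = ⟨P, hh.1⟩ * ⟨I, hh.2⟩ from rfl, map_mul, map_mul,
        hprime ⟨P, hh.1⟩ hP, ih hh.2, mul_one]
  obtain ⟨g, hg⟩ := hc (Multiplicative.ofAdd 1)
  obtain ⟨a, rfl⟩ := S.cls_surjective g
  rw [hall a a.2] at hg
  exact absurd (congrArg Multiplicative.toAdd hg) (by decide)

/-- The eigenvalue modulo `2` predicted at `l`. -/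
def HasDegOne (l : ℕ) : Prop :=
  ∃ P : oddIdeals K, absNorm (P : Ideal (𝓞 K)) = l ∧ c (S.cls P) ≠ 1

open scoped Classical in
/-- The classes with given value of `c`. -/
def colour (j : ZMod 3) : Finset (Ray K) :=
  haveI := S.finite_ray
  haveI := Fintype.ofFinite (Ray K)
  Finset.univ.filter fun g => (c g).toAdd = j

omit hc in
lemma mem_colour {j : ZMod 3} {g : Ray K} : g ∈ S.colour c j ↔ (c g).toAdd = j := by
  simp [colour]

omit hc in
lemma colour_shift {M : Type*} [AddCommMonoid M] (F : Ray K → M) (h : Ray K) (j : ZMod 3) :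
    ∑ g ∈ S.colour c j, F (g * h) = ∑ g ∈ S.colour c (j + (c h).toAdd), F g := by
  refine Finset.sum_equiv (Equiv.mulRight h) (fun g => ?_) (fun g _ => rfl)
  simp [mem_colour]

/-- The difference of the representation numbers of the first two classes of values. -/
def wA (n : ℕ) : ℤ :=
  (∑ g ∈ S.colour c 0, (S.cnt (S.rep g) n : ℤ)) - ∑ g ∈ S.colour c 1, (S.cnt (S.rep g) n : ℤ)

lemma two_dvd_wA (n : ℕ) : (2 : ℤ) ∣ S.wA c n := by
  obtain ⟨g₁, hg₁⟩ := hc (Multiplicative.ofAdd 1)
  rcases eq_or_ne n 0 with rfl | hn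
  · have h := S.colour_shift c (fun _ => (1 : ℤ)) g₁ 0
    rw [hg₁] at h
    simp only [toAdd_ofAdd, zero_add] at h
    simp only [wA, S.cnt_zero, Nat.cast_one, h, sub_self, dvd_zero]
  · refine dvd_sub ?_ ?_ <;> refine Finset.dvd_sum fun g _ => ?_ <;>
      exact Int.natCast_dvd_natCast.mpr (even_iff_two_dvd.mp (S.even_cnt _ hn))

/-- Half of it: the weight one coefficients. -/
def wcoef (n : ℕ) : ℤ := S.wA c n / 2

lemma two_wcoef (n : ℕ) :
    (∑ g ∈ S.colour c 0, (S.cnt (S.rep g) n : ℤ)) - ∑ g ∈ S.colour c 1, (S.cnt (S.rep g) n : ℤ) =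
      2 * S.wcoef c n :=
  (Int.mul_ediv_cancel' (S.two_dvd_wA c hc n)).symm

lemma wcoef_one : S.wcoef c 1 = 1 := by
    have h0 : ∑ g ∈ S.colour c 0, (S.cnt (S.rep g) 1 : ℤ) = 2 := by
      rw [Finset.sum_eq_single 1]
      · rw [S.cnt_congr (b := 1) (S.cls_eq_iff.mp (by rw [cls_rep, map_one])) 1, S.cnt_one_one]
        rfl
      · intro g _ hg
        rw [S.cnt_one_eq_zero _ (by rwa [cls_rep]), Nat.cast_zero]
      · simp [mem_colour]
    have h1 : ∑ g ∈ S.colour c 1, (S.cnt (S.rep g) 1 : ℤ) = 0 := by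
      refine Finset.sum_eq_zero fun g hg => ?_
      rw [S.cnt_one_eq_zero _ ?_, Nat.cast_zero]
      rw [cls_rep]
      rintro rfl
      simp [mem_colour] at hg
    have := S.two_wcoef c hc 1
    simp only [h0, h1] at this
    omega

/-- The weights of the classes. -/
def wgt (g : Ray K) : ℂ :=
  if (c g).toAdd = 0 then 1 / 2 else if (c g).toAdd = 1 then -(1 / 2) else 0

omit hc in
lemma sum_wgt [Fintype (Ray K)] (F : Ray K → ℂ) : ∑ g, wgt c g * F g =
    1 / 2 * ((∑ g ∈ S.colour c 0, F g) - ∑ g ∈ S.colour c 1, F g) := by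
  classical
  have e : ∀ j, S.colour c j = Finset.univ.filter fun g => (c g).toAdd = j := fun j => by
    ext g
    simp [mem_colour]
  simp only [e, Finset.sum_filter, Finset.mul_sum, ← Finset.sum_sub_distrib]
  refine Finset.sum_congr rfl fun g _ => ?_
  simp only [wgt]
  split_ifs <;> simp_all

/-- Sums of class functions with the invariance of Gauss sums cancel. -/
lemma sum_wgt_eq_zero [Fintype (Ray K)] (n : ℕ) (hn : n ≠ 0) (φ : Ray K → ℂ)
    (hφ : ∀ g (b : oddIdeals K), (absNorm (b : Ideal (𝓞 K))).Coprime n →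
      φ (g * (S.cls b * S.cls b)) = φ g) :
    ∑ g, wgt c g * φ g = 0 := by
  obtain ⟨b, hb, hcb⟩ := S.exists_coprime_nontrivial c hc n hn
  set k : ZMod 3 := (c (S.cls b)).toAdd
  have hk : k ≠ 0 := fun h => hcb (Multiplicative.toAdd.injective (by simpa [k] using h))
  have hinv : ∀ j, ∑ g ∈ S.colour c j, φ g = ∑ g ∈ S.colour c (j + (k + k)), φ g := fun j => by
    have h := S.colour_shift c φ (S.cls b * S.cls b) j
    simp only [hφ _ b hb, map_mul, toAdd_mul] at h
    exact h
  rw [sum_wgt, mul_eq_zero, sub_eq_zero]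
  right
  have hk' : k = 1 ∨ k = 2 :=
    (show ∀ j : ZMod 3, j ≠ 0 → j = 1 ∨ j = 2 by decide) k hk
  rcases hk' with h | h
  · have := hinv 1; rw [h, show (1 : ZMod 3) + (1 + 1) = 0 by decide] at this; exact this.symm
  · have := hinv 0; rw [h, show (0 : ZMod 3) + (2 + 2) = 1 by decide] at this; exact this

lemma sum_wgt_cnt [Fintype (Ray K)] (n : ℕ) :
    ∑ g, wgt c g * (S.cnt (S.rep g) n : ℂ) = (S.wcoef c n : ℂ) := by
  have h := congrArg (Int.cast : ℤ → ℂ) (S.two_wcoef c hc n)
  simp only [Int.cast_sub, Int.cast_sum, Int.cast_natCast, Int.cast_mul, Int.cast_ofNat] at h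
  rw [sum_wgt]
  linear_combination (1 / 2 : ℂ) * h

omit hc S in
/-- Only the origin represents zero. -/
lemma _root_.FA.Theta.BQF.rep_zero (R : BQF D) : R.rep 0 = 1 := by
  have key : ∀ v : ℤ × ℤ, R.val v = 0 → v = 0 := by
    intro v hR
    have hl := R.lower_bound ((v.1 : ℝ), (v.2 : ℝ))
    have e := R.map_val (Int.castRingHom ℝ) v
    simp only [eq_intCast] at e
    rw [← e, hR, Int.cast_zero, mul_zero] at hl
    have hD : (0 : ℝ) < D := by exact_mod_cast R.D_pos
    have h1 : (v.1 : ℝ) ^ 2 + (v.2 : ℝ) ^ 2 = 0 :=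
      le_antisymm (nonpos_of_mul_nonpos_right (by linarith) hD) (by positivity)
    have h2 := (add_eq_zero_iff_of_nonneg (sq_nonneg _) (sq_nonneg _)).mp h1
    exact Prod.ext (by exact_mod_cast pow_eq_zero_iff two_ne_zero |>.mp h2.1)
      (by exact_mod_cast pow_eq_zero_iff two_ne_zero |>.mp h2.2)
  have : (R.finite_val_eq ((0 : ℕ) : ℤ)).toFinset = {0} := by
    ext v
    simp only [Set.Finite.mem_toFinset, Set.mem_ofPred_eq, Finset.mem_singleton, Nat.cast_zero]
    exact ⟨key v, fun h => by subst h; simp [BQF.val]⟩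
  rw [BQF.rep, this, Finset.card_singleton]

open scoped Classical in
/-- The value predicted at `l`, as an integer. -/
def predicted (l : ℕ) : ℤ := if S.HasDegOne c l then 1 else 0

/-- The Hecke relations of the weight one coefficients modulo `2`. -/
theorem two_dvd_wcoef_hecke {l : ℕ} (hl : l.Prime) (hlN : ¬ l ∣ 4 * D) (n : ℕ) :
    (2 : ℤ) ∣ S.wcoef c (n * l) + (if l ∣ n then S.wcoef c (n / l) else 0) -
      S.predicted c l * S.wcoef c n := by
  classical
  have hl2 : l ≠ 2 := fun e => hlN (e ▸ dvd_mul_of_dvd_left (by norm_num) D)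
  have hlD : ¬ l ∣ D := fun e => hlN (e.mul_left 4)
  by_cases hex : ∃ P : Ideal (𝓞 K), absNorm P = l
  · obtain ⟨P₀, hP₀⟩ := hex
    obtain ⟨Q₀, hPQ, hQ₀, hne⟩ := S.exists_conj hl hl2 hlD hP₀
    have hlodd := hl.odd_of_ne_two hl2
    let P' : oddIdeals K := ⟨P₀, by rw [mem_oddIdeals, hP₀]; exact hlodd⟩
    let Q' : oddIdeals K := ⟨Q₀, by rw [mem_oddIdeals, hQ₀]; exact hlodd⟩
    have hrel := fun g => S.cnt_split hl (S.rep g) P' Q' hPQ hP₀ hQ₀
      (fun e => hne (congrArg Subtype.val e)) n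
    have hQc : (c (S.cls Q')).toAdd = -(c (S.cls P')).toAdd := by
      have h1 : S.cls (P' * Q') = 1 := by
        refine S.cls_eq_one_of_oneMod2 (x := (l : 𝓞 K)) hPQ ?_
        obtain ⟨k, hk⟩ := hlodd
        exact ⟨k, by rw [hk]; push_cast; ring⟩
      have := congrArg (fun g => (c g).toAdd) h1
      simp only [map_mul, toAdd_mul, map_one, toAdd_one] at this
      exact eq_neg_of_add_eq_zero_right this
    set k := (c (S.cls P')).toAdd
    have hA : ∀ j, (∑ g ∈ S.colour c j, (S.cnt (S.rep g) (n * l) : ℤ)) +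
        (if l ∣ n then ∑ g ∈ S.colour c j, (S.cnt (S.rep g) (n / l) : ℤ) else 0) =
        (∑ g ∈ S.colour c (j + k), (S.cnt (S.rep g) n : ℤ)) + ∑ g ∈ S.colour c (j + -k), (S.cnt (S.rep g) n : ℤ) := by
      intro j
      rw [← hQc, ← S.colour_shift c (fun g => (S.cnt (S.rep g) n : ℤ)) (S.cls P') j,
        ← S.colour_shift c (fun g => (S.cnt (S.rep g) n : ℤ)) (S.cls Q') j, ← Finset.sum_add_distrib]
      have : ∀ g, (S.cnt (S.rep g) (n * l) : ℤ) + (if l ∣ n then (S.cnt (S.rep g) (n / l) : ℤ) else 0)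
          = (S.cnt (S.rep (g * S.cls P')) n : ℤ) + (S.cnt (S.rep (g * S.cls Q')) n : ℤ) := fun g => by
        rw [← S.cnt_rep_mul, ← S.cnt_rep_mul, ← Nat.cast_add, ← hrel g]
        push_cast
        split_ifs <;> simp
      rw [← Finset.sum_congr rfl (fun g _ => this g), Finset.sum_add_distrib]
      split_ifs <;> simp
    have hA0 := hA 0
    have hA1 := hA 1
    simp only [zero_add] at hA0
    have e1 := S.two_wcoef c hc (n * l)
    have e2 := S.two_wcoef c hc (n / l)
    have e3 := S.two_wcoef c hc n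
    by_cases hk : k = 0
    · have hb : S.predicted c l = 0 := by
        refine if_neg ?_
        rintro ⟨R, hR, hcR⟩
        apply hcR
        have hRm := S.isMaximal_of_prime_norm hl hR
        have hle : P₀ * Q₀ ≤ R := by
          rw [hPQ, span_singleton_le_iff_mem, ← hR]; exact absNorm_mem _
        rcases hRm.isPrime.mul_le.mp hle with h | h
        · have : R = P' := Subtype.ext
            ((S.isMaximal_of_prime_norm hl hP₀).eq_of_le hRm.ne_top h).symm
          rw [this]; exact Multiplicative.toAdd.injective (by simpa [k] using hk)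
        · have : R = Q' := Subtype.ext
            ((S.isMaximal_of_prime_norm hl hQ₀).eq_of_le hRm.ne_top h).symm
          rw [this]; exact Multiplicative.toAdd.injective (by simpa [hQc] using hk)
      rw [hb, zero_mul, sub_zero]
      rw [hk, neg_zero, add_zero] at hA1
      rw [hk, neg_zero] at hA0
      refine ⟨S.wcoef c n, ?_⟩
      split_ifs at hA0 hA1 ⊢ <;> omega
    · have hb : S.predicted c l = 1 := if_pos ⟨P', hP₀, fun h => hk (by simp [k, h])⟩
      rw [hb, one_mul]
      refine ⟨-S.wcoef c n, ?_⟩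
      have hk' : k = 1 ∨ k = 2 :=
  (show ∀ j : ZMod 3, j ≠ 0 → j = 1 ∨ j = 2 by decide) k hk
      rcases hk' with h | h
      · rw [h, show (-1 : ZMod 3) = 2 by decide] at hA0 hA1
        rw [show (1 : ZMod 3) + 1 = 2 by decide, show (1 : ZMod 3) + 2 = 0 by decide] at hA1
        split_ifs at hA0 hA1 ⊢ <;> omega
      · rw [h, show (-2 : ZMod 3) = 1 by decide] at hA0 hA1
        rw [show (1 : ZMod 3) + 1 = 2 by decide, show (1 : ZMod 3) + 2 = 0 by decide] at hA1
        split_ifs at hA0 hA1 ⊢ <;> omega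
  · push Not at hex
    have hb : S.predicted c l = 0 := if_neg fun ⟨R, hR, _⟩ => hex R hR
    have e1 := S.two_wcoef c hc (n * l)
    have e2 := S.two_wcoef c hc (n / l)
    simp only [S.cnt_inert hl hl2 hex] at e1
    rw [hb, zero_mul, sub_zero]
    refine ⟨if l ∣ n then S.wcoef c (n / l) else 0, ?_⟩
    split_ifs at e1 ⊢ with h
    · omega
    · simp at e1; omega

open scoped Classical in
/-- The normalised eigenform attached to `c`. -/
theorem exists_eigenform :
    ∃ (f : CuspForm (CongruenceSubgroup.Gamma0 (4 * D)) 2) (m : Ideal (integralClosure ℤ ℂ)),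
      f.IsNormalizedEigenform ∧ m.IsMaximal ∧ (2 : integralClosure ℤ ℂ) ∈ m ∧
      ∀ l : ℕ, l.Prime → ¬ l ∣ 4 * D →
        ∃ x : integralClosure ℤ ℂ, (x : ℂ) = ModularFormClass.qCoeff f l ∧
          x - (if S.HasDegOne c l then 1 else 0) ∈ m := by
  have := S.finite_ray
  let : Fintype (Ray K) := Fintype.ofFinite _
  let a := S.wcoef c
  have ha1 : a 1 = 1 := S.wcoef_one c hc
  obtain ⟨F, hF⟩ := exists_cuspForm Finset.univ (fun g => S.form (S.rep g))
    (BQF.princ D S.pos) (wgt c) fun n _ x => S.sum_wgt_eq_zero c hc n (NeZero.ne n) _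
      fun g b hb => S.gauss_rep_sq g b n hb x
  let P := BQF.princ D S.pos
  let G : ℕ → ℤ := fun n => ∑ ij ∈ antidiagonal n, a ij.1 * (P.rep ij.2 : ℤ)
  have hcoef : ∀ n, FA.Deform.qLin (4 * D) F n = (G n : ℂ) := by
    intro n
    rw [FA.Deform.qLin_apply, ModularFormClass.qCoeff, FA.Eis.HasQ.qExpansion_eq one_pos hF,
      PowerSeries.coeff_mul]
    simp only [G, Int.cast_sum, Int.cast_mul, Int.cast_natCast, map_sum, PowerSeries.coeff_smul,
      BQF.series, PowerSeries.coeff_mk, smul_eq_mul]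
    refine Finset.sum_congr rfl fun ij _ => ?_
    congr 1
    simp only [S.rep_form]
    exact S.sum_wgt_cnt c hc ij.1
  have hP0 : P.rep 0 = 1 := P.rep_zero
  have hG2 : ∀ n, (2 : ℤ) ∣ G n - a n := by
    intro n
    have hmem : (n, 0) ∈ antidiagonal n := by simp
    simp only [G]
    rw [← Finset.add_sum_erase _ _ hmem, hP0, Nat.cast_one, mul_one, add_sub_cancel_left]
    refine Finset.dvd_sum fun ij hij => ?_
    obtain ⟨hne, hij⟩ := Finset.mem_erase.mp hij
    have h2 : ij.2 ≠ 0 := fun h => hne (by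
      rw [HasAntidiagonal.mem_antidiagonal, h, add_zero] at hij
      exact Prod.ext hij h)
    exact dvd_mul_of_dvd_right
      (Int.natCast_dvd_natCast.mpr (even_iff_two_dvd.mp (BQF.even_rep P h2))) _
  have hbasis : CuspForm.HasIntegralBasis (4 * D) := by
    have : NeZero (4 * D) := ⟨by have := S.pos; omega⟩
    have h := FA.Period.hasIntegralStructure (4 * D) 2
    rw [CuspForm.HasIntegralStructure, CuspForm.intLattice, Submodule.span_span_of_tower] at h
    rw [CuspForm.HasIntegralBasis, eq_top_iff, ← h]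
    refine Submodule.span_mono fun f hf n => ?_
    obtain ⟨z, hz⟩ := hf n
    exact hz ▸ intCast_mem _ z
  have hlat : F ∈ CuspForm.intLattice (4 * D) 2 :=
    Submodule.subset_span fun n => ⟨G n, hcoef n⟩
  have h4D : NeZero (4 * D) := ⟨by have := S.pos; omega⟩
  let b : ℕ → ℤ := fun l => if S.HasDegOne c l then 1 else 0
  obtain ⟨f, hf, m, hm, h2m, hcong⟩ := FA.Deform.exists_eigenform_congruent hbasis Nat.prime_two
    (b := b) F hlat (fun z hz => by
      rw [hcoef, Int.cast_inj] at hz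
      subst hz
      have := hG2 1
      rw [ha1] at this
      push_cast
      omega)
    (fun l hl hlN n => by
      have hl2 : l ≠ 2 := fun e => hlN (e ▸ dvd_mul_of_dvd_left (by norm_num) D)
      have hlD : ¬ l ∣ D := fun e => hlN (e.mul_left 4)
      have key : (2 : ℤ) ∣ a (n * l) + (if l ∣ n then a (n / l) else 0) - b l * a n :=
        S.two_dvd_wcoef_hecke c hc hl hlN n
      refine ⟨(G (n * l) + (if l ∣ n then (l : ℤ) * G (n / l) else 0) - b l * G n) / 2, ?_⟩
      rw [Nat.cast_ofNat, Int.mul_ediv_cancel']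
      · rw [map_sub, map_smul, Pi.sub_apply, Pi.smul_apply, FA.Deform.qLin_heckeT hl hlN, hcoef,
          hcoef, hcoef, smul_eq_mul]
        split_ifs <;> push_cast <;> ring
      · obtain ⟨j, hj⟩ := hl.odd_of_ne_two hl2
        have hl' : (l : ℤ) = 2 * j + 1 := by exact_mod_cast hj
        obtain ⟨x, hx⟩ := key
        obtain ⟨y₁, hy₁⟩ := hG2 (n * l)
        obtain ⟨y₂, hy₂⟩ := hG2 (n / l)
        obtain ⟨y₃, hy₃⟩ := hG2 n
        split_ifs at hx ⊢
        · exact ⟨x + y₁ + l * y₂ + j * a (n / l) - b l * y₃, by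
            linear_combination hx + hy₁ + (l : ℤ) * hy₂ + a (n / l) * hl' - b l * hy₃⟩
        · exact ⟨x + y₁ - b l * y₃, by linear_combination hx + hy₁ - b l * hy₃⟩)
  refine ⟨f, m, hf, hm, by exact_mod_cast h2m, fun l hl hlN => ?_⟩
  obtain ⟨x, hx, hxm⟩ := hcong l hl hlN
  refine ⟨x, hx, ?_⟩
  convert hxm using 2
  simp only [b]
  split_ifs <;> simp

end IQ

end FA.Theta
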