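import Mathlib

/-!
# Positive binary quadratic forms with even middle coefficient, and their Gauss sums

For `n` odd and prime to the determinant the Gauss sum does not depend on the form, and its square
is `n ^ 2`.  This is all that is needed for the character of binary theta series.
-/

set_option autoImplicit false

noncomputable section

namespace FA.Theta

/-- A positive form `a x² + 2 b x y + c y²` of determinant `D`. -/
structure BQF (D : ℕ) where
  /-- first coefficient -/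
  a : ℤ
  /-- half the middle coefficient -/
  b : ℤ
  /-- last coefficient -/
  c : ℤ
  pos : 0 < a
  det : a * c - b ^ 2 = D
  D_pos : 0 < D

namespace BQF

variable {D : ℕ} (Q : BQF D)

/-- The form over a commutative ring. -/
def val {R : Type*} [CommRing R] (v : R × R) : R :=
  (Q.a : R) * v.1 ^ 2 + 2 * (Q.b : R) * v.1 * v.2 + (Q.c : R) * v.2 ^ 2

/-- The bilinear form of `Q`. -/
def bil {R : Type*} [CommRing R] (v w : R × R) : R :=
  (Q.a : R) * v.1 * w.1 + (Q.b : R) * (v.1 * w.2 + v.2 * w.1) + (Q.c : R) * v.2 * w.2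

lemma val_add {R : Type*} [CommRing R] (v w : R × R) :
    Q.val (v + w) = Q.val v + 2 * Q.bil v w + Q.val w := by
  simp only [val, bil, Prod.fst_add, Prod.snd_add]; ring

lemma map_val {R S : Type*} [CommRing R] [CommRing S] (f : R →+* S) (v : R × R) :
    f (Q.val v) = Q.val (f v.1, f v.2) := by
  simp [val, map_ofNat]

lemma det_cast {R : Type*} [CommRing R] : (Q.a : R) * Q.c - (Q.b : R) ^ 2 = D := by
  have := congrArg (Int.cast : ℤ → R) Q.det
  push_cast at this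
  exact this

lemma c_pos : 0 < Q.c := by
  have h := Q.det
  have := Q.pos
  have := Q.D_pos
  nlinarith [sq_nonneg Q.b]

/-- The adjugate form. -/
def adj : BQF D where
  a := Q.c
  b := -Q.b
  c := Q.a
  pos := Q.c_pos
  det := by rw [neg_sq, mul_comm]; exact Q.det
  D_pos := Q.D_pos

lemma val_adj {R : Type*} [CommRing R] (v : R × R) :
    Q.adj.val v = (Q.c : R) * v.1 ^ 2 - 2 * (Q.b : R) * v.1 * v.2 + (Q.a : R) * v.2 ^ 2 := by
  simp [val, adj]; ring

/-- The principal form `x² + D y²`. -/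
def princ (D : ℕ) (h : 0 < D) : BQF D where
  a := 1
  b := 0
  c := D
  pos := one_pos
  det := by ring
  D_pos := h

lemma val_princ (h : 0 < D) {R : Type*} [CommRing R] (v : R × R) :
    (princ D h).val v = v.1 ^ 2 + (D : R) * v.2 ^ 2 := by
  simp [val, princ]

lemma lower_bound (v : ℝ × ℝ) :
    (D : ℝ) * (v.1 ^ 2 + v.2 ^ 2) ≤ ((Q.a : ℝ) + Q.c) * Q.val v := by
  have h := Q.det_cast (R := ℝ)
  rw [← h, val]
  nlinarith [sq_nonneg ((Q.a : ℝ) * v.1 + Q.b * v.2), sq_nonneg ((Q.b : ℝ) * v.1 + Q.c * v.2)]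

lemma sum_pos : (0 : ℝ) < (Q.a : ℝ) + Q.c := by
  have h1 : (0 : ℝ) < (Q.a : ℝ) := by exact_mod_cast Q.pos
  have h2 : (0 : ℝ) < (Q.c : ℝ) := by exact_mod_cast Q.c_pos
  linarith

lemma val_nonneg (v : ℤ × ℤ) : 0 ≤ Q.val v := by
  have h := Q.det
  have := Q.pos
  have := Q.c_pos
  have hv : Q.a * Q.val v = (Q.a * v.1 + Q.b * v.2) ^ 2 + D * v.2 ^ 2 := by
    simp only [val, Int.cast_id]; linear_combination v.2 ^ 2 * h
  have hD : (0 : ℤ) ≤ (D : ℤ) * v.2 ^ 2 := mul_nonneg (Int.natCast_nonneg D) (sq_nonneg _)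
  nlinarith [sq_nonneg (Q.a * v.1 + Q.b * v.2)]

lemma finite_val_eq (n : ℤ) : {v : ℤ × ℤ | Q.val v = n}.Finite := by
  refine Set.Finite.subset ((Set.finite_Icc (-(Q.a + Q.c) * |n|) ((Q.a + Q.c) * |n|)).prod
    (Set.finite_Icc (-(Q.a + Q.c) * |n|) ((Q.a + Q.c) * |n|))) fun v hv => ?_
  rw [Set.mem_ofPred_eq] at hv
  have h := Q.det
  have ha := Q.pos
  have hc := Q.c_pos
  have hD : (1 : ℤ) ≤ D := by exact_mod_cast Q.D_pos
  have key : (D : ℤ) * (v.1 ^ 2 + v.2 ^ 2) ≤ (Q.a + Q.c) * n := by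
    rw [← hv, ← h]
    simp only [val, Int.cast_id]
    nlinarith [sq_nonneg (Q.a * v.1 + Q.b * v.2), sq_nonneg (Q.b * v.1 + Q.c * v.2)]
  have hn : (Q.a + Q.c) * n ≤ (Q.a + Q.c) * |n| :=
    mul_le_mul_of_nonneg_left (le_abs_self n) (by omega)
  have habs : ∀ x : ℤ, |x| ≤ x ^ 2 := fun x => by
    rw [← sq_abs, sq]
    rcases eq_or_ne x 0 with rfl | h
    · simp
    · exact le_mul_of_one_le_left (abs_nonneg x) (Int.one_le_abs h)
  have s1 := habs v.1
  have s2 := habs v.2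
  have hsq : v.1 ^ 2 + v.2 ^ 2 ≤ (D : ℤ) * (v.1 ^ 2 + v.2 ^ 2) :=
    le_mul_of_one_le_left (add_nonneg (sq_nonneg _) (sq_nonneg _)) hD
  have := abs_le.mp (show |v.1| ≤ (Q.a + Q.c) * |n| by linarith [sq_nonneg v.2])
  have := abs_le.mp (show |v.2| ≤ (Q.a + Q.c) * |n| by linarith [sq_nonneg v.1])
  simp only [Set.mem_prod, Set.mem_Icc, neg_mul]
  omega

/-- The number of representations of `n`. -/
def rep (n : ℕ) : ℕ := (Q.finite_val_eq n).toFinset.card

/-- The Gauss sum `∑ e((u Q(v) + w·v)/n)`. -/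
def gauss (n : ℕ) [NeZero n] (u : ZMod n) (w : ZMod n × ZMod n) : ℂ :=
  ∑ v : ZMod n × ZMod n, ZMod.stdAddChar (u * Q.val v + (w.1 * v.1 + w.2 * v.2))

end BQF

/-! ### Sums of the principal form modulo an odd number prime to `D` -/

/-- `n` is odd and prime to `D`. -/
def Adm (D n : ℕ) : Prop := n.Coprime (2 * D)

lemma Adm.of_dvd {D m n : ℕ} (h : Adm D n) (hd : m ∣ n) : Adm D m :=
  Nat.Coprime.coprime_dvd_left hd h

lemma Adm.isUnit_two {D n : ℕ} (h : Adm D n) : IsUnit (2 : ZMod n) := by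
  have := (ZMod.isUnit_iff_coprime 2 n).mpr (Nat.Coprime.coprime_dvd_left (dvd_mul_right 2 D) h.symm)
  simpa using this

lemma Adm.isUnit_det {D n : ℕ} (h : Adm D n) : IsUnit (D : ZMod n) :=
  (ZMod.isUnit_iff_coprime D n).mpr (Nat.Coprime.coprime_dvd_left (dvd_mul_left D 2) h.symm)

/-- Hensel lifting for squares. -/
lemma hensel_step {p : ℤ} (hp : Prime p) {s r : ℤ} {k : ℕ} (hk : 1 ≤ k) (hs : ¬ p ∣ 2 * s)
    (h : p ^ k ∣ s ^ 2 + r) : ∃ s', p ^ (k + 1) ∣ s' ^ 2 + r := by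
  obtain ⟨m, hm⟩ := h
  obtain ⟨α, β, hαβ⟩ := (hp.coprime_iff_not_dvd.mpr hs)
  refine ⟨s + p ^ k * (-(m * β)), ?_⟩
  have e : p ^ (2 * k) = p ^ (k + 1) * p ^ (k - 1) := by rw [← pow_add]; congr 1; omega
  refine ⟨m * α + p ^ (k - 1) * (m * β) ^ 2, ?_⟩
  have e2 : (p ^ k) ^ 2 = p ^ (k + 1) * p ^ (k - 1) := by rw [← pow_mul, mul_comm, e]
  linear_combination hm + (m * β) ^ 2 * e2 - p ^ k * m * hαβ

lemma exists_norm_eq_prime_pow {D p : ℕ} (hp : p.Prime) (hD : Adm D p) (u : ℤ)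
    (hu : ¬ (p : ℤ) ∣ u) : ∀ k : ℕ, ∃ s t : ℤ, ((p : ℤ) ^ k) ∣ s ^ 2 + D * t ^ 2 - u
  | 0 => ⟨0, 0, by simp⟩
  | 1 => by
    have : Fact p.Prime := ⟨hp⟩
    have h2 : ringChar (ZMod p) ≠ 2 := by
      rw [ZMod.ringChar_zmod_n]
      rintro rfl
      exact absurd (Nat.eq_one_of_dvd_coprimes hD dvd_rfl (dvd_mul_right 2 D)) (by norm_num)
    have hD0 : (D : ZMod p) ≠ 0 := hD.isUnit_det.ne_zero
    obtain ⟨a, b, hab⟩ := FiniteField.exists_root_sum_quadratic
      (f := Polynomial.X ^ 2 - Polynomial.C ((u : ZMod p)))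
      (g := Polynomial.C (D : ZMod p) * Polynomial.X ^ 2) (Polynomial.degree_X_pow_sub_C two_pos _)
      (Polynomial.degree_C_mul_X_pow 2 hD0)
      (by rw [ZMod.card]; exact Nat.odd_iff.mp (hp.odd_of_ne_two fun h => h2 ((ZMod.ringChar_zmod_n p).trans h)))
    refine ⟨a.val, b.val, ?_⟩
    rw [pow_one, ← ZMod.intCast_zmod_eq_zero_iff_dvd]
    push_cast
    simp only [ZMod.natCast_val, ZMod.cast_id', id_eq]
    simp only [Polynomial.eval_sub, Polynomial.eval_pow, Polynomial.eval_X, Polynomial.eval_C,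
      Polynomial.eval_mul] at hab
    linear_combination hab
  | k + 2 => by
    obtain ⟨s, t, h⟩ := exists_norm_eq_prime_pow hp hD u hu (k + 1)
    have hp' : Prime (p : ℤ) := Nat.prime_iff_prime_int.mp hp
    have hp1 : (p : ℤ) ∣ s ^ 2 + D * t ^ 2 - u := (dvd_pow_self _ (by omega)).trans h
    have h2 : ¬ (p : ℤ) ∣ 2 := fun hh => by
      have h2 : p ∣ 2 := Int.natCast_dvd_natCast.mp hh
      exact hp.ne_one (Nat.eq_one_of_dvd_coprimes hD dvd_rfl (h2.trans (dvd_mul_right 2 D)))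
    have hDp : ¬ (p : ℤ) ∣ (D : ℤ) := fun hh => hp.ne_one (Nat.eq_one_of_dvd_coprimes hD dvd_rfl
      ((Int.natCast_dvd_natCast.mp hh).trans (dvd_mul_left D 2)))
    by_cases hs : (p : ℤ) ∣ s
    · have ht : ¬ (p : ℤ) ∣ t := fun ht => hu (by
        have := dvd_sub (dvd_add (dvd_pow hs two_ne_zero) (dvd_mul_of_dvd_right (dvd_pow ht two_ne_zero) (D : ℤ))) hp1
        have e : u = s ^ 2 + D * t ^ 2 - (s ^ 2 + D * t ^ 2 - u) := by ring
        rwa [e])
      obtain ⟨e, f, hef⟩ := (hp'.coprime_iff_not_dvd.mpr hDp).pow_left (m := k + 2)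
      obtain ⟨t', ht'⟩ := hensel_step hp' (r := f * (s ^ 2 - u)) (s := t) (k := k + 1) (by omega)
        (fun hh => (hp'.dvd_or_dvd hh).elim h2 ht)
        (by
          obtain ⟨m, hm⟩ := h
          exact ⟨f * m + e * (p : ℤ) * t ^ 2, by linear_combination f * hm - t ^ 2 * hef⟩)
      obtain ⟨m, hm⟩ := ht'
      exact ⟨s, t', D * m + e * (s ^ 2 - u), by
        linear_combination (D : ℤ) * hm - (s ^ 2 - u) * hef⟩
    · obtain ⟨s', hs'⟩ := hensel_step hp' (r := (D : ℤ) * t ^ 2 - u) (s := s) (k := k + 1) (by omega)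
        (fun hh => (hp'.dvd_or_dvd hh).elim h2 hs) (by rwa [← add_sub_assoc])
      exact ⟨s', t, by rwa [add_sub_assoc]⟩

lemma crt_int {a b : ℕ} (h : a.Coprime b) (x y : ℤ) :
    ∃ z, (a : ℤ) ∣ z - x ∧ (b : ℤ) ∣ z - y := by
  obtain ⟨α, β, hh⟩ := Int.isCoprime_iff_nat_coprime.mpr (show (a : ℤ).natAbs.Coprime (b : ℤ).natAbs
    by simpa using h)
  exact ⟨x + α * a * (y - x), ⟨α * (y - x), by ring⟩, ⟨-(β * (y - x)), by linear_combination (y - x) * hh⟩⟩

lemma exists_norm_eq {D : ℕ} (n : ℕ) (hn : Adm D n) (u : ℤ) (hu : IsCoprime u n) :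
    ∃ s t : ℤ, (n : ℤ) ∣ s ^ 2 + D * t ^ 2 - u := by
  induction n using Nat.recOnPrimeCoprime with
  | zero => exact ⟨0, 0, by
      exfalso
      simp [Adm] at hn⟩
  | prime_pow p k hp =>
    rcases Nat.eq_zero_or_pos k with rfl | hk
    · exact ⟨0, 0, by simp⟩
    have hdvd : p ∣ p ^ k := dvd_pow_self p hk.ne'
    obtain ⟨s, t, h⟩ := exists_norm_eq_prime_pow hp (hn.of_dvd hdvd) u (fun hh => by
      have := hu.of_isCoprime_of_dvd_left hh
      rw [Nat.cast_pow, IsCoprime.pow_right_iff hk] at this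
      exact (Nat.prime_iff_prime_int.mp hp).not_isUnit (isCoprime_self.mp this)) k
    exact ⟨s, t, by exact_mod_cast h⟩
  | coprime a b ha hb hab iha ihb =>
    have hu' : IsCoprime u a ∧ IsCoprime u b := IsCoprime.mul_right_iff.mp (by exact_mod_cast hu)
    obtain ⟨s₁, t₁, h₁⟩ := iha (hn.of_dvd (dvd_mul_right a b)) hu'.1
    obtain ⟨s₂, t₂, h₂⟩ := ihb (hn.of_dvd (dvd_mul_left b a)) hu'.2
    obtain ⟨s, hs1, hs2⟩ := crt_int hab s₁ s₂
    obtain ⟨t, ht1, ht2⟩ := crt_int hab t₁ t₂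
    refine ⟨s, t, ?_⟩
    rw [Nat.cast_mul]
    refine IsCoprime.mul_dvd (Int.isCoprime_iff_nat_coprime.mpr (by simpa using hab)) ?_ ?_
    · have := dvd_add (dvd_add (hs1.mul_right (s + s₁)) ((ht1.mul_right ((D : ℤ) * (t + t₁))))) h₁
      convert this using 1; ring
    · have := dvd_add (dvd_add (hs2.mul_right (s + s₂)) ((ht2.mul_right ((D : ℤ) * (t + t₂))))) h₂
      convert this using 1; ring

namespace BQF

variable {D : ℕ} (Q : BQF D)

lemma exists_coprime_value (n : ℕ) (hn : Adm D n) :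
    ∃ v : ℤ × ℤ, IsCoprime (Q.val v) (n : ℤ) := by
  induction n using Nat.recOnPrimeCoprime with
  | zero => simp [Adm] at hn
  | prime_pow p k hp =>
    rcases Nat.eq_zero_or_pos k with rfl | hk
    · exact ⟨(0, 0), by simp [isCoprime_one_right]⟩
    have hp' : Prime (p : ℤ) := Nat.prime_iff_prime_int.mp hp
    have hD := hn.of_dvd (dvd_pow_self p hk.ne')
    suffices h : ∃ v : ℤ × ℤ, ¬ (p : ℤ) ∣ Q.val v by
      obtain ⟨v, hv⟩ := h
      exact ⟨v, by rw [Nat.cast_pow]; exact ((hp'.coprime_iff_not_dvd.mpr hv).symm).pow_right⟩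
    by_contra hcon
    push Not at hcon
    have ha : (p : ℤ) ∣ Q.a := by simpa [val] using hcon (1, 0)
    have hc : (p : ℤ) ∣ Q.c := by simpa [val] using hcon (0, 1)
    have hb : (p : ℤ) ∣ 2 * Q.b := by
      have := dvd_sub (dvd_sub (hcon (1, 1)) ha) hc
      simp [val] at this
      rwa [show 2 * Q.b = Q.a + 2 * Q.b + Q.c - Q.a - Q.c by ring]
    rcases hp'.dvd_or_dvd hb with h2 | hb
    · exact hp.ne_one (Nat.eq_one_of_dvd_coprimes hD dvd_rfl
        ((Int.natCast_dvd_natCast.mp h2).trans (dvd_mul_right 2 D)))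
    · have : (p : ℤ) ∣ (D : ℤ) := Q.det ▸ dvd_sub (ha.mul_right _) (dvd_pow hb two_ne_zero)
      exact hp.ne_one (Nat.eq_one_of_dvd_coprimes hD dvd_rfl
        ((Int.natCast_dvd_natCast.mp this).trans (dvd_mul_left D 2)))
  | coprime a b ha hb hab iha ihb =>
    obtain ⟨v₁, h₁⟩ := iha (hn.of_dvd (dvd_mul_right a b))
    obtain ⟨v₂, h₂⟩ := ihb (hn.of_dvd (dvd_mul_left b a))
    obtain ⟨x, hx1, hx2⟩ := crt_int hab v₁.1 v₂.1
    obtain ⟨y, hy1, hy2⟩ := crt_int hab v₁.2 v₂.2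
    have key : ∀ (m : ℤ) (v : ℤ × ℤ), m ∣ x - v.1 → m ∣ y - v.2 → IsCoprime (Q.val v) m →
        IsCoprime (Q.val (x, y)) m := fun m v hx hy hv => by
      obtain ⟨k, hk⟩ := dvd_add (hx.mul_right (Q.a * (x + v.1) + 2 * Q.b * y))
        (hy.mul_right (Q.c * (y + v.2) + 2 * Q.b * v.1))
      have : Q.val (x, y) = Q.val v + m * k := by simp only [val, Int.cast_id]; linear_combination hk
      rw [this]
      exact hv.add_mul_left_left k
    exact ⟨(x, y), by
      rw [Nat.cast_mul]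
      exact (key _ v₁ hx1 hy1 h₁).mul_right (key _ v₂ hx2 hy2 h₂)⟩

/-- The Gauss sum of the principal form with trivial parameters. -/
def gaussOne (D n : ℕ) [NeZero n] : ℂ :=
  ∑ v : ZMod n × ZMod n, ZMod.stdAddChar (v.1 ^ 2 + (D : ZMod n) * v.2 ^ 2)

variable {n : ℕ} [NeZero n]

lemma gauss_princ_unit (hn : Adm D n) {u : ZMod n} (hu : IsUnit u) :
    ∑ v : ZMod n × ZMod n, ZMod.stdAddChar (u * (v.1 ^ 2 + (D : ZMod n) * v.2 ^ 2)) =
      gaussOne D n := by
  obtain ⟨z, rfl⟩ : ∃ z : ℤ, (z : ZMod n) = u := ⟨u.val, by simp⟩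
  obtain ⟨w, hw⟩ := isUnit_iff_exists_inv.mp hu
  have hz : IsCoprime z (n : ℤ) := by
    obtain ⟨k, hk⟩ := (ZMod.intCast_zmod_eq_zero_iff_dvd (z * w.val - 1) n).mp (by simp [hw])
    exact ⟨w.val, -k, by linear_combination hk⟩
  obtain ⟨s, t, hst⟩ := exists_norm_eq n hn z hz
  have hst' : (s : ZMod n) ^ 2 + (D : ZMod n) * (t : ZMod n) ^ 2 = z := by
    have := (ZMod.intCast_zmod_eq_zero_iff_dvd _ n).mpr hst
    push_cast at this
    linear_combination this
  let f : ZMod n × ZMod n → ZMod n × ZMod n := fun v =>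
    ((s : ZMod n) * v.1 - (D : ZMod n) * t * v.2, (s : ZMod n) * v.2 + t * v.1)
  let g : ZMod n × ZMod n → ZMod n × ZMod n := fun v =>
    (w * ((s : ZMod n) * v.1 + (D : ZMod n) * t * v.2), w * ((s : ZMod n) * v.2 - t * v.1))
  refine (Finset.sum_nbij' (s := Finset.univ) (t := Finset.univ) f g (by simp) (by simp) ?_ ?_ ?_)
  · intro v _
    ext <;> simp only [f, g]
    · linear_combination (w * v.1) * hst' + v.1 * hw
    · linear_combination (w * v.2) * hst' + v.2 * hw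
  · intro v _
    ext <;> simp only [f, g]
    · linear_combination (w * v.1) * hst' + v.1 * hw
    · linear_combination (w * v.2) * hst' + v.2 * hw
  · intro v _
    rw [← hst']
    congr 1
    simp only [f]
    ring

/-- For `n` odd and prime to `D` the Gauss sum does not depend on the form. -/
theorem gauss_unit (hn : Adm D n) {u : ZMod n} (hu : IsUnit u) :
    Q.gauss n u 0 = gaussOne D n := by
  obtain ⟨v₀, hv₀⟩ := Q.exists_coprime_value n hn
  set x : ZMod n := (v₀.1 : ZMod n)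
  set y : ZMod n := (v₀.2 : ZMod n)
  set q : ZMod n := Q.val (x, y) with hqdef
  have hq : IsUnit q := by
    obtain ⟨α, β, h⟩ := hv₀
    have h' := congrArg (Int.cast : ℤ → ZMod n) h
    push_cast at h'
    rw [ZMod.natCast_self, mul_zero, add_zero, show ((Q.val v₀ : ℤ) : ZMod n) = q from
      Q.map_val (Int.castRingHom (ZMod n)) v₀] at h'
    exact IsUnit.of_mul_eq_one_right _ h'
  rw [← gauss_princ_unit hn (hu.mul hq), gauss]
  obtain ⟨w, hw⟩ := isUnit_iff_exists_inv.mp hq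
  have hdet := Q.det_cast (R := ZMod n)
  set X : ZMod n := -((Q.b : ZMod n) * x + Q.c * y)
  set Y : ZMod n := (Q.a : ZMod n) * x + Q.b * y
  let f : ZMod n × ZMod n → ZMod n × ZMod n := fun v => (x * v.1 + X * v.2, y * v.1 + Y * v.2)
  let g : ZMod n × ZMod n → ZMod n × ZMod n := fun v =>
    (w * (Y * v.1 - X * v.2), w * (x * v.2 - y * v.1))
  have hq' : x * Y - X * y = q := by simp only [hqdef, val, X, Y]; ring
  refine (Finset.sum_nbij' (s := Finset.univ) (t := Finset.univ) f g (by simp) (by simp) ?_ ?_ ?_).symm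
  · intro v _
    ext <;> simp only [f, g]
    · linear_combination (w * v.1) * hq' + v.1 * hw
    · linear_combination (w * v.2) * hq' + v.2 * hw
  · intro v _
    ext <;> simp only [f, g]
    · linear_combination (w * v.1) * hq' + v.1 * hw
    · linear_combination (w * v.2) * hq' + v.2 * hw
  · intro v _
    congr 1
    simp only [Prod.fst_zero, Prod.snd_zero, zero_mul, add_zero, f, X, Y, hqdef, val]
    linear_combination (-(u * v.2 ^ 2) * ((Q.a : ZMod n) * x ^ 2 + 2 * Q.b * x * y + Q.c * y ^ 2)) * hdet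

lemma sum_char_mul (a : ZMod n) :
    ∑ x : ZMod n, ZMod.stdAddChar (a * x) = if a = 0 then (n : ℂ) else 0 := by
  have := AddChar.sum_mulShift a (ZMod.isPrimitive_stdAddChar n)
  rw [ZMod.card] at this
  simpa [mul_comm a] using this

theorem gaussOne_sq (hn : Adm D n) : gaussOne D n ^ 2 = (n : ℂ) ^ 2 := by
  rw [sq]
  conv_lhs => arg 2; rw [← gauss_princ_unit hn (isUnit_one.neg : IsUnit (-1 : ZMod n))]
  rw [gaussOne, Finset.sum_mul_sum]
  calc ∑ v : ZMod n × ZMod n, ∑ w : ZMod n × ZMod n,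
        ZMod.stdAddChar (v.1 ^ 2 + (D : ZMod n) * v.2 ^ 2) *
          ZMod.stdAddChar (-1 * (w.1 ^ 2 + (D : ZMod n) * w.2 ^ 2))
      = ∑ h : ZMod n × ZMod n, ∑ w : ZMod n × ZMod n,
          ZMod.stdAddChar (h.1 ^ 2 + (D : ZMod n) * h.2 ^ 2) *
            (ZMod.stdAddChar ((2 * h.1) * w.1) * ZMod.stdAddChar ((2 * (D : ZMod n) * h.2) * w.2)) := by
        rw [Finset.sum_comm]
        conv_rhs => rw [Finset.sum_comm]
        refine Finset.sum_congr rfl fun w _ => ?_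
        refine (Fintype.sum_equiv (Equiv.addRight w) _ _ fun h => ?_).symm
        simp only [← AddChar.map_add_eq_mul, Equiv.coe_addRight, Prod.fst_add, Prod.snd_add]
        congr 1
        ring
    _ = (n : ℂ) ^ 2 := by
        simp only [Fintype.sum_prod_type, ← Finset.mul_sum, ← Finset.sum_mul, sum_char_mul,
          hn.isUnit_two.mul_right_eq_zero, (hn.isUnit_two.mul hn.isUnit_det).mul_right_eq_zero]
        rw [Finset.sum_eq_single 0, Finset.sum_eq_single 0] <;> simp +contextual [sq]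

/-- Completing the square. -/
theorem gauss_linear {u i : ZMod n} (hi : 4 * u * D * i = 1) (w : ZMod n × ZMod n) :
    Q.gauss n u w = Q.gauss n u 0 * ZMod.stdAddChar (-(i * Q.adj.val w)) := by
  rw [gauss, gauss, Finset.sum_mul]
  have hdet := Q.det_cast (R := ZMod n)
  let r : ZMod n × ZMod n := (-(2 * i) * ((Q.c : ZMod n) * w.1 - Q.b * w.2),
    -(2 * i) * (-(Q.b : ZMod n) * w.1 + Q.a * w.2))
  refine Fintype.sum_equiv (Equiv.subRight r) _ _ fun v => ?_
  rw [← AddChar.map_add_eq_mul]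
  congr 1
  rw [val_adj]
  simp only [Equiv.subRight_apply, val, Prod.fst_zero, Prod.snd_zero, Prod.fst_sub,
    Prod.snd_sub, r, zero_mul, add_zero]
  linear_combination
    (-(v.1 * w.1 + v.2 * w.2) - i * ((Q.c : ZMod n) * w.1 ^ 2 - 2 * Q.b * w.1 * w.2 + Q.a * w.2 ^ 2)) * hi
    - (4 * u * i * (v.1 * w.1 + v.2 * w.2) + 4 * u * i ^ 2 *
      ((Q.c : ZMod n) * w.1 ^ 2 - 2 * Q.b * w.1 * w.2 + Q.a * w.2 ^ 2)) * hdet

end BQF

end FA.Theta
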