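import Fermat.Agent.Theta.Classes
import Fermat.Agent.Theta.QForm

/-!
# The binary form of an odd ideal, and multiplication by primes
-/

set_option autoImplicit false

noncomputable section

open Module NumberField Ideal

namespace FA.Theta

namespace BQF

variable {D : ℕ}

/-- Forms related by a map of multiplier `m ^ 2`, `m` prime to `n`, have equal Gauss sums modulo
`n`. -/
theorem gauss_eq_of_map (Q Q' : BQF D) (φ : ℤ × ℤ →+ ℤ × ℤ) {m : ℤ}
    (h : ∀ v, Q'.val (φ v) = m ^ 2 * Q.val v) {n : ℕ} [NeZero n] (hm : IsUnit (m : ZMod n))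
    (u : ZMod n) : Q.gauss n u 0 = Q'.gauss n u 0 := by
  set p := φ (1, 0)
  set q := φ (0, 1)
  have hφ : ∀ v : ℤ × ℤ, φ v = (p.1 * v.1 + q.1 * v.2, p.2 * v.1 + q.2 * v.2) := by
    intro v
    have hv : v = v.1 • ((1, 0) : ℤ × ℤ) + v.2 • ((0, 1) : ℤ × ℤ) := by ext <;> simp
    conv_lhs => rw [hv, map_add, map_zsmul, map_zsmul]
    ext <;> simp [p, q, mul_comm]
  have h10 := h (1, 0)
  have h01 := h (0, 1)
  have h11 := h (1, 1)
  simp only [hφ, val, Int.cast_id] at h10 h01 h11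
  ring_nf at h10 h01 h11
  set Δ := p.1 * q.2 - p.2 * q.1
  have hB : Q'.a * p.1 * q.1 + Q'.b * (p.1 * q.2 + p.2 * q.1) + Q'.c * p.2 * q.2 = m ^ 2 * Q.b := by
    linarith [h10, h01, h11]
  have hΔ : (D : ℤ) * Δ ^ 2 = (D : ℤ) * (m ^ 2) ^ 2 := by
    have e1 : (Q'.a * p.1 ^ 2 + 2 * Q'.b * p.1 * p.2 + Q'.c * p.2 ^ 2) = m ^ 2 * Q.a := by
      linarith [h10]
    have e2 : (Q'.a * q.1 ^ 2 + 2 * Q'.b * q.1 * q.2 + Q'.c * q.2 ^ 2) = m ^ 2 * Q.c := by
      linarith [h01]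
    calc (D : ℤ) * Δ ^ 2
        = (Q'.a * p.1 ^ 2 + 2 * Q'.b * p.1 * p.2 + Q'.c * p.2 ^ 2) *
            (Q'.a * q.1 ^ 2 + 2 * Q'.b * q.1 * q.2 + Q'.c * q.2 ^ 2) -
          (Q'.a * p.1 * q.1 + Q'.b * (p.1 * q.2 + p.2 * q.1) + Q'.c * p.2 * q.2) ^ 2 := by
          rw [← Q'.det]; ring
      _ = (D : ℤ) * (m ^ 2) ^ 2 := by rw [e1, e2, hB, ← Q.det]; ring
  have hunit : IsUnit ((Δ : ℤ) : ZMod n) := by
    have h2 : Δ ^ 2 = (m ^ 2) ^ 2 :=
      mul_left_cancel₀ (by exact_mod_cast Q.D_pos.ne') hΔ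
    refine (isUnit_pow_iff two_ne_zero).mp ?_
    rw [← Int.cast_pow, h2]
    push_cast
    exact (hm.pow 2).pow 2
  obtain ⟨μ, hμ⟩ := isUnit_iff_exists_inv.mp hm
  obtain ⟨w, hw⟩ := isUnit_iff_exists_inv.mp hunit
  let f : ZMod n × ZMod n → ZMod n × ZMod n := fun v =>
    (μ * ((p.1 : ZMod n) * v.1 + q.1 * v.2), μ * ((p.2 : ZMod n) * v.1 + q.2 * v.2))
  let g : ZMod n × ZMod n → ZMod n × ZMod n := fun v =>
    (m * w * ((q.2 : ZMod n) * v.1 - q.1 * v.2), m * w * ((p.1 : ZMod n) * v.2 - p.2 * v.1))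
  have hw' : ((p.1 : ZMod n) * q.2 - p.2 * q.1) * w = 1 := by
    rw [← hw]; simp [Δ]
  refine Finset.sum_nbij' (s := Finset.univ) (t := Finset.univ) f g (by simp) (by simp) ?_ ?_ ?_
  · intro v _
    ext <;> simp only [f, g]
    · linear_combination (v.1 * ((p.1 : ZMod n) * q.2 - p.2 * q.1) * w) * hμ + v.1 * hw'
    · linear_combination (v.2 * ((p.1 : ZMod n) * q.2 - p.2 * q.1) * w) * hμ + v.2 * hw'
  · intro v _
    ext <;> simp only [f, g]
    · linear_combination (v.1 * ((p.1 : ZMod n) * q.2 - p.2 * q.1) * w) * hμ + v.1 * hw'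
    · linear_combination (v.2 * ((p.1 : ZMod n) * q.2 - p.2 * q.1) * w) * hμ + v.2 * hw'
  · intro v _
    congr 1
    have e10 : ((Q'.a : ZMod n) * (p.1 : ZMod n) ^ 2 + 2 * Q'.b * p.1 * p.2 + Q'.c * p.2 ^ 2) =
        (m : ZMod n) ^ 2 * Q.a := by
      have := congrArg (Int.cast : ℤ → ZMod n)
        (show Q'.a * p.1 ^ 2 + 2 * Q'.b * p.1 * p.2 + Q'.c * p.2 ^ 2 = m ^ 2 * Q.a by linarith [h10])
      push_cast at this; exact this
    have e01 : ((Q'.a : ZMod n) * (q.1 : ZMod n) ^ 2 + 2 * Q'.b * q.1 * q.2 + Q'.c * q.2 ^ 2) =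
        (m : ZMod n) ^ 2 * Q.c := by
      have := congrArg (Int.cast : ℤ → ZMod n)
        (show Q'.a * q.1 ^ 2 + 2 * Q'.b * q.1 * q.2 + Q'.c * q.2 ^ 2 = m ^ 2 * Q.c by linarith [h01])
      push_cast at this; exact this
    have eB := congrArg (Int.cast : ℤ → ZMod n) hB
    push_cast at eB
    simp only [Prod.fst_zero, Prod.snd_zero, zero_mul, add_zero, f, val]
    linear_combination (-(u * μ ^ 2 * v.1 ^ 2)) * e10 + (-(u * μ ^ 2 * v.2 ^ 2)) * e01 +
      (-(2 * u * μ ^ 2 * v.1 * v.2)) * eB +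
      (-(u * ((Q.a : ZMod n) * v.1 ^ 2 + 2 * Q.b * v.1 * v.2 + Q.c * v.2 ^ 2)) * ((m : ZMod n) * μ + 1)) * hμ

lemma even_rep (Q : BQF D) {n : ℕ} (hn : n ≠ 0) : Even (Q.rep n) := by
  classical
  set s := (Q.finite_val_eq n).toFinset
  let P : ℤ × ℤ → Prop := fun v => 0 < v.1 ∨ (v.1 = 0 ∧ 0 < v.2)
  have hs : ∀ v, v ∈ s ↔ Q.val v = n := fun v => by simp [s]
  have : (s.filter P).card = (s.filter fun v => ¬ P v).card := by
    refine Finset.card_nbij' (fun v => -v) (fun v => -v) ?_ ?_ (fun v _ => neg_neg v) (fun v _ => neg_neg v)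
    · intro v hv
      simp only [Finset.coe_filter, Set.mem_ofPred_eq, hs] at hv ⊢
      refine ⟨by rw [← hv.1]; simp [val], ?_⟩
      simp only [P, Prod.fst_neg, Prod.snd_neg] at hv ⊢
      omega
    · intro v hv
      simp only [Finset.coe_filter, Set.mem_ofPred_eq, hs] at hv ⊢
      refine ⟨by rw [← hv.1]; simp [val], ?_⟩
      have hne : ¬ (v.1 = 0 ∧ v.2 = 0) := fun h => hn (by
        have := hv.1
        simp [val, h.1, h.2] at this
        omega)
      simp only [P, Prod.fst_neg, Prod.snd_neg] at hv ⊢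
      omega
  exact ⟨_, by rw [rep, ← Finset.card_filter_add_card_filter_not (s := s) P, this]⟩

end BQF

variable {K : Type*} [Field K] [NumberField K]

namespace IQ

variable {D : ℕ} (S : IQ K D)

include S

lemma natCast_dvd_iff (l : ℕ) (x : 𝓞 K) :
    (l : 𝓞 K) ∣ x ↔ (l : ℤ) ∣ S.re x ∧ (l : ℤ) ∣ S.im x := by
  constructor
  · rintro ⟨y, rfl⟩
    have : (l : 𝓞 K) * y = S.el (l * S.re y) (l * S.im y) := by
      conv_lhs => rw [← S.el_re_im y]
      simp [el]; ring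
    rw [this, re_el, im_el]
    exact ⟨dvd_mul_right _ _, dvd_mul_right _ _⟩
  · rintro ⟨⟨a, ha⟩, b, hb⟩
    exact ⟨S.el a b, by rw [← S.el_re_im x, ha, hb]; simp [el]; ring⟩

lemma re_add (x y : 𝓞 K) : S.re (x + y) = S.re x + S.re y := by
  simp only [re, map_add, Finsupp.add_apply]

lemma im_add (x y : 𝓞 K) : S.im (x + y) = S.im x + S.im y := by
  simp only [im, map_add, Finsupp.add_apply]

lemma re_zsmul (n : ℤ) (x : 𝓞 K) : S.re (n • x) = n * S.re x := by
  simp only [re, map_zsmul, Finsupp.smul_apply, smul_eq_mul]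

lemma im_zsmul (n : ℤ) (x : 𝓞 K) : S.im (n • x) = n * S.im x := by
  simp only [im, map_zsmul, Finsupp.smul_apply, smul_eq_mul]

/-- `𝔞 ∩ (ℤ + 2 𝓞)`. -/
def InLat (a : Ideal (𝓞 K)) (x : 𝓞 K) : Prop := x ∈ a ∧ 2 ∣ S.im x

lemma norm_coords (r i : ℤ) :
    Algebra.norm ℤ (S.el r (2 * i)) = (r + i) ^ 2 + D * i ^ 2 := by
  rw [S.norm_el]
  linear_combination i ^ 2 * S.four_e

/-- The binary form of an odd ideal. -/
theorem exists_form (a : oddIdeals K) :
    ∃ (Q : BQF D) (e : ℤ × ℤ →+ 𝓞 K), Function.Injective e ∧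
      (∀ x, S.InLat a x ↔ ∃ v, e v = x) ∧
      ∀ v, Algebra.norm ℤ (e v) = Q.val v * (absNorm (a : Ideal (𝓞 K)) : ℤ) := by
  classical
  set I : Ideal (𝓞 K) := (a : Ideal (𝓞 K))
  set N : ℕ := absNorm I with hN
  have hodd : Odd N := a.2
  let bI := Ideal.selfBasis S.basis I (ne_bot_of_odd a.2)
  have hdet := Ideal.natAbs_det_basis_change S.basis I bI
  set b₁ : 𝓞 K := (bI 0 : 𝓞 K)
  set b₂ : 𝓞 K := (bI 1 : 𝓞 K)
  have hd : (S.re b₁ * S.im b₂ - S.re b₂ * S.im b₁).natAbs = N := by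
    refine Eq.trans ?_ hdet
    rw [Basis.det_apply, Matrix.det_fin_two]
    rfl
  have hspan : ∀ x ∈ I, ∃ p q : ℤ, x = p • b₁ + q • b₂ := fun x hx => by
    have := congrArg (fun z : I => (z : 𝓞 K)) (bI.sum_repr ⟨x, hx⟩)
    simp only [Fin.sum_univ_two, Submodule.coe_add, SetLike.val_smul] at this
    exact ⟨_, _, this.symm⟩
  have him : ∀ p q : ℤ, S.im (p • b₁ + q • b₂) = p * S.im b₁ + q * S.im b₂ := fun p q => by
    rw [S.im_add, S.im_zsmul, S.im_zsmul]
  -- a basis of the lattice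
  obtain ⟨v₁, v₂, hv₁, hv₂, hvd, hgen⟩ : ∃ v₁ v₂ : 𝓞 K, S.InLat I v₁ ∧ S.InLat I v₂ ∧
      (S.re v₁ * S.im v₂ - S.re v₂ * S.im v₁).natAbs = 2 * N ∧
      ∀ x, S.InLat I x → ∃ p q : ℤ, x = p • v₁ + q • v₂ := by
    have hb₁ : b₁ ∈ I := (bI 0).2
    have hb₂ : b₂ ∈ I := (bI 1).2
    by_cases h1 : 2 ∣ S.im b₁
    · have h2 : ¬ (2 : ℤ) ∣ S.im b₂ := fun h2 => by
        have : (2 : ℤ) ∣ S.re b₁ * S.im b₂ - S.re b₂ * S.im b₁ :=
          dvd_sub (h2.mul_left _) (h1.mul_left _)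
        rw [← Int.dvd_natAbs, hd] at this
        rw [Nat.odd_iff] at hodd
        omega
      refine ⟨b₁, (2 : ℤ) • b₂, ⟨hb₁, h1⟩, ⟨zsmul_mem hb₂ 2, by rw [S.im_zsmul]; exact dvd_mul_right _ _⟩, ?_, ?_⟩
      · rw [← hd, show S.re b₁ * S.im ((2 : ℤ) • b₂) - S.re ((2 : ℤ) • b₂) * S.im b₁ =
          2 * (S.re b₁ * S.im b₂ - S.re b₂ * S.im b₁) by simp only [S.re_zsmul, S.im_zsmul, S.re_add, S.im_add]; ring, Int.natAbs_mul]
        rfl
      · intro x hx
        obtain ⟨p, q, rfl⟩ := hspan x hx.1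
        have h := hx.2
        rw [him] at h
        have : (2 : ℤ) ∣ q := (Int.prime_two.dvd_or_dvd
          ((dvd_add_right (h1.mul_left p)).mp h)).resolve_right h2
        obtain ⟨k, rfl⟩ := this
        exact ⟨p, k, by rw [smul_smul, mul_comm k 2]⟩
    · refine ⟨b₂ + S.im b₂ • b₁, (2 : ℤ) • b₁,
        ⟨add_mem hb₂ (zsmul_mem hb₁ _), ?_⟩,
        ⟨zsmul_mem hb₁ 2, by rw [S.im_zsmul]; exact dvd_mul_right _ _⟩, ?_, ?_⟩
      · rw [S.im_add, S.im_zsmul]
        obtain ⟨k, hk⟩ : ∃ k, S.im b₁ = 2 * k + 1 := ⟨S.im b₁ / 2, by omega⟩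
        exact ⟨S.im b₂ * k + S.im b₂, by rw [hk]; ring⟩
      · rw [← hd, show S.re (b₂ + S.im b₂ • b₁) * S.im ((2 : ℤ) • b₁) -
            S.re ((2 : ℤ) • b₁) * S.im (b₂ + S.im b₂ • b₁) =
          2 * -(S.re b₁ * S.im b₂ - S.re b₂ * S.im b₁) by simp only [S.re_zsmul, S.im_zsmul, S.re_add, S.im_add]; ring, Int.natAbs_mul,
          Int.natAbs_neg]
        rfl
      · intro x hx
        obtain ⟨p, q, rfl⟩ := hspan x hx.1
        have h := hx.2
        rw [him] at h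
        obtain ⟨k, hk⟩ : (2 : ℤ) ∣ p - q * S.im b₂ := by
          obtain ⟨j, hj⟩ : ∃ j, S.im b₁ = 2 * j + 1 := ⟨S.im b₁ / 2, by omega⟩
          obtain ⟨i, hi⟩ := h
          exact ⟨i - p * j - q * S.im b₂, by rw [hj] at hi; linear_combination hi⟩
        refine ⟨q, k, ?_⟩
        rw [smul_add, smul_smul, smul_smul, add_assoc, ← add_smul, show q * S.im b₂ + k * 2 = p by
          linarith, add_comm]
  -- coordinates in `1, δ`
  obtain ⟨i₁, hi₁⟩ := hv₁.2
  obtain ⟨i₂, hi₂⟩ := hv₂.2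
  set u₁ := S.re v₁ + i₁ with hu₁
  set u₂ := S.re v₂ + i₂ with hu₂
  have hnorm : ∀ p q : ℤ, Algebra.norm ℤ (p • v₁ + q • v₂) =
      (p * u₁ + q * u₂) ^ 2 + D * (p * i₁ + q * i₂) ^ 2 := by
    intro p q
    have : p • v₁ + q • v₂ = S.el (p * S.re v₁ + q * S.re v₂) (2 * (p * i₁ + q * i₂)) := by
      conv_lhs => rw [← S.el_re_im v₁, ← S.el_re_im v₂, hi₁, hi₂]
      simp [el, zsmul_eq_mul]; ring
    rw [this, S.norm_coords, hu₁, hu₂]
    ring
  have hdvd : ∀ p q : ℤ, (N : ℤ) ∣ (p * u₁ + q * u₂) ^ 2 + D * (p * i₁ + q * i₂) ^ 2 := by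
    intro p q
    rw [← hnorm]
    exact absNorm_dvd_norm_of_mem (add_mem (zsmul_mem hv₁.1 _) (zsmul_mem hv₂.1 _))
  obtain ⟨A, hA⟩ := hdvd 1 0
  obtain ⟨C, hC⟩ := hdvd 0 1
  obtain ⟨B2, hB2⟩ := hdvd 1 1
  ring_nf at hA hC hB2
  have hNodd : IsCoprime (N : ℤ) 2 := by
    obtain ⟨k, hk⟩ := hodd
    exact ⟨1, -k, by rw [hk]; push_cast; ring⟩
  obtain ⟨B, hB⟩ : (N : ℤ) ∣ u₁ * u₂ + D * i₁ * i₂ :=
    hNodd.dvd_of_dvd_mul_left ⟨B2 - A - C, by linarith [hA, hC, hB2]⟩
  have hNz : (N : ℤ) ≠ 0 := by exact_mod_cast (Nat.pos_of_ne_zero fun h => by simp [h] at hodd).ne'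
  have hdetN : (u₁ * i₂ - u₂ * i₁) ^ 2 = (N : ℤ) ^ 2 := by
    have : (2 * (u₁ * i₂ - u₂ * i₁)).natAbs = 2 * N := by
      rw [← hvd, hi₁, hi₂, hu₁, hu₂]
      congr 1; ring
    rw [Int.natAbs_mul] at this
    rw [← Int.natAbs_sq, show (u₁ * i₂ - u₂ * i₁).natAbs = N by
      simp at this; omega]
  have hdetQ : A * C - B ^ 2 = (D : ℤ) := by
    have e : ((N : ℤ) * A) * ((N : ℤ) * C) - ((N : ℤ) * B) ^ 2 = (D : ℤ) * (N : ℤ) ^ 2 := by
      rw [← hA, ← hC, ← hB, ← hdetN]; ring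
    refine mul_left_cancel₀ (pow_ne_zero 2 hNz) ?_
    linear_combination e
  have hApos : 0 < A := by
    have hDp : (0 : ℤ) < D := by exact_mod_cast S.pos
    have h0 : 0 ≤ (N : ℤ) * A := by rw [← hA]; positivity
    rcases lt_trichotomy A 0 with h | h | h
    · have : (0 : ℤ) < N := by omega
      nlinarith
    · rw [h] at hdetQ; nlinarith [sq_nonneg B]
    · exact h
  let e : ℤ × ℤ →+ 𝓞 K :=
    { toFun := fun v => v.1 • v₁ + v.2 • v₂
      map_zero' := by simp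
      map_add' := fun v w => by simp [add_smul]; abel }
  refine ⟨⟨A, B, C, hApos, hdetQ, S.pos⟩, e, ?_, ?_, ?_⟩
  · rw [injective_iff_map_eq_zero]
    intro v hv
    have h1 : S.re (v.1 • v₁ + v.2 • v₂) = 0 := by rw [show v.1 • v₁ + v.2 • v₂ = 0 from hv]; simp [re]
    have h2 : S.im (v.1 • v₁ + v.2 • v₂) = 0 := by rw [show v.1 • v₁ + v.2 • v₂ = 0 from hv]; simp [im]
    rw [S.re_add, S.re_zsmul, S.re_zsmul] at h1
    rw [S.im_add, S.im_zsmul, S.im_zsmul] at h2
    have hne : S.re v₁ * S.im v₂ - S.re v₂ * S.im v₁ ≠ 0 := fun h => by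
      rw [h] at hvd; simp at hvd; omega
    have e1 : v.1 * (S.re v₁ * S.im v₂ - S.re v₂ * S.im v₁) = 0 := by
      linear_combination S.im v₂ * h1 - S.re v₂ * h2
    have e2 : v.2 * (S.re v₁ * S.im v₂ - S.re v₂ * S.im v₁) = 0 := by
      linear_combination S.re v₁ * h2 - S.im v₁ * h1
    exact Prod.ext ((mul_eq_zero.mp e1).resolve_right hne) ((mul_eq_zero.mp e2).resolve_right hne)
  · intro x
    refine ⟨fun hx => ?_, ?_⟩
    · obtain ⟨p, q, rfl⟩ := hgen x hx
      exact ⟨(p, q), rfl⟩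
    · rintro ⟨v, rfl⟩
      refine ⟨add_mem (zsmul_mem hv₁.1 _) (zsmul_mem hv₂.1 _), ?_⟩
      change (2 : ℤ) ∣ S.im (v.1 • v₁ + v.2 • v₂)
      have : S.im (v.1 • v₁ + v.2 • v₂) = v.1 * S.im v₁ + v.2 * S.im v₂ := by
        rw [S.im_add, S.im_zsmul, S.im_zsmul]
      rw [this]
      exact dvd_add (hv₁.2.mul_left _) (hv₂.2.mul_left _)
  · intro v
    change Algebra.norm ℤ (v.1 • v₁ + v.2 • v₂) = _
    rw [hnorm]
    simp only [BQF.val, Int.cast_id]
    linear_combination v.1 ^ 2 * hA + v.2 ^ 2 * hC + 2 * v.1 * v.2 * hB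

/-- The form of an odd ideal. -/
def form (a : oddIdeals K) : BQF D := (S.exists_form a).choose

/-- The parametrisation of the lattice of an odd ideal. -/
def param (a : oddIdeals K) : ℤ × ℤ →+ 𝓞 K := (S.exists_form a).choose_spec.choose

lemma param_injective (a : oddIdeals K) : Function.Injective (S.param a) :=
  (S.exists_form a).choose_spec.choose_spec.1

lemma inLat_iff (a : oddIdeals K) (x : 𝓞 K) : S.InLat a x ↔ ∃ v, S.param a v = x :=
  (S.exists_form a).choose_spec.choose_spec.2.1 x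

lemma norm_param (a : oddIdeals K) (v : ℤ × ℤ) :
    Algebra.norm ℤ (S.param a v) = (S.form a).val v * (absNorm (a : Ideal (𝓞 K)) : ℤ) :=
  (S.exists_form a).choose_spec.choose_spec.2.2 v

omit S in
lemma absNorm_pos (a : oddIdeals K) : 0 < absNorm (a : Ideal (𝓞 K)) := (a.2 : Odd _).pos

/-- The elements counted by `cnt`. -/
def cntSet (a : oddIdeals K) (n : ℕ) : Set (𝓞 K) :=
  {x | S.InLat a x ∧ Algebra.norm ℤ x = (n : ℤ) * (absNorm (a : Ideal (𝓞 K)) : ℤ)}

/-- The number of lattice elements of relative norm `n`. -/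
def cnt (a : oddIdeals K) (n : ℕ) : ℕ := (S.cntSet a n).ncard

lemma cntSet_eq (a : oddIdeals K) (n : ℕ) :
    S.cntSet a n = S.param a '' {v | (S.form a).val v = (n : ℤ)} := by
  have hpos : (absNorm (a : Ideal (𝓞 K)) : ℤ) ≠ 0 := by exact_mod_cast (absNorm_pos a).ne'
  ext x
  simp only [cntSet, Set.mem_ofPred_eq, Set.mem_image, S.inLat_iff]
  constructor
  · rintro ⟨⟨v, rfl⟩, h⟩
    rw [S.norm_param] at h
    exact ⟨v, mul_right_cancel₀ hpos h, rfl⟩
  · rintro ⟨v, hv, rfl⟩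
    exact ⟨⟨v, rfl⟩, by rw [S.norm_param, hv]⟩

lemma finite_cntSet (a : oddIdeals K) (n : ℕ) : (S.cntSet a n).Finite := by
  rw [cntSet_eq]
  exact ((S.form a).finite_val_eq n).image _

theorem rep_form (a : oddIdeals K) (n : ℕ) : (S.form a).rep n = S.cnt a n := by
  rw [cnt, cntSet_eq, Set.ncard_image_of_injective _ (S.param_injective a), BQF.rep,
    Set.ncard_eq_toFinset_card _ ((S.form a).finite_val_eq n)]

/-- Transport between equivalent ideals. -/
theorem exists_transport {a b : oddIdeals K} (h : Rel a b) :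
    ∃ φ : ℤ × ℤ →+ ℤ × ℤ, Function.Injective φ ∧ ∀ v, (S.form b).val (φ v) = (S.form a).val v := by
  obtain ⟨α, β, hα, hβ, heq⟩ := h
  have hα0 : α ≠ 0 := fun e => S.not_dvd_of_oneMod2 hα (e ▸ dvd_zero _)
  have hβ0 : β ≠ 0 := fun e => S.not_dvd_of_oneMod2 hβ (e ▸ dvd_zero _)
  have hex : ∀ v, ∃ w, α * S.param a v = β * S.param b w := by
    intro v
    obtain ⟨hx, hi⟩ := (S.inLat_iff a _).mpr ⟨v, rfl⟩
    have : α * S.param a v ∈ span {β} * (b : Ideal (𝓞 K)) :=
      heq ▸ mul_mem_mul (mem_span_singleton_self α) hx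
    obtain ⟨y, hy, hxy⟩ := mem_span_singleton_mul.mp this
    have hlat : S.InLat b y := by
      refine ⟨hy, ?_⟩
      set x := S.param a v
      have h1 : (2 : 𝓞 K) ∣ y - x := by
        have := dvd_sub (hα.mul_right x) (hβ.mul_right y)
        rwa [show (α - 1) * x - (β - 1) * y = y - x by rw [sub_mul, sub_mul, ← hxy]; ring] at this
      have := ((S.two_dvd_iff _).mp h1).2
      simp only [im, map_sub, Finsupp.coe_sub, Pi.sub_apply] at this hi ⊢
      omega
    obtain ⟨w, hw⟩ := (S.inLat_iff b y).mp hlat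
    exact ⟨w, by rw [hw, hxy]⟩
  choose φ hφ using hex
  have huniq : ∀ v w, α * S.param a v = β * S.param b w → φ v = w := fun v w h =>
    S.param_injective b (mul_left_cancel₀ hβ0 ((hφ v).symm.trans h))
  let φ' : ℤ × ℤ →+ ℤ × ℤ :=
    { toFun := φ
      map_zero' := huniq _ _ (by simp)
      map_add' := fun v w => huniq _ _ (by rw [map_add, map_add, mul_add, mul_add, hφ, hφ]) }
  refine ⟨φ', fun v w e => S.param_injective a (mul_left_cancel₀ hα0 ?_), fun v => ?_⟩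
  · rw [hφ v, hφ w]; exact congrArg (fun z => β * S.param b z) e
  · have e := congrArg (Algebra.norm ℤ) (hφ v)
    have e2 := congrArg (fun I => (absNorm I : ℤ)) heq
    simp only [map_mul, Nat.cast_mul, S.absNorm_span] at e2
    rw [map_mul, map_mul, S.norm_param, S.norm_param] at e
    have hne : Algebra.norm ℤ β * (absNorm (b : Ideal (𝓞 K)) : ℤ) ≠ 0 := by
      refine mul_ne_zero (Algebra.norm_ne_zero_iff.mpr hβ0) ?_
      exact_mod_cast (absNorm_pos b).ne'
    refine mul_left_cancel₀ hne ?_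
    show _ * (S.form b).val (φ v) = _
    linear_combination -e + (S.form a).val v * e2

lemma cnt_congr {a b : oddIdeals K} (h : Rel a b) (n : ℕ) : S.cnt a n = S.cnt b n := by
  have key : ∀ {a b : oddIdeals K}, Rel a b → S.cnt a n ≤ S.cnt b n := by
    intro a b h
    obtain ⟨φ, hφ, hval⟩ := S.exists_transport h
    rw [← rep_form, ← rep_form, BQF.rep, BQF.rep]
    refine Finset.card_le_card_of_injOn φ (fun v hv => ?_) hφ.injOn
    simpa [hval] using hv
  exact le_antisymm (key h) (key ((rayCon K).symm h))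

lemma gauss_congr {a b : oddIdeals K} (h : Rel a b) (n : ℕ) [NeZero n] (u : ZMod n) :
    (S.form a).gauss n u 0 = (S.form b).gauss n u 0 := by
  obtain ⟨φ, -, hφ⟩ := S.exists_transport h
  exact BQF.gauss_eq_of_map _ _ φ (m := 1) (by simpa using hφ) (by simp) u

/-- The Gauss sum modulo `n` is unchanged under multiplication by the square of an ideal prime to
`n`. -/
theorem gauss_mul_sq (a b : oddIdeals K) (n : ℕ) [NeZero n]
    (hb : (absNorm (b : Ideal (𝓞 K))).Coprime n) (u : ZMod n) :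
    (S.form (a * (b * b))).gauss n u 0 = (S.form a).gauss n u 0 := by
  have hex : ∀ v, ∃ w, S.param (a * (b * b)) v = S.param a w := fun v => by
    obtain ⟨hx, hi⟩ := (S.inLat_iff (a * (b * b)) _).mpr ⟨v, rfl⟩
    obtain ⟨w, hw⟩ := (S.inLat_iff a _).mp ⟨Ideal.mul_le_left hx, hi⟩
    exact ⟨w, hw.symm⟩
  choose φ hφ using hex
  have huniq : ∀ v w, S.param (a * (b * b)) v = S.param a w → φ v = w := fun v w h =>
    S.param_injective a ((hφ v).symm.trans h)
  let φ' : ℤ × ℤ →+ ℤ × ℤ :=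
    { toFun := φ
      map_zero' := huniq _ _ (by simp)
      map_add' := fun v w => huniq _ _ (by rw [map_add, map_add, hφ, hφ]) }
  refine BQF.gauss_eq_of_map _ _ φ' (m := (absNorm (b : Ideal (𝓞 K)) : ℤ)) (fun v => ?_) ?_ u
  · have e := congrArg (Algebra.norm ℤ) (hφ v)
    rw [S.norm_param, S.norm_param] at e
    simp only [Submonoid.coe_mul, map_mul, Nat.cast_mul] at e
    refine mul_right_cancel₀ (b := (absNorm (a : Ideal (𝓞 K)) : ℤ))
      (by exact_mod_cast (absNorm_pos a).ne') ?_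
    show (S.form a).val (φ v) * _ = _
    linear_combination -e
  · rw [Int.cast_natCast, ZMod.isUnit_iff_coprime]
    exact hb

/-! ### Primes of degree one and inert primes -/

lemma isMaximal_of_prime_norm {l : ℕ} (hl : l.Prime) {P : Ideal (𝓞 K)} (hP : absNorm P = l) :
    P.IsMaximal := by
  refine Ideal.IsPrime.isMaximal (isPrime_of_irreducible_absNorm (hP ▸ hl)) fun h => ?_
  simp [h] at hP
  exact hl.ne_zero hP.symm

lemma absNorm_span_nat (l : ℕ) : absNorm (span {(l : 𝓞 K)}) = l ^ 2 := by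
  rw [absNorm_span_natCast, RingOfIntegers.rank, S.deg]

/-- The conjugate of a prime of degree one. -/
theorem exists_conj {l : ℕ} (hl : l.Prime) (hl2 : l ≠ 2) (hlD : ¬ l ∣ D) {P : Ideal (𝓞 K)}
    (hP : absNorm P = l) :
    ∃ Q : Ideal (𝓞 K), P * Q = span {(l : 𝓞 K)} ∧ absNorm Q = l ∧ P ≠ Q := by
  obtain ⟨Q, hQ⟩ : P ∣ span {(l : 𝓞 K)} := by
    rw [dvd_span_singleton, ← hP]; exact absNorm_mem P
  have hNQ : absNorm Q = l := by
    have := congrArg absNorm hQ
    rw [map_mul, S.absNorm_span_nat, hP, pow_two] at this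
    exact (Nat.eq_of_mul_eq_mul_left hl.pos this).symm
  refine ⟨Q, hQ.symm, hNQ, ?_⟩
  rintro rfl
  have hl' : Prime (l : ℤ) := Nat.prime_iff_prime_int.mp hl
  have hle : P ≤ span {(l : 𝓞 K)} := by
    intro x hx
    rw [mem_span_singleton, S.natCast_dvd_iff]
    have h2 : (l : 𝓞 K) ∣ x * x := by
      rw [← mem_span_singleton, hQ]; exact mul_mem_mul hx hx
    rw [← S.el_re_im x, S.el_mul, S.natCast_dvd_iff, re_el, im_el] at h2
    set m := S.re x
    set n := S.im x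
    obtain ⟨h2a, h2b⟩ := h2
    have hn : (l : ℤ) ∣ n → (l : ℤ) ∣ m ∧ (l : ℤ) ∣ n := fun h => by
      refine ⟨hl'.dvd_of_dvd_pow (n := 2) ?_, h⟩
      have := dvd_add h2a (h.mul_right (n * S.e))
      convert this using 1; ring
    rcases hl'.dvd_or_dvd (show (l : ℤ) ∣ n * (2 * m + n) by convert h2b using 1; ring) with h | h
    · exact hn h
    · refine hn ?_
      obtain ⟨k, hk⟩ := h
      have hm2 : (l : ℤ) ∣ (D : ℤ) * m ^ 2 := by
        obtain ⟨j, hj⟩ := h2a
        refine ⟨-j - S.e * (k * (n - 2 * m)), ?_⟩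
        linear_combination -hj + m ^ 2 * (-1 : ℤ) * 0 - S.e * (n - 2 * m) * hk - m ^ 2 * S.four_e
      have hm : (l : ℤ) ∣ m := hl'.dvd_of_dvd_pow
        ((hl'.dvd_or_dvd hm2).resolve_left (fun h => hlD (Int.natCast_dvd_natCast.mp h)))
      have := dvd_sub (dvd_mul_right (l : ℤ) k) (hm.mul_left 2)
      rw [← hk] at this
      simpa using this
  have := absNorm_dvd_absNorm_of_le hle
  rw [S.absNorm_span_nat, hP] at this
  exact absurd (Nat.le_of_dvd hl.pos this) (by have := hl.two_le; nlinarith)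

/-- The fundamental relation at a prime of degree one. -/
theorem cnt_split {l : ℕ} (hl : l.Prime) (a : oddIdeals K) (P Q : oddIdeals K)
    (hPQ : (P : Ideal (𝓞 K)) * Q = span {(l : 𝓞 K)}) (hP : absNorm (P : Ideal (𝓞 K)) = l)
    (hQ : absNorm (Q : Ideal (𝓞 K)) = l) (hne : P ≠ Q) (n : ℕ) :
    S.cnt a (n * l) + (if l ∣ n then S.cnt a (n / l) else 0) =
      S.cnt (a * P) n + S.cnt (a * Q) n := by
  have hPm := S.isMaximal_of_prime_norm hl hP
  have hQm := S.isMaximal_of_prime_norm hl hQ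
  have hlne : (l : 𝓞 K) ≠ 0 := by exact_mod_cast hl.ne_zero
  have hlodd : Odd l := hP ▸ (P.2 : Odd _)
  have ha0 : (a : Ideal (𝓞 K)) ≠ ⊥ := ne_bot_of_odd a.2
  have hnorm : ∀ R : oddIdeals K, absNorm (R : Ideal (𝓞 K)) = l →
      (absNorm ((a : Ideal (𝓞 K)) * (R : Ideal (𝓞 K))) : ℤ) = absNorm (a : Ideal (𝓞 K)) * l := by
    intro R hR; simp [hR]
  have hunion : S.cntSet (a * P) n ∪ S.cntSet (a * Q) n = S.cntSet a (n * l) := by
    ext x
    simp only [cntSet, Set.mem_union, Set.mem_ofPred_eq, InLat, hnorm P hP, hnorm Q hQ,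
      Submonoid.coe_mul]
    constructor
    · rintro (⟨⟨h1, h2⟩, h3⟩ | ⟨⟨h1, h2⟩, h3⟩) <;>
        exact ⟨⟨Ideal.mul_le_left h1, h2⟩, by rw [h3]; push_cast; ring⟩
    · rintro ⟨⟨h1, h2⟩, h3⟩
      obtain ⟨J, hJ⟩ := dvd_span_singleton.mpr h1
      have hJn : l ∣ absNorm J := by
        have e := congrArg (fun I => (absNorm I : ℤ)) hJ
        simp only [map_mul, Nat.cast_mul, S.absNorm_span, h3] at e
        push_cast at e
        have : (absNorm J : ℤ) = n * l := mul_left_cancel₀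
          (a := (absNorm (a : Ideal (𝓞 K)) : ℤ)) (by exact_mod_cast (absNorm_pos a).ne') (by linarith)
        exact Int.natCast_dvd_natCast.mp ⟨(n : ℤ), by rw [this]; ring⟩
      obtain ⟨R, hR, hlR, hRJ⟩ := exists_prime_dvd_of_dvd_absNorm hl hJn
      have hle : span {(l : 𝓞 K)} ≤ R := (span_singleton_le_iff_mem R).mpr hlR
      rw [← hPQ] at hle
      rcases hR.isPrime.mul_le.mp hle with h | h
      · left
        refine ⟨⟨?_, h2⟩, by rw [h3]; push_cast; ring⟩
        rw [← dvd_span_singleton, hJ, hPm.eq_of_le hR.ne_top h]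
        exact mul_dvd_mul_left _ hRJ
      · right
        refine ⟨⟨?_, h2⟩, by rw [h3]; push_cast; ring⟩
        rw [← dvd_span_singleton, hJ, hQm.eq_of_le hR.ne_top h]
        exact mul_dvd_mul_left _ hRJ
  have hinter : S.cntSet (a * P) n ∩ S.cntSet (a * Q) n =
      (fun y => (l : 𝓞 K) * y) ''
        {y | S.InLat a y ∧ Algebra.norm ℤ y * l = (n : ℤ) * absNorm (a : Ideal (𝓞 K))} := by
    have hnl : Algebra.norm ℤ (l : 𝓞 K) = (l : ℤ) ^ 2 := by
      rw [← S.absNorm_span, S.absNorm_span_nat]; push_cast; rfl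
    ext x
    simp only [cntSet, Set.mem_inter_iff, Set.mem_ofPred_eq, InLat, Set.mem_image, hnorm P hP,
      hnorm Q hQ, Submonoid.coe_mul]
    constructor
    · rintro ⟨⟨⟨hxP, hi⟩, hn⟩, ⟨hxQ, -⟩, -⟩
      obtain ⟨J, hJ⟩ := dvd_span_singleton.mpr (Ideal.mul_le_left hxP : x ∈ (a : Ideal (𝓞 K)))
      rw [← dvd_span_singleton, hJ, mul_dvd_mul_iff_left ha0] at hxP hxQ
      have hprod : span {(l : 𝓞 K)} ∣ J := by
        rw [← hPQ]
        have hc : IsCoprime (P : Ideal (𝓞 K)) (Q : Ideal (𝓞 K)) := by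
          rw [Ideal.isCoprime_iff_sup_eq]
          exact hPm.coprime_of_ne hQm (fun e => hne (Subtype.ext e))
        exact hc.mul_dvd hxP hxQ
      have hxm : x ∈ span {(l : 𝓞 K)} * (a : Ideal (𝓞 K)) := by
        rw [← dvd_span_singleton, hJ, mul_comm]
        exact mul_dvd_mul_left _ hprod
      obtain ⟨y, hy, rfl⟩ := mem_span_singleton_mul.mp hxm
      refine ⟨y, ⟨⟨hy, ?_⟩, ?_⟩, rfl⟩
      · have : (l : 𝓞 K) * y = S.el (l * S.re y) (l * S.im y) := by
          conv_lhs => rw [← S.el_re_im y]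
          simp [el]; ring
        rw [this, im_el] at hi
        exact (Int.prime_two.dvd_or_dvd hi).resolve_left fun h => by
          rw [Nat.odd_iff] at hlodd; omega
      · rw [map_mul, hnl] at hn
        refine mul_left_cancel₀ (a := (l : ℤ)) (by exact_mod_cast hl.ne_zero) ?_
        linear_combination hn
    · rintro ⟨y, ⟨⟨hy, hi⟩, hn⟩, rfl⟩
      have hm : ∀ R R' : oddIdeals K, (R : Ideal (𝓞 K)) * R' = span {(l : 𝓞 K)} →
          (l : 𝓞 K) * y ∈ (a : Ideal (𝓞 K)) * R := fun R R' h => by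
        rw [mul_comm (l : 𝓞 K)]
        have hl' : (l : 𝓞 K) ∈ (R : Ideal (𝓞 K)) * R' := by
          rw [h]; exact mem_span_singleton_self _
        exact mul_mem_mul hy (Ideal.mul_le_left hl')
      have him : 2 ∣ S.im ((l : 𝓞 K) * y) := by
        have : (l : 𝓞 K) * y = S.el (l * S.re y) (l * S.im y) := by
          conv_lhs => rw [← S.el_re_im y]
          simp [el]; ring
        rw [this, im_el]
        exact hi.mul_left _
      have hnn : Algebra.norm ℤ ((l : 𝓞 K) * y) = (n : ℤ) * (absNorm (a : Ideal (𝓞 K)) * l) := by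
        rw [map_mul, hnl]; linear_combination (l : ℤ) * hn
      refine ⟨⟨⟨?_, him⟩, hnn⟩, ⟨?_, him⟩, hnn⟩
      · rw [mul_comm (P : Ideal (𝓞 K))] at hPQ
        exact hm P Q (by rw [mul_comm]; exact hPQ)
      · exact hm Q P (by rw [mul_comm]; exact hPQ)
  have hC : {y | S.InLat a y ∧ Algebra.norm ℤ y * l = (n : ℤ) * absNorm (a : Ideal (𝓞 K))}.ncard =
      if l ∣ n then S.cnt a (n / l) else 0 := by
    split_ifs with hd
    · obtain ⟨k, rfl⟩ := hd
      rw [Nat.mul_div_cancel_left _ hl.pos, cnt]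
      congr 1
      ext y
      simp only [cntSet, Set.mem_ofPred_eq, and_congr_right_iff]
      intro _
      push_cast
      constructor <;> intro h
      · refine mul_right_cancel₀ (b := (l : ℤ)) (by exact_mod_cast hl.ne_zero) ?_
        linear_combination h
      · linear_combination (l : ℤ) * h
    · convert Set.ncard_empty (α := 𝓞 K) using 2
      ext y
      simp only [Set.mem_ofPred_eq, Set.mem_empty_iff_false, iff_false, not_and]
      intro hy hn
      obtain ⟨v, rfl⟩ := (S.inLat_iff a y).mp hy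
      rw [S.norm_param] at hn
      apply hd
      have : (n : ℤ) = (S.form a).val v * l := mul_right_cancel₀
        (b := (absNorm (a : Ideal (𝓞 K)) : ℤ)) (by exact_mod_cast (absNorm_pos a).ne')
        (by linear_combination -hn)
      exact Int.natCast_dvd_natCast.mp ⟨_, this.trans (mul_comm _ _)⟩
  rw [← hC, ← Set.ncard_image_of_injective _ (mul_right_injective₀ hlne), ← hinter, cnt, ← hunion,
    Set.ncard_union_add_ncard_inter _ _ (S.finite_cntSet _ n) (S.finite_cntSet _ n)]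
  rfl

/-- A prime with no prime of degree one above it generates the only prime above it. -/
lemma eq_span_of_inert {l : ℕ} (hl : l.Prime) (hno : ∀ P : Ideal (𝓞 K), absNorm P ≠ l)
    {P : Ideal (𝓞 K)} (hP : P.IsMaximal) (hlP : (l : 𝓞 K) ∈ P) : P = span {(l : 𝓞 K)} := by
  obtain ⟨R, hR⟩ : P ∣ span {(l : 𝓞 K)} := dvd_span_singleton.mpr hlP
  have h := congrArg absNorm hR
  rw [map_mul, S.absNorm_span_nat] at h
  obtain ⟨i, hi, he⟩ := (Nat.dvd_prime_pow hl).mp ⟨_, h⟩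
  interval_cases i
  · exact absurd (absNorm_eq_one_iff.mp (by simpa using he)) hP.ne_top
  · exact absurd (by simpa using he) (hno P)
  · rw [he] at h
    have : absNorm R = 1 := by
      have hl0 : l ^ 2 ≠ 0 := pow_ne_zero 2 hl.ne_zero
      exact mul_left_cancel₀ hl0 (by rw [← h, mul_one])
    rw [hR, absNorm_eq_one_iff.mp this, mul_top]

/-- The fundamental relation at an inert prime. -/
theorem cnt_inert {l : ℕ} (hl : l.Prime) (hl2 : l ≠ 2)
    (hno : ∀ P : Ideal (𝓞 K), absNorm P ≠ l) (a : oddIdeals K) (n : ℕ) :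
    S.cnt a (n * l) = if l ∣ n then S.cnt a (n / l) else 0 := by
  have hlne : (l : 𝓞 K) ≠ 0 := by exact_mod_cast hl.ne_zero
  have hlodd : Odd l := hl.odd_of_ne_two hl2
  have hnl : Algebra.norm ℤ (l : 𝓞 K) = (l : ℤ) ^ 2 := by
    rw [← S.absNorm_span, S.absNorm_span_nat]; push_cast; rfl
  have hmul : ∀ y : 𝓞 K, (l : 𝓞 K) * y = S.el (l * S.re y) (l * S.im y) := fun y => by
    conv_lhs => rw [← S.el_re_im y]
    simp [el]; ring
  have hset : S.cntSet a (n * l) = (fun y => (l : 𝓞 K) * y) ''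
      {y | S.InLat a y ∧ Algebra.norm ℤ y * l = (n : ℤ) * absNorm (a : Ideal (𝓞 K))} := by
    ext x
    simp only [cntSet, InLat, Set.mem_ofPred_eq, Set.mem_image]
    constructor
    · rintro ⟨⟨h1, h2⟩, h3⟩
      obtain ⟨J, hJ⟩ := dvd_span_singleton.mpr h1
      have hJn : l ∣ absNorm J := by
        have e := congrArg (fun I => (absNorm I : ℤ)) hJ
        simp only [map_mul, Nat.cast_mul, S.absNorm_span, h3] at e
        push_cast at e
        have : (absNorm J : ℤ) = n * l := mul_left_cancel₀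
          (a := (absNorm (a : Ideal (𝓞 K)) : ℤ)) (by exact_mod_cast (absNorm_pos a).ne') (by linarith)
        exact Int.natCast_dvd_natCast.mp ⟨(n : ℤ), by rw [this]; ring⟩
      obtain ⟨R, hR, hlR, hRJ⟩ := exists_prime_dvd_of_dvd_absNorm hl hJn
      rw [S.eq_span_of_inert hl hno hR hlR] at hRJ
      have hxm : x ∈ span {(l : 𝓞 K)} * (a : Ideal (𝓞 K)) := by
        rw [← dvd_span_singleton, hJ, mul_comm]
        exact mul_dvd_mul_left _ hRJ
      obtain ⟨y, hy, rfl⟩ := mem_span_singleton_mul.mp hxm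
      refine ⟨y, ⟨⟨hy, ?_⟩, ?_⟩, rfl⟩
      · rw [hmul, im_el] at h2
        exact (Int.prime_two.dvd_or_dvd h2).resolve_left fun h => by
          rw [Nat.odd_iff] at hlodd; omega
      · rw [map_mul, hnl] at h3
        push_cast at h3
        refine mul_left_cancel₀ (a := (l : ℤ)) (by exact_mod_cast hl.ne_zero) ?_
        linear_combination h3
    · rintro ⟨y, ⟨⟨hy, hi⟩, hn⟩, rfl⟩
      refine ⟨⟨Ideal.mul_mem_left _ _ hy, by rw [hmul, im_el]; exact hi.mul_left _⟩, ?_⟩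
      rw [map_mul, hnl]
      push_cast
      linear_combination (l : ℤ) * hn
  rw [cnt, hset, Set.ncard_image_of_injective _ (mul_right_injective₀ hlne)]
  split_ifs with hd
  · obtain ⟨k, rfl⟩ := hd
    rw [Nat.mul_div_cancel_left _ hl.pos, cnt]
    congr 1
    ext y
    simp only [cntSet, Set.mem_ofPred_eq, and_congr_right_iff]
    intro _
    push_cast
    constructor <;> intro h
    · refine mul_right_cancel₀ (b := (l : ℤ)) (by exact_mod_cast hl.ne_zero) ?_
      linear_combination h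
    · linear_combination (l : ℤ) * h
  · convert Set.ncard_empty (α := 𝓞 K) using 2
    ext y
    simp only [Set.mem_ofPred_eq, Set.mem_empty_iff_false, iff_false, not_and]
    intro hy hn
    obtain ⟨v, rfl⟩ := (S.inLat_iff a y).mp hy
    rw [S.norm_param] at hn
    apply hd
    have : (n : ℤ) = (S.form a).val v * l := mul_right_cancel₀
      (b := (absNorm (a : Ideal (𝓞 K)) : ℤ)) (by exact_mod_cast (absNorm_pos a).ne')
      (by linear_combination -hn)
    exact Int.natCast_dvd_natCast.mp ⟨_, this.trans (mul_comm _ _)⟩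

end IQ

end FA.Theta
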