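import Fermat.Agent.Theta.Classes

/-!
# Norms from a cyclic cubic extension miss some ray classes

`L/K` cyclic cubic, `K` imaginary quadratic with `2` inert, totally ramified at `2` and unramified
elsewhere.  The ambiguous classes of `L` number at most `h_K`, so the norms of the odd ideals of `L`
fill a proper subgroup of the ray class group modulo `2`.
-/

set_option autoImplicit false

noncomputable section

open Module NumberField Ideal
open scoped nonZeroDivisors Pointwise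

namespace FA.Theta

variable {K L : Type} [Field K] [Field L] [NumberField K] [NumberField L] [Algebra K L]

/-- Extension of ideals. -/
abbrev extI (a : Ideal (𝓞 K)) : Ideal (𝓞 L) := a.map (algebraMap (𝓞 K) (𝓞 L))

lemma extI_ne_bot {a : Ideal (𝓞 K)} (ha : a ≠ ⊥) : (extI a : Ideal (𝓞 L)) ≠ ⊥ := by
  rw [Ne, map_eq_bot_iff_of_injective (FaithfulSMul.algebraMap_injective _ _)]
  exact ha

/-- A representative of an ideal class. -/
irreducible_def repI {F : Type} [Field F] [NumberField F] (C : ClassGroup (𝓞 F)) :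
    (Ideal (𝓞 F))⁰ := (ClassGroup.mk0_surjective C).choose

lemma mk0_repI {F : Type} [Field F] [NumberField F] (C : ClassGroup (𝓞 F)) :
    ClassGroup.mk0 (repI C) = C := by
  rw [repI]; exact (ClassGroup.mk0_surjective C).choose_spec

/-- A map on ideals constant on classes descends to the class group. -/
def classLift {F : Type} [Field F] [NumberField F] {G : Type*} [Monoid G]
    (f : (Ideal (𝓞 F))⁰ →* G)
    (hf : ∀ a b, ClassGroup.mk0 a = ClassGroup.mk0 b → f a = f b) : ClassGroup (𝓞 F) →* G where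
  toFun C := f (repI C)
  map_one' := by rw [← map_one f]; exact hf _ _ (by rw [mk0_repI, map_one])
  map_mul' C C' := by
    rw [← map_mul f]
    exact hf _ _ (by rw [map_mul, mk0_repI, mk0_repI, mk0_repI])

lemma classLift_mk0 {F : Type} [Field F] [NumberField F] {G : Type*} [Monoid G]
    (f : (Ideal (𝓞 F))⁰ →* G)
    (hf : ∀ a b, ClassGroup.mk0 a = ClassGroup.mk0 b → f a = f b) (a : (Ideal (𝓞 F))⁰) :
    classLift f hf (ClassGroup.mk0 a) = f a :=
  hf _ _ (mk0_repI _)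

lemma gal_smul_algebraMap (g : L ≃ₐ[K] L) (k : 𝓞 K) :
    g • algebraMap (𝓞 K) (𝓞 L) k = algebraMap (𝓞 K) (𝓞 L) k :=
  RingOfIntegers.coe_injective (g.commutes (k : K))

instance smulCommClass_gal : SMulCommClass (L ≃ₐ[K] L) (𝓞 K) (𝓞 L) :=
  ⟨fun g k x => by rw [Algebra.smul_def, Algebra.smul_def, smul_mul', gal_smul_algebraMap]⟩

/-- Extension on nonzero ideals. -/
def extNZ : (Ideal (𝓞 K))⁰ →* (Ideal (𝓞 L))⁰ where
  toFun a := ⟨extI (a : Ideal (𝓞 K)), mem_nonZeroDivisors_of_ne_zero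
    (extI_ne_bot (mem_nonZeroDivisors_iff_ne_zero.mp a.2))⟩
  map_one' := Subtype.ext (by simp [extI, one_eq_top, Ideal.map_top])
  map_mul' a b := Subtype.ext (by simp [extI, Ideal.map_mul])

/-- The map on class groups induced by extension of ideals. -/
def extClass : ClassGroup (𝓞 K) →* ClassGroup (𝓞 L) :=
  classLift (ClassGroup.mk0.comp extNZ) fun a b h => by
    obtain ⟨x, y, hx, hy, e⟩ := ClassGroup.mk0_eq_mk0_iff.mp h
    refine ClassGroup.mk0_eq_mk0_iff.mpr ⟨algebraMap _ _ x, algebraMap _ _ y,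
      fun h0 => hx (FaithfulSMul.algebraMap_injective _ (𝓞 L) (h0.trans (map_zero _).symm)),
      fun h0 => hy (FaithfulSMul.algebraMap_injective _ (𝓞 L) (h0.trans (map_zero _).symm)), ?_⟩
    simpa [extNZ, extI, Ideal.map_mul, Ideal.map_span] using
      congrArg (Ideal.map (algebraMap (𝓞 K) (𝓞 L))) e

lemma extClass_mk0 (a : (Ideal (𝓞 K))⁰) (b : (Ideal (𝓞 L))⁰)
    (h : (b : Ideal (𝓞 L)) = extI (a : Ideal (𝓞 K))) :
    extClass (L := L) (ClassGroup.mk0 a) = ClassGroup.mk0 b := by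
  rw [extClass, classLift_mk0, show b = extNZ a from Subtype.ext h]
  rfl

lemma smul_ne_bot (σ : L ≃ₐ[K] L) {A : Ideal (𝓞 L)} (h : A ≠ ⊥) : σ • A ≠ ⊥ := by
  intro h0
  exact h (by simpa using congrArg (σ⁻¹ • ·) h0)

lemma smul_span_singleton (σ : L ≃ₐ[K] L) (x : 𝓞 L) :
    σ • (span {x} : Ideal (𝓞 L)) = span {σ • x} := by
  rw [Ideal.pointwise_smul_def, Ideal.map_span, Set.image_singleton]
  rfl

/-- The action on nonzero ideals. -/
def galNZ (σ : L ≃ₐ[K] L) : (Ideal (𝓞 L))⁰ →* (Ideal (𝓞 L))⁰ where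
  toFun A := ⟨σ • (A : Ideal (𝓞 L)),
    mem_nonZeroDivisors_of_ne_zero (smul_ne_bot σ (mem_nonZeroDivisors_iff_ne_zero.mp A.2))⟩
  map_one' := Subtype.ext (by
    simp only [OneMemClass.coe_one, one_eq_top]
    rw [Ideal.pointwise_smul_def, Ideal.map_top])
  map_mul' A B := Subtype.ext (by simp [smul_mul'])

/-- The automorphism `σ` on the class group. -/
def galClass (σ : L ≃ₐ[K] L) : ClassGroup (𝓞 L) →* ClassGroup (𝓞 L) :=
  classLift (ClassGroup.mk0.comp (galNZ σ)) fun a b h => by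
    obtain ⟨x, y, hx, hy, e⟩ := ClassGroup.mk0_eq_mk0_iff.mp h
    refine ClassGroup.mk0_eq_mk0_iff.mpr ⟨σ • x, σ • y,
      fun h0 => hx (smul_eq_zero_iff_eq σ |>.mp h0), fun h0 => hy (smul_eq_zero_iff_eq σ |>.mp h0), ?_⟩
    have := congrArg (σ • ·) e
    simpa [galNZ, smul_mul', smul_span_singleton] using this

lemma galClass_mk0 (σ : L ≃ₐ[K] L) (A A' : (Ideal (𝓞 L))⁰)
    (h : (A' : Ideal (𝓞 L)) = σ • (A : Ideal (𝓞 L))) :
    galClass σ (ClassGroup.mk0 A) = ClassGroup.mk0 A' := by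
  rw [galClass, classLift_mk0, show A' = galNZ σ A from Subtype.ext h]
  rfl

/-- The situation of the ambiguous class computation. -/
structure Cyclic3 {D : ℕ} (S : IQ K D) (L : Type) [Field L] [NumberField L] [Algebra K L] where
  galois : IsGalois K L
  deg : finrank K L = 3
  /-- a generator -/
  σ : L ≃ₐ[K] L
  gen : ∀ g : L ≃ₐ[K] L, g ∈ Subgroup.zpowers σ
  /-- the prime above `2` -/
  P2 : Ideal (𝓞 L)
  prime : P2.IsMaximal
  tot : extI (span {(2 : 𝓞 K)}) = P2 ^ 3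
  unr : ∀ Q : Ideal (𝓞 L), Q.IsMaximal → (2 : 𝓞 L) ∉ Q →
    ∀ τ : L ≃ₐ[K] L, (∀ x : 𝓞 L, τ • x - x ∈ Q) → τ = 1

/-- The ideal as a nonzero ideal. -/
def oddNZ : oddIdeals L →* (Ideal (𝓞 L))⁰ where
  toFun a := ⟨(a : Ideal (𝓞 L)), mem_nonZeroDivisors_of_ne_zero (ne_bot_of_odd a.2)⟩
  map_one' := rfl
  map_mul' _ _ := rfl

namespace Cyclic3

variable {D : ℕ} {S : IQ K D} (T : Cyclic3 S L)

include T

lemma rank_eq : finrank (𝓞 K) (𝓞 L) = 3 := by
  rw [← T.deg, IsFractionRing.finrank_eq (𝓞 K) K (𝓞 L) L]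

/-- Hilbert 90 for `L/K`. -/
lemma hilbert90 {x : L} (hx : Algebra.norm K x = 1) : ∃ β : L, β ≠ 0 ∧ β = T.σ β * x := by
  have := T.galois
  have : IsCyclic (L ≃ₐ[K] L) := ⟨T.σ, T.gen⟩
  obtain ⟨y, hy⟩ := groupCohomology.exists_div_of_norm_eq_one T.gen hx
  refine ⟨y, y.ne_zero, ?_⟩
  rw [← hy, mul_div_cancel₀]
  exact (map_ne_zero T.σ).mpr y.ne_zero

lemma P2_ne_bot : T.P2 ≠ ⊥ := by
  intro h
  have := T.tot
  rw [h, Ideal.bot_pow (by norm_num)] at this
  exact extI_ne_bot (by simp) this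

lemma smul_P2 (g : L ≃ₐ[K] L) : g • T.P2 = T.P2 := by
  have h : g • (extI (span {(2 : 𝓞 K)}) : Ideal (𝓞 L)) = extI (span {(2 : 𝓞 K)}) := by
    simp only [extI, Ideal.map_span, Set.image_singleton, map_ofNat, smul_span_singleton]
    congr 2
    exact map_ofNat (MulSemiringAction.toRingHom _ (𝓞 L) g) 2
  rw [T.tot, smul_pow'] at h
  exact pow_left_injective (by norm_num : (3 : ℕ) ≠ 0) h

lemma two_mem_P2 : (2 : 𝓞 L) ∈ T.P2 := by
  have h : (2 : 𝓞 L) ∈ extI (L := L) (span {(2 : 𝓞 K)}) := by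
    rw [← map_ofNat (algebraMap (𝓞 K) (𝓞 L)) 2]
    exact mem_map_of_mem _ (mem_span_singleton_self _)
  rw [T.tot] at h
  exact Ideal.pow_le_self (by norm_num) h

lemma finrank_Q : finrank ℚ L = 6 := by
  rw [← Module.finrank_mul_finrank ℚ K L, S.deg, T.deg]

lemma absNorm_P2 : absNorm T.P2 = 4 := by
  have h : absNorm (extI (span {(2 : 𝓞 K)}) : Ideal (𝓞 L)) = 4 ^ 3 := by
    rw [extI, Ideal.map_span, Set.image_singleton, map_ofNat,
      show (2 : 𝓞 L) = ((2 : ℕ) : 𝓞 L) by norm_num, absNorm_span_natCast, RingOfIntegers.rank,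
      T.finrank_Q]
    norm_num
  rw [T.tot, map_pow] at h
  exact Nat.pow_left_injective (by norm_num) h

/-- Every element is congruent modulo the prime over `2` to an element of `K`. -/
lemma exists_residue (z : 𝓞 L) : ∃ k : 𝓞 K, z - algebraMap (𝓞 K) (𝓞 L) k ∈ T.P2 := by
  classical
  have := T.prime
  have : Finite (𝓞 L ⧸ T.P2) := Ideal.absNorm_ne_zero_iff _ |>.mp (by rw [T.absNorm_P2]; norm_num)
  let : Fintype (𝓞 L ⧸ T.P2) := Fintype.ofFinite _
  let f : Fin 2 × Fin 2 → 𝓞 L ⧸ T.P2 := fun p =>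
    Ideal.Quotient.mk _ (algebraMap (𝓞 K) (𝓞 L) (S.el (p.1 : ℕ) (p.2 : ℕ)))
  have hinj : Function.Injective f := by
    intro p q h
    rw [Ideal.Quotient.eq, ← map_sub] at h
    have hunder : T.P2.under (𝓞 K) = span {(2 : 𝓞 K)} := by
      have hmax : (span {(2 : 𝓞 K)}).IsMaximal :=
        ((span_singleton_prime two_ne_zero).mpr S.prime_two).isMaximal (by simp)
      refine (hmax.eq_of_le (Ideal.IsPrime.ne_top inferInstance) ?_).symm
      rw [span_singleton_le_iff_mem, Ideal.mem_comap, map_ofNat]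
      exact T.two_mem_P2
    have h2 : S.el (p.1 : ℕ) (p.2 : ℕ) - S.el (q.1 : ℕ) (q.2 : ℕ) ∈ span {(2 : 𝓞 K)} := hunder ▸ h
    rw [mem_span_singleton, show S.el (p.1 : ℕ) (p.2 : ℕ) - S.el (q.1 : ℕ) (q.2 : ℕ) =
      S.el ((p.1 : ℕ) - (q.1 : ℕ)) ((p.2 : ℕ) - (q.2 : ℕ)) by simp [IQ.el]; ring,
      S.two_dvd_iff, S.re_el, S.im_el] at h2
    have hp1 := p.1.2; have hp2 := p.2.2; have hq1 := q.1.2; have hq2 := q.2.2
    exact Prod.ext (Fin.ext (by omega)) (Fin.ext (by omega))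
  have hcard : Fintype.card (Fin 2 × Fin 2) = Fintype.card (𝓞 L ⧸ T.P2) := by
    rw [← Nat.card_eq_fintype_card (α := 𝓞 L ⧸ T.P2), ← Submodule.cardQuot_apply, ← absNorm_apply,
      T.absNorm_P2]
    rfl
  obtain ⟨p, hp⟩ := ((Fintype.bijective_iff_injective_and_card f).mpr ⟨hinj, hcard⟩).2
    (Ideal.Quotient.mk _ z)
  exact ⟨_, Ideal.Quotient.eq.mp hp.symm⟩

lemma algebraMap_intNorm (z : 𝓞 L) :
    algebraMap (𝓞 K) (𝓞 L) (Algebra.intNorm (𝓞 K) (𝓞 L) z) = ∏ g : L ≃ₐ[K] L, g • z := by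
  have := T.galois
  apply RingOfIntegers.coe_injective
  rw [← IsScalarTower.algebraMap_apply, IsScalarTower.algebraMap_apply (𝓞 K) K L,
    Algebra.algebraMap_intNorm (K := K) (L := L), Algebra.norm_eq_prod_automorphisms, map_prod]
  rfl

lemma card_gal : Fintype.card (L ≃ₐ[K] L) = 3 := by
  have := T.galois
  rw [← Nat.card_eq_fintype_card, IsGalois.card_aut_eq_finrank, T.deg]

/-- Norms of elements prime to `2` are `1` modulo `2`. -/
lemma oneMod2_intNorm {z : 𝓞 L} (hz : z ∉ T.P2) : OneMod2 (Algebra.intNorm (𝓞 K) (𝓞 L) z) := by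
  classical
  have := T.prime
  obtain ⟨k, hk⟩ := T.exists_residue z
  set π := Ideal.Quotient.mk T.P2
  have hzk : π z = π (algebraMap (𝓞 K) (𝓞 L) k) := Ideal.Quotient.eq.mpr hk
  have hgz : ∀ g : L ≃ₐ[K] L, π (g • z) = π z := fun g => by
    rw [hzk]
    refine Ideal.Quotient.eq.mpr ?_
    have := smul_mem_pointwise_smul g _ _ hk
    rw [T.smul_P2, smul_sub, smul_algebraMap] at this
    exact this
  have hmax : (span {(2 : 𝓞 K)}).IsMaximal :=
    ((span_singleton_prime two_ne_zero).mpr S.prime_two).isMaximal (by simp)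
  have hunder : T.P2.under (𝓞 K) = span {(2 : 𝓞 K)} := by
    refine (hmax.eq_of_le (Ideal.IsPrime.ne_top inferInstance) ?_).symm
    rw [span_singleton_le_iff_mem, Ideal.mem_comap, map_ofNat]
    exact T.two_mem_P2
  have hk2 : ¬ (2 : 𝓞 K) ∣ k := fun h2 => hz (by
    have hkP : algebraMap (𝓞 K) (𝓞 L) k ∈ T.P2 :=
      Ideal.mem_comap.mp (hunder ▸ mem_span_singleton.mpr h2 : k ∈ T.P2.under (𝓞 K))
    simpa using add_mem hk hkP)
  rw [OneMod2, ← mem_span_singleton, ← hunder, Ideal.mem_comap, map_sub, map_one,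
    ← Ideal.Quotient.eq_zero_iff_mem, map_sub, map_one, T.algebraMap_intNorm, map_prod]
  rw [Finset.prod_congr rfl (fun g _ => (hgz g).trans hzk), Finset.prod_const, Finset.card_univ,
    T.card_gal, ← map_pow, ← map_pow, ← map_one π, ← map_one (algebraMap (𝓞 K) (𝓞 L)), ← map_sub,
    ← map_sub, Ideal.Quotient.eq_zero_iff_mem, ← Ideal.mem_comap (f := algebraMap (𝓞 K) (𝓞 L))]
  exact (hunder ▸ mem_span_singleton.mpr (S.cube_mod_two k hk2) : k ^ 3 - 1 ∈ T.P2.under (𝓞 K))

/-- The odd ideals of `L` are those prime to the prime over `2`. -/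
lemma odd_iff (A : Ideal (𝓞 L)) : A ∈ oddIdeals L ↔ ¬ A ≤ T.P2 := by
  have := T.prime
  rw [mem_oddIdeals, Nat.odd_iff]
  constructor
  · intro h hle
    have := absNorm_dvd_absNorm_of_le hle
    rw [T.absNorm_P2] at this
    omega
  · intro h
    by_contra hodd
    obtain ⟨Q, hQ, h2, hdvd⟩ := exists_prime_dvd_of_dvd_absNorm Nat.prime_two
      (I := A) (by omega)
    have hle : T.P2 ^ 3 ≤ Q := by
      rw [← T.tot, extI, Ideal.map_le_iff_le_comap, span_singleton_le_iff_mem, Ideal.mem_comap,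
        map_ofNat]
      exact_mod_cast h2
    have := hQ.isPrime
    rw [← T.prime.eq_of_le hQ.ne_top ((Ideal.IsPrime.pow_le_iff (by norm_num)).mp hle)] at hdvd
    exact h (Ideal.le_of_dvd hdvd)

lemma relNorm_odd {A : Ideal (𝓞 L)} (hA : A ∈ oddIdeals L) :
    relNorm (𝓞 K) A ∈ oddIdeals K := by
  rw [mem_oddIdeals, absNorm_relNorm]
  exact hA

/-- The ray class of the norm of an odd ideal. -/
def normCls : oddIdeals L →* Ray K :=
  S.cls.comp
    { toFun := fun A => ⟨relNorm (𝓞 K) (A : Ideal (𝓞 L)), T.relNorm_odd A.2⟩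
      map_one' := Subtype.ext (by simp)
      map_mul' := fun A B => Subtype.ext (by simp) }

lemma normCls_eq_one {A : oddIdeals L} {z : 𝓞 L} (h : (A : Ideal (𝓞 L)) = span {z}) :
    T.normCls A = 1 := by
  refine S.cls_eq_one_of_oneMod2 (x := Algebra.intNorm (𝓞 K) (𝓞 L) z) ?_ (T.oneMod2_intNorm ?_)
  · simp [h, relNorm_singleton]
  · intro hz
    exact (T.odd_iff _).mp A.2 (h ▸ (span_singleton_le_iff_mem _).mpr hz)

lemma normCls_congr {A B : oddIdeals L}
    (h : ClassGroup.mk0 (oddNZ A) = ClassGroup.mk0 (oddNZ B)) : T.normCls A = T.normCls B := by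
  set m := Fintype.card (ClassGroup (𝓞 L))
  have hm : 0 < m := Fintype.card_pos
  have hprin : ∀ C : oddIdeals L, ClassGroup.mk0 (oddNZ C) = 1 → T.normCls C = 1 := fun C hC => by
    obtain ⟨z, hz⟩ := ((ClassGroup.mk0_eq_one_iff (oddNZ C).2).mp hC).principal
    exact T.normCls_eq_one (z := z) (by rw [← Ideal.submodule_span_eq]; exact hz)
  have h1 : T.normCls (B ^ m) = 1 := hprin _ (by rw [map_pow, map_pow, pow_card_eq_one])
  have h2 : T.normCls (A * B ^ (m - 1)) = 1 := hprin _ (by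
    rw [map_mul, map_mul, h, ← map_mul, ← map_mul, ← pow_succ', show m - 1 + 1 = m by omega,
      map_pow, map_pow, pow_card_eq_one])
  rw [map_mul, map_pow] at h2
  rw [map_pow, show m = m - 1 + 1 by omega, pow_succ'] at h1
  exact mul_right_cancel (h2.trans h1.symm)

/-- A unit of norm one which is not of the form `u / σ u`. -/
theorem exists_unit : ∃ ε : (𝓞 L)ˣ, Algebra.intNorm (𝓞 K) (𝓞 L) (ε : 𝓞 L) = 1 ∧
    ∀ u : (𝓞 L)ˣ, T.σ • (u : 𝓞 L) * ε ≠ u := by
  classical
  by_contra hcon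
  push Not at hcon
  have hstep : ∀ x : (𝓞 L)ˣ, ∃ y : (𝓞 L)ˣ,
      (x : 𝓞 L) * (T.σ • (y : 𝓞 L)) = y ∨ -(x : 𝓞 L) * (T.σ • (y : 𝓞 L)) = y := by
    intro x
    have hu : IsUnit (Algebra.intNorm (𝓞 K) (𝓞 L) (x : 𝓞 L)) := x.isUnit.map _
    rcases S.units _ hu with h | h
    · obtain ⟨u, hu⟩ := hcon x h
      exact ⟨u, Or.inl (by rw [mul_comm]; exact hu)⟩
    · have hneg : Algebra.intNorm (𝓞 K) (𝓞 L) ((-x : (𝓞 L)ˣ) : 𝓞 L) = 1 := by
        refine FaithfulSMul.algebraMap_injective (𝓞 K) (𝓞 L) ?_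
        have h' := congrArg (algebraMap (𝓞 K) (𝓞 L)) h
        rw [T.algebraMap_intNorm] at h' ⊢
        simp only [Units.val_neg, smul_neg, Finset.prod_neg, Finset.card_univ, T.card_gal, h']
        norm_num
      obtain ⟨u, hu⟩ := hcon (-x) hneg
      exact ⟨u, Or.inr (by rw [mul_comm, ← Units.val_neg]; exact hu)⟩
  -- every unit is, up to sign, a cube
  have hcube : ∀ x : (𝓞 L)ˣ, ∃ w : (𝓞 L)ˣ, x = w ^ 3 ∨ x = -w ^ 3 := by
    intro x
    obtain ⟨y, hy⟩ := hstep x
    obtain ⟨z, hz⟩ := hstep y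
    let s : (𝓞 L)ˣ →* (𝓞 L)ˣ := Units.map (MulSemiringAction.toRingHom _ (𝓞 L) T.σ).toMonoidHom
    have hs : ∀ v : (𝓞 L)ˣ, ((s v : (𝓞 L)ˣ) : 𝓞 L) = T.σ • (v : 𝓞 L) := fun v => rfl
    have hs3 : ∀ v : 𝓞 L, T.σ • T.σ • T.σ • v = v := fun v => by
      rw [smul_smul, smul_smul, show T.σ * T.σ * T.σ = 1 from by
        have := pow_card_eq_one (x := T.σ)
        rwa [T.card_gal, pow_succ, pow_succ, pow_one] at this, one_smul]
    set N : 𝓞 L := (z : 𝓞 L) * (T.σ • (z : 𝓞 L)) * (T.σ • T.σ • (z : 𝓞 L)) with hN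
    have hNunit : N = 1 ∨ N = -1 := by
      have hprod : N = algebraMap (𝓞 K) (𝓞 L) (Algebra.intNorm (𝓞 K) (𝓞 L) (z : 𝓞 L)) := by
        rw [T.algebraMap_intNorm]
        have hne : T.σ ≠ 1 := by
          intro h1
          have hsub : ∀ g : L ≃ₐ[K] L, g = 1 := fun g => by
            have := T.gen g
            rw [h1, Subgroup.zpowers_one_eq_bot, Subgroup.mem_bot] at this
            exact this
          have : Fintype.card (L ≃ₐ[K] L) ≤ 1 := Fintype.card_le_one_iff.mpr fun a b => by rw [hsub a, hsub b]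
          rw [T.card_gal] at this
          omega
        have hord : orderOf T.σ = 3 := by
          have : Fact (Nat.Prime 3) := ⟨Nat.prime_three⟩
          exact orderOf_eq_prime (by rw [← T.card_gal]; exact pow_card_eq_one) hne
        have huniv : (Finset.univ : Finset (L ≃ₐ[K] L)) = (Finset.range 3).image (T.σ ^ ·) := by
          refine (Finset.eq_univ_of_card _ ?_).symm
          rw [Finset.card_image_of_injOn, Finset.card_range, T.card_gal]
          intro i hi j hj hij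
          exact pow_injOn_Iio_orderOf (by simpa [hord] using hi) (by simpa [hord] using hj) hij
        rw [huniv, Finset.prod_image (fun i hi j hj hij =>
          pow_injOn_Iio_orderOf (by simpa [hord] using hi) (by simpa [hord] using hj) hij)]
        simp [Finset.prod_range_succ, hN, pow_succ, mul_smul]
      rcases S.units _ (z.isUnit.map _ : IsUnit (Algebra.intNorm (𝓞 K) (𝓞 L) (z : 𝓞 L))) with h | h <;>
        rw [hprod, h] <;> simp
    -- `x (σσz)^? …` as a cube
    have key : (x : 𝓞 L) * (T.σ • T.σ • (z : 𝓞 L)) ^ 0 * (T.σ • (z : 𝓞 L)) ^ 3 = N ∨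
        (x : 𝓞 L) * (T.σ • (z : 𝓞 L)) ^ 3 = -N := by
      have e : ∀ e₁ e₂ : 𝓞 L, e₁ * e₁ = 1 → e₂ * e₂ = 1 → (∀ g : L ≃ₐ[K] L, g • e₂ = e₂) →
          e₁ * x * (T.σ • (y : 𝓞 L)) = y → e₂ * y * (T.σ • (z : 𝓞 L)) = z →
          (x : 𝓞 L) * (T.σ • (z : 𝓞 L)) ^ 3 = e₁ * N := by
        intro e₁ e₂ he₁ he₂ hfix h1 h2
        have h2' := congrArg (T.σ • ·) h2
        simp only [smul_mul', hfix] at h2'
        have hne : (T.σ • (y : 𝓞 L)) ≠ 0 := (hs y ▸ (s y).isUnit).ne_zero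
        refine mul_right_cancel₀ hne ?_
        calc (x : 𝓞 L) * (T.σ • (z : 𝓞 L)) ^ 3 * (T.σ • (y : 𝓞 L))
            = e₁ * (e₁ * x * (T.σ • (y : 𝓞 L))) * (T.σ • (z : 𝓞 L)) ^ 3 := by
              linear_combination (-((x : 𝓞 L) * (T.σ • (z : 𝓞 L)) ^ 3 * (T.σ • (y : 𝓞 L)))) * he₁
          _ = e₁ * e₂ * (e₂ * y * (T.σ • (z : 𝓞 L))) * (T.σ • (z : 𝓞 L)) ^ 2 := by
              rw [h1]
              linear_combination (-(e₁ * (y : 𝓞 L) * (T.σ • (z : 𝓞 L)) ^ 3)) * he₂
          _ = e₁ * N * (T.σ • (y : 𝓞 L)) := by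
              rw [h2, hN]
              linear_combination
                (-(e₁ * (z : 𝓞 L) * (T.σ • (z : 𝓞 L)) * e₂)) * h2' +
                (e₁ * (z : 𝓞 L) * (T.σ • (z : 𝓞 L)) * (T.σ • T.σ • (z : 𝓞 L)) * (T.σ • (y : 𝓞 L))) * he₂
      rcases hy with hy | hy <;> rcases hz with hz | hz
      · left; simpa using e 1 1 (by simp) (by simp) (by simp) (by simpa using hy) (by simpa using hz)
      · left; simpa using e 1 (-1) (by simp) (by simp) (by simp) (by simpa using hy) (by simpa using hz)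
      · right; simpa using e (-1) 1 (by simp) (by simp) (by simp) (by simpa using hy) (by simpa using hz)
      · right; simpa using e (-1) (-1) (by simp) (by simp) (by simp) (by simpa using hy) (by simpa using hz)
    simp only [pow_zero, mul_one] at key
    refine ⟨(s z)⁻¹, ?_⟩
    have hsz : ((s z : (𝓞 L)ˣ) : 𝓞 L) ^ 3 * ((((s z)⁻¹ : (𝓞 L)ˣ) : 𝓞 L)) ^ 3 = 1 := by
      rw [← mul_pow, Units.mul_inv, one_pow]
    rw [← hs] at key
    have : (x : 𝓞 L) = ((((s z)⁻¹ : (𝓞 L)ˣ) : 𝓞 L)) ^ 3 ∨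
        (x : 𝓞 L) = -((((s z)⁻¹ : (𝓞 L)ˣ) : 𝓞 L)) ^ 3 := by
      rcases key with h | h <;> rcases hNunit with hn | hn <;> rw [hn] at h
      · left; linear_combination ((((s z)⁻¹ : (𝓞 L)ˣ) : 𝓞 L)) ^ 3 * h - (x : 𝓞 L) * hsz
      · right; linear_combination ((((s z)⁻¹ : (𝓞 L)ˣ) : 𝓞 L)) ^ 3 * h - (x : 𝓞 L) * hsz
      · right; linear_combination ((((s z)⁻¹ : (𝓞 L)ˣ) : 𝓞 L)) ^ 3 * h - (x : 𝓞 L) * hsz
      · left; linear_combination ((((s z)⁻¹ : (𝓞 L)ˣ) : 𝓞 L)) ^ 3 * h - (x : 𝓞 L) * hsz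
    rcases this with h | h
    · left; exact Units.ext (by simpa using h)
    · right; exact Units.ext (by simpa using h)
  -- contradiction with Dirichlet's theorem
  have hrank : 0 < Units.rank L := by
    have h := InfinitePlace.card_add_two_mul_card_eq_rank L
    rw [T.finrank_Q] at h
    have h2 := InfinitePlace.card_eq_nrRealPlaces_add_nrComplexPlaces L
    simp only [Units.rank]
    omega
  let i : Fin (Units.rank L) := ⟨0, hrank⟩
  obtain ⟨w, hw⟩ := hcube (Units.fundSystem L i)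
  obtain ⟨⟨ζ, f⟩, hwf, -⟩ := Units.exist_unique_eq_mul_prod L w
  have hneg : (-1 : (𝓞 L)ˣ) ∈ Units.torsion L := by
    rw [Units.torsion, CommGroup.mem_torsion]
    exact isOfFinOrder_iff_pow_eq_one.mpr ⟨2, two_pos, by simp⟩
  obtain ⟨η, hη, he⟩ : ∃ η ∈ Units.torsion L,
      Units.fundSystem L i = η * ∏ j, Units.fundSystem L j ^ (3 * f j) := by
    have hprod : (∏ j, Units.fundSystem L j ^ f j) ^ 3 = ∏ j, Units.fundSystem L j ^ (3 * f j) := by
      rw [← Finset.prod_pow]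
      refine Finset.prod_congr rfl fun j _ => ?_
      rw [← zpow_natCast, ← zpow_mul, mul_comm]
      rfl
    rcases hw with h | h
    · exact ⟨(ζ : (𝓞 L)ˣ) ^ 3, Subgroup.pow_mem _ ζ.2 3, by rw [h, hwf, mul_pow, hprod]⟩
    · exact ⟨-1 * (ζ : (𝓞 L)ˣ) ^ 3, Subgroup.mul_mem _ hneg (Subgroup.pow_mem _ ζ.2 3), by
        rw [h, ← neg_one_mul (w ^ 3), hwf, mul_pow, hprod, mul_assoc]⟩
  have huniq := (Units.exist_unique_eq_mul_prod L (Units.fundSystem L i)).unique
    (y₁ := (⟨η, hη⟩, fun j => 3 * f j)) (y₂ := (1, Pi.single i 1)) he (by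
      simp [Pi.single_apply, Finset.prod_eq_single i])
  have := congrFun (congrArg Prod.snd huniq) i
  simp at this
  omega

/-- An ideal fixed by the group is, up to the prime over `2`, extended from `K`. -/
theorem fixed_ideal (A : Ideal (𝓞 L)) (hA : A ≠ ⊥) (hfix : T.σ • A = A) :
    ∃ (i : ℕ) (a : Ideal (𝓞 K)), i < 3 ∧ a ≠ ⊥ ∧ A = T.P2 ^ i * extI a := by
  classical
  have := T.galois
  have := T.prime
  induction h : absNorm A using Nat.strong_induction_on generalizing A with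
  | _ n ih =>
    have hfixall : ∀ g : L ≃ₐ[K] L, g • A = A := fun g =>
      (Subgroup.zpowers_le.mpr (MulAction.mem_stabilizer_iff.mpr hfix) (T.gen g) :
        g ∈ MulAction.stabilizer (L ≃ₐ[K] L) A)
    have step : ∀ p : Ideal (𝓞 K), p ≠ ⊥ → p ≠ ⊤ → (extI p : Ideal (𝓞 L)) ∣ A →
        ∃ (i : ℕ) (a : Ideal (𝓞 K)), i < 3 ∧ a ≠ ⊥ ∧ A = T.P2 ^ i * extI a := by
      rintro p hp hp1 ⟨A', rfl⟩
      have hA' : A' ≠ ⊥ := fun h0 => hA (by simp [h0])
      have hpfix : ∀ g : L ≃ₐ[K] L, g • (extI p : Ideal (𝓞 L)) = extI p := fun g => by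
        rw [extI, Ideal.pointwise_smul_def, Ideal.map_map]
        congr 1
        ext x
        simp
      have hfix' : T.σ • A' = A' := by
        rw [smul_mul', hpfix] at hfix
        exact mul_left_cancel₀ (extI_ne_bot hp) hfix
      obtain ⟨i, a, hi, ha, he⟩ := ih (absNorm A') (by
        rw [← h, map_mul]
        refine lt_mul_of_one_lt_left (Nat.pos_of_ne_zero (absNorm_eq_zero_iff.not.mpr hA')) ?_
        rw [Nat.one_lt_iff_ne_zero_and_ne_one]
        refine ⟨absNorm_eq_zero_iff.not.mpr (extI_ne_bot hp), fun h1 => hp1 ?_⟩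
        have h2 := congrArg (relNorm (𝓞 K)) (absNorm_eq_one_iff.mp h1)
        rw [relNorm_algebraMap, relNorm_top] at h2
        exact by
          rw [T.rank_eq, ← one_eq_top] at h2
          exact Ideal.isUnit_iff.mp (IsUnit.of_pow_eq_one h2 (by norm_num))) A' hA' hfix' rfl
      exact ⟨i, p * a, hi, mul_ne_zero hp ha, by rw [he]; simp only [extI, Ideal.map_mul]; ring⟩
    by_cases hA1 : A = ⊤
    · exact ⟨0, ⊤, by norm_num, top_ne_bot, by simp [hA1, extI, Ideal.map_top]⟩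
    by_cases h3 : T.P2 ^ 3 ∣ A
    · exact step _ (by simp) (((span_singleton_prime two_ne_zero).mpr S.prime_two).ne_top)
        (T.tot.symm ▸ h3)
    by_cases hodd : ∃ Q : Ideal (𝓞 L), Q.IsMaximal ∧ Q ∣ A ∧ (2 : 𝓞 L) ∉ Q
    · obtain ⟨Q, hQ, hQA, hQ2⟩ := hodd
      let p := Q.under (𝓞 K)
      have hpm : p.IsMaximal := Ideal.IsMaximal.under (𝓞 K) Q
      have hp : p ≠ ⊥ := fun hp0 => by
        have : Q = ⊥ := eq_bot_of_comap_eq_bot hp0
        exact (Ideal.bot_lt_of_maximal Q (RingOfIntegers.not_isField L)).ne this.symm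
      refine step p hp hpm.ne_top ?_
      rw [extI, map_algebraMap_eq_finsetProd_pow hp]
      have he : ∀ P ∈ (p.primesOver (𝓞 L)).toFinset, P ^ P.ramificationIdx (𝓞 K) = P := by
        intro P hP
        rw [Set.mem_toFinset] at hP
        have : P.IsPrime := hP.1
        have : P.LiesOver p := hP.2
        have hinert : P.inertia (L ≃ₐ[K] L) = ⊥ := by
          rw [eq_bot_iff]
          intro τ hτ
          rw [Subgroup.mem_bot]
          refine T.unr P (IsMaximal.of_liesOver_isMaximal P p) (fun h2 => hQ2 ?_) τ fun x => hτ x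
          have h2' : (2 : 𝓞 K) ∈ p := by
            rw [hP.2.over, Ideal.mem_comap, map_ofNat]; exact h2
          rw [← map_ofNat (algebraMap (𝓞 K) (𝓞 L)) 2]
          exact Ideal.mem_comap.mp h2'
        have h1 := card_inertia_eq_ramificationIdxIn (G := L ≃ₐ[K] L) p P
        rw [hinert, Subgroup.card_bot, ramificationIdxIn_eq_ramificationIdx p P (L ≃ₐ[K] L)] at h1
        rw [← h1, pow_one]
      rw [Finset.prod_congr rfl he]
      refine Finset.prod_primes_dvd _ (fun P hP => ?_) fun P hP => ?_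
      · rw [Set.mem_toFinset] at hP
        exact prime_of_isPrime (Ideal.ne_bot_of_mem_primesOver hp hP) hP.1
      · rw [Set.mem_toFinset] at hP
        have : P.IsPrime := hP.1
        have : P.LiesOver p := hP.2
        obtain ⟨g, rfl⟩ := Ideal.exists_smul_eq_of_isGaloisGroup p Q P (L ≃ₐ[K] L)
        obtain ⟨R, hR⟩ := hQA
        exact ⟨g • R, by rw [← smul_mul', ← hR, hfixall]⟩
    · push Not at hodd
      have hall : ∀ Q : Ideal (𝓞 L), Q.IsMaximal → Q ∣ A → Q = T.P2 := by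
        intro Q hQ hd
        have hle : T.P2 ^ 3 ≤ Q := by
          rw [← T.tot, extI, Ideal.map_le_iff_le_comap, span_singleton_le_iff_mem, Ideal.mem_comap,
            map_ofNat]
          exact hodd Q hQ hd
        have := hQ.isPrime
        exact (T.prime.eq_of_le hQ.ne_top ((Ideal.IsPrime.pow_le_iff (by norm_num)).mp hle)).symm
      have hassoc : ∃ i, A = T.P2 ^ i := by
        refine ⟨(UniqueFactorizationMonoid.normalizedFactors A).card, ?_⟩
        conv_lhs => rw [← _root_.prod_normalizedFactors_eq_self hA]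
        rw [← Multiset.prod_replicate]
        congr 1
        refine Multiset.eq_replicate_card.mpr fun Q hQ => ?_
        have hP := UniqueFactorizationMonoid.prime_of_normalized_factor Q hQ
        exact hall Q ((isPrime_of_prime hP).isMaximal hP.ne_zero)
          (UniqueFactorizationMonoid.dvd_of_mem_normalizedFactors hQ)
      obtain ⟨i, hi⟩ := hassoc
      refine ⟨i, ⊤, ?_, top_ne_bot, by rw [hi, extI, Ideal.map_top, mul_top]⟩
      by_contra hlt
      exact h3 (hi ▸ pow_dvd_pow _ (by omega))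

/-- At most `h_K` classes of `L` are fixed. -/
theorem card_fixed_le :
    Nat.card {C : ClassGroup (𝓞 L) // galClass T.σ C = C} ≤ Nat.card (ClassGroup (𝓞 K)) := by
  classical
  have := T.galois
  let e := extClass (K := K) (L := L)
  let p : ClassGroup (𝓞 L) := ClassGroup.mk0 ⟨T.P2, mem_nonZeroDivisors_of_ne_zero T.P2_ne_bot⟩
  have hclass : ∀ (A : (Ideal (𝓞 L))⁰) (i : ℕ) (a : Ideal (𝓞 K)) (ha : a ≠ ⊥),
      (A : Ideal (𝓞 L)) = T.P2 ^ i * extI a →
      ClassGroup.mk0 A = p ^ i * e (ClassGroup.mk0 ⟨a, mem_nonZeroDivisors_of_ne_zero ha⟩) := by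
    intro A i a ha h
    rw [extClass_mk0 ⟨a, mem_nonZeroDivisors_of_ne_zero ha⟩ ⟨extI a, mem_nonZeroDivisors_of_ne_zero (extI_ne_bot ha)⟩ rfl, ← map_pow,
      ← map_mul]
    congr 1
    exact Subtype.ext h
  -- every fixed class contains a fixed ideal
  have hfix : ∀ C : ClassGroup (𝓞 L), galClass T.σ C = C →
      ∃ (i : ℕ) (c : ClassGroup (𝓞 K)), i < 3 ∧ C = p ^ i * e c := by
    intro C hC
    obtain ⟨A, rfl⟩ := ClassGroup.mk0_surjective C
    have hA0 : (A : Ideal (𝓞 L)) ≠ ⊥ := mem_nonZeroDivisors_iff_ne_zero.mp A.2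
    let A' : (Ideal (𝓞 L))⁰ := ⟨T.σ • (A : Ideal (𝓞 L)),
      mem_nonZeroDivisors_of_ne_zero (smul_ne_bot _ hA0)⟩
    rw [galClass_mk0 _ A A' rfl] at hC
    obtain ⟨x, y, hx, hy, heq⟩ := ClassGroup.mk0_eq_mk0_iff.mp hC
    have heq' : span {x} * (T.σ • (A : Ideal (𝓞 L))) = span {y} * (A : Ideal (𝓞 L)) := heq
    have hN : span {Algebra.intNorm (𝓞 K) (𝓞 L) x} = span {Algebra.intNorm (𝓞 K) (𝓞 L) y} := by
      have h := congrArg (relNorm (𝓞 K)) heq'
      rw [map_mul, map_mul, relNorm_singleton, relNorm_singleton, relNorm_smul] at h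
      exact mul_right_cancel₀ (relNorm_eq_bot_iff.not.mpr hA0) h
    obtain ⟨u, hu⟩ := Ideal.span_singleton_eq_span_singleton.mp hN
    obtain ⟨y', hy', hNy, hy'eq⟩ : ∃ y' : 𝓞 L, y' ≠ 0 ∧
        Algebra.intNorm (𝓞 K) (𝓞 L) y' = Algebra.intNorm (𝓞 K) (𝓞 L) x ∧ span {y'} = span {y} := by
      rcases S.units u u.isUnit with h | h
      · exact ⟨y, hy, by rw [← hu, h, mul_one], rfl⟩
      · refine ⟨-y, neg_ne_zero.mpr hy, ?_, Ideal.span_singleton_neg y⟩
        refine FaithfulSMul.algebraMap_injective (𝓞 K) (𝓞 L) ?_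
        have h1 := congrArg (algebraMap (𝓞 K) (𝓞 L)) hu
        rw [h, mul_neg, mul_one, map_neg, T.algebraMap_intNorm, T.algebraMap_intNorm] at h1
        rw [T.algebraMap_intNorm, T.algebraMap_intNorm]
        simp only [smul_neg, Finset.prod_neg, Finset.card_univ, T.card_gal, ← h1]
        ring
    have hxL : (x : L) ≠ 0 := RingOfIntegers.coe_ne_zero_iff.mpr hx
    have hnorm : Algebra.norm K ((y' : L) / (x : L)) = 1 := by
      have := congrArg (algebraMap (𝓞 K) K) hNy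
      rw [Algebra.algebraMap_intNorm (K := K) (L := L),
        Algebra.algebraMap_intNorm (K := K) (L := L)] at this
      rw [div_eq_mul_inv, map_mul, Algebra.norm_inv, this, mul_inv_cancel₀]
      exact Algebra.norm_ne_zero_iff.mpr hxL
    obtain ⟨β, hβ0, hβ'⟩ := T.hilbert90 hnorm
    -- `β / σ β = y' / x`
    obtain ⟨γ, hγ0, hγ⟩ : ∃ γ : 𝓞 L, γ ≠ 0 ∧ γ * x = T.σ • γ * y' := by
      obtain ⟨γ, n, hn, hβn⟩ : ∃ (γ : 𝓞 L) (n : ℤ), n ≠ 0 ∧ (γ : L) = (n : L) * β := by
        obtain ⟨z, n, hn, hz⟩ := IsAlgebraic.exists_integral_multiple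
          ((IsFractionRing.isAlgebraic_iff ℤ ℚ L).mpr (Algebra.IsAlgebraic.isAlgebraic (R := ℚ) β)) |> fun ⟨n, hn, hz⟩ => (⟨⟨_, hz⟩, n, hn, rfl⟩ :
              ∃ (z : 𝓞 L) (n : ℤ), n ≠ 0 ∧ (z : L) = n • β)
        exact ⟨z, n, hn, by rw [hz, zsmul_eq_mul]⟩
      refine ⟨γ, fun h0 => ?_, RingOfIntegers.coe_injective ?_⟩
      · rw [h0] at hβn
        simp [hn, hβ0] at hβn
      · show (γ : L) * (x : L) = T.σ (γ : L) * (y' : L)
        rw [hβn, map_mul, map_intCast]
        have h := hβ'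
        field_simp at h
        linear_combination (n : L) * h
    have hfixed : T.σ • (span {γ} * (A : Ideal (𝓞 L))) = span {γ} * (A : Ideal (𝓞 L)) := by
      refine mul_left_cancel₀ (show span {x} ≠ (⊥ : Ideal (𝓞 L)) by simp [hx]) ?_
      rw [smul_mul', mul_left_comm, heq', ← hy'eq, ← mul_assoc (span {x}), Ideal.span_singleton_mul_span_singleton,
        ← mul_assoc, smul_span_singleton, Ideal.span_singleton_mul_span_singleton, mul_comm x γ, hγ]
    obtain ⟨i, a, hi, ha, hia⟩ := T.fixed_ideal _ (mul_ne_zero (by simp [hγ0]) hA0) hfixed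
    refine ⟨i, ClassGroup.mk0 ⟨a, mem_nonZeroDivisors_of_ne_zero ha⟩, hi, ?_⟩
    let G : (Ideal (𝓞 L))⁰ := ⟨span {γ}, mem_nonZeroDivisors_of_ne_zero (by simp [hγ0])⟩
    have hG : ClassGroup.mk0 G = 1 := (ClassGroup.mk0_eq_one_iff G.2).mpr ⟨γ, rfl⟩
    rw [← hclass (G * A) i a ha hia, map_mul, hG, one_mul]
  -- an ambiguous principal ideal not coming from `K`
  obtain ⟨ε, hεN, hε⟩ := T.exists_unit
  have hεL : Algebra.norm K ((ε : 𝓞 L) : L) = 1 := by
    have := congrArg (algebraMap (𝓞 K) K) hεN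
    rwa [Algebra.algebraMap_intNorm (K := K) (L := L), map_one] at this
  obtain ⟨β, hβ0, hβ⟩ := T.hilbert90 hεL
  obtain ⟨γ, hγ0, hγ⟩ : ∃ γ : 𝓞 L, γ ≠ 0 ∧ γ = T.σ • γ * (ε : 𝓞 L) := by
    obtain ⟨n, hn, hz⟩ := IsAlgebraic.exists_integral_multiple
      ((IsFractionRing.isAlgebraic_iff ℤ ℚ L).mpr (Algebra.IsAlgebraic.isAlgebraic (R := ℚ) β))
    refine ⟨⟨_, hz⟩, fun h0 => ?_, RingOfIntegers.coe_injective ?_⟩
    · have := congrArg (fun t : 𝓞 L => (t : L)) h0
      simp [hn, hβ0] at this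
    · show n • β = T.σ (n • β) * ((ε : 𝓞 L) : L)
      rw [map_zsmul, smul_mul_assoc, ← hβ]
  have hγfix : T.σ • span {γ} = span {γ} := by
    rw [smul_span_singleton]
    conv_rhs => rw [hγ]
    rw [Ideal.span_singleton_mul_right_unit ε.isUnit]
  obtain ⟨i, a, hi, ha, hia⟩ := T.fixed_ideal _ (by simp [hγ0]) hγfix
  have hrel : p ^ i * e (ClassGroup.mk0 ⟨a, mem_nonZeroDivisors_of_ne_zero ha⟩) = 1 := by
    rw [← hclass ⟨span {γ}, mem_nonZeroDivisors_of_ne_zero (by simp [hγ0])⟩ i a ha hia]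
    exact (ClassGroup.mk0_eq_one_iff _).mpr ⟨γ, rfl⟩
  have hp3 : p ^ 3 = 1 := by
    rw [← map_pow]
    refine (ClassGroup.mk0_eq_one_iff _).mpr ⟨(2 : 𝓞 L), ?_⟩
    show T.P2 ^ 3 = Submodule.span (𝓞 L) {(2 : 𝓞 L)}
    rw [← T.tot, extI, Ideal.map_span, Set.image_singleton, map_ofNat]
  have hrange : Nat.card e.range * Nat.card e.ker = Nat.card (ClassGroup (𝓞 K)) := by
    rw [← Nat.card_congr (QuotientGroup.quotientKerEquivRange e).toEquiv,
      ← Subgroup.card_eq_card_quotient_mul_card_subgroup]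
  by_cases hi0 : i = 0
  · subst hi0
    rw [pow_zero, one_mul] at hrel
    set c := ClassGroup.mk0 ⟨a, mem_nonZeroDivisors_of_ne_zero ha⟩
    have hc1 : c ≠ 1 := by
      intro h
      obtain ⟨t, ht⟩ := ((ClassGroup.mk0_eq_one_iff _).mp h).principal
      rw [Ideal.submodule_span_eq] at ht
      have hspan : span {γ} = span {algebraMap (𝓞 K) (𝓞 L) t} := by
        rw [hia, pow_zero, one_mul, extI, show a = span {t} from ht, Ideal.map_span,
          Set.image_singleton]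
      obtain ⟨v, hv⟩ := Ideal.span_singleton_eq_span_singleton.mp hspan.symm
      have ht0 : algebraMap (𝓞 K) (𝓞 L) t ≠ 0 := fun h0 => hγ0 (by rw [← hv, h0, zero_mul])
      refine hε v (mul_left_cancel₀ ht0 ?_)
      have h1 := hγ
      rw [← hv, smul_mul', smul_algebraMap] at h1
      linear_combination -h1
    have hc3 : c ^ 3 = 1 := by
      rw [← map_pow]
      refine (ClassGroup.mk0_eq_one_iff _).mpr ?_
      show (a ^ 3 : Ideal (𝓞 K)).IsPrincipal
      have h := congrArg (relNorm (𝓞 K)) hia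
      rw [pow_zero, one_mul, relNorm_singleton, relNorm_algebraMap, T.rank_eq] at h
      exact ⟨_, h.symm⟩
    have hker : 3 ≤ Nat.card e.ker := by
      have h3 : orderOf (⟨c, hrel⟩ : e.ker) = 3 := by
        have : Fact (Nat.Prime 3) := ⟨Nat.prime_three⟩
        refine orderOf_eq_prime (Subtype.ext (by simpa using hc3)) fun h => hc1 ?_
        simpa using congrArg Subtype.val h
      exact Nat.le_of_dvd Nat.card_pos (h3 ▸ orderOf_dvd_natCard _)
    have : Nat.card {C : ClassGroup (𝓞 L) // galClass T.σ C = C} ≤ Nat.card (Fin 3 × e.range) := by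
      have hs : ∀ q : {C : ClassGroup (𝓞 L) // galClass T.σ C = C}, ∃ r : Fin 3 × e.range,
          (q : ClassGroup (𝓞 L)) = p ^ (r.1 : ℕ) * (r.2 : ClassGroup (𝓞 L)) := fun q => by
        obtain ⟨j, c', hj, h⟩ := hfix q.1 q.2
        exact ⟨(⟨j, hj⟩, ⟨e c', c', rfl⟩), h⟩
      choose f hf using hs
      exact Nat.card_le_card_of_injective f fun q q' h => Subtype.ext (by rw [hf, hf, h])
    rw [Nat.card_prod, Nat.card_fin] at this
    nlinarith [hrange]
  · have hpr : p ∈ e.range := by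
      have h1 : p ^ i ∈ e.range := by
        rw [eq_inv_of_mul_eq_one_left hrel]
        exact Subgroup.inv_mem _ ⟨_, rfl⟩
      have h2 := Subgroup.pow_mem _ h1 i
      rw [← pow_mul] at h2
      rcases (show i = 1 ∨ i = 2 by omega) with rfl | rfl
      · simpa using h2
      · rwa [show 2 * 2 = 3 + 1 from rfl, pow_succ, hp3, one_mul] at h2
    have : Nat.card {C : ClassGroup (𝓞 L) // galClass T.σ C = C} ≤ Nat.card e.range := by
      refine Nat.card_le_card_of_injective (fun q => (⟨q.1, ?_⟩ : e.range))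
        fun q q' h => Subtype.ext (congrArg (fun z : e.range => (z : ClassGroup (𝓞 L))) h)
      obtain ⟨j, c', -, h⟩ := hfix q.1 q.2
      rw [h]
      exact Subgroup.mul_mem _ (Subgroup.pow_mem _ hpr j) ⟨_, rfl⟩
    exact this.trans (Nat.le_of_dvd Nat.card_pos ⟨_, hrange.symm⟩)

/-- The classes of norms from `L` are killed by a surjection onto `ℤ/3`. -/
theorem exists_character :
    ∃ c : Ray K →* Multiplicative (ZMod 3), Function.Surjective c ∧
      ∀ A : oddIdeals L, c (T.normCls A) = 1 := by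
  classical
  have := T.galois
  have := S.finite_ray
  let : CommGroup (Ray K) := inferInstance
  -- classes with odd representatives
  let j : oddIdeals L →* ClassGroup (𝓞 L) := ClassGroup.mk0.comp oddNZ
  have hpow : ∀ g : ClassGroup (𝓞 L), g ∈ MonoidHom.mrange j → g⁻¹ ∈ MonoidHom.mrange j := by
    rintro g ⟨A, rfl⟩
    refine ⟨A ^ (Fintype.card (ClassGroup (𝓞 L)) - 1), eq_inv_of_mul_eq_one_left ?_⟩
    rw [map_pow, ← pow_succ, Nat.sub_add_cancel Fintype.card_pos, pow_card_eq_one]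
  let Sj : Subgroup (ClassGroup (𝓞 L)) :=
    { MonoidHom.mrange j with inv_mem' := fun {g} hg => hpow g hg }
  have hrep : ∀ s : Sj, ∃ A, j A = (s : ClassGroup (𝓞 L)) := fun s => s.2
  choose r hr using hrep
  let f : Sj →* Ray K := MonoidHom.mk' (fun s => T.normCls (r s)) fun s t => by
    rw [← map_mul]
    refine T.normCls_congr ?_
    show j (r (s * t)) = j (r s * r t)
    rw [map_mul, hr, hr, hr]
    rfl
  have hfA : ∀ A, T.normCls A = f ⟨j A, A, rfl⟩ := fun A =>
    T.normCls_congr (show j A = j (r _) from (hr ⟨j A, A, rfl⟩).symm)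
  have hodd : ∀ A : oddIdeals L, T.σ • (A : Ideal (𝓞 L)) ∈ oddIdeals L := fun A => by
    rw [T.odd_iff]
    intro h
    refine (T.odd_iff _).mp A.2 ?_
    have h' := Ideal.pointwise_smul_le_pointwise_smul_iff (a := T.σ) (S := (A : Ideal (𝓞 L))) (T := T.P2)
    rw [T.smul_P2] at h'
    exact h'.mp h
  have hgal : ∀ A : oddIdeals L, galClass T.σ (j A) = j ⟨_, hodd A⟩ := fun A =>
    galClass_mk0 _ _ _ rfl
  let φ : Sj →* Sj := MonoidHom.mk'
    (fun s => ⟨galClass T.σ (s : ClassGroup (𝓞 L)) / s, Sj.div_mem (by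
      obtain ⟨A, hA⟩ := s.2
      exact ⟨_, (hgal A).symm.trans (congrArg _ hA)⟩) s.2⟩)
    fun s t => Subtype.ext (by
      show galClass T.σ ((s : ClassGroup (𝓞 L)) * t) / (s * t : ClassGroup (𝓞 L)) = _
      rw [map_mul, mul_div_mul_comm]
      rfl)
  have hle : φ.range ≤ f.ker := by
    rintro _ ⟨s, rfl⟩
    rw [MonoidHom.mem_ker]
    obtain ⟨A, hA⟩ := s.2
    have hs : s = ⟨j A, A, rfl⟩ := Subtype.ext hA.symm
    have h1 : f (φ s) * f s = f s := by
      rw [← map_mul]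
      have : φ s * s = ⟨j ⟨_, hodd A⟩, _, rfl⟩ := Subtype.ext (by
        show galClass T.σ (s : ClassGroup (𝓞 L)) / s * s = _
        rw [div_mul_cancel, ← hA, hgal])
      rw [this, hs, ← hfA, ← hfA]
      show S.cls _ = S.cls _
      congr 1
      exact Subtype.ext (relNorm_smul (𝓞 K) T.σ _)
    exact mul_eq_right.mp h1
  let H : Subgroup (Ray K) := f.range
  have hH : H ≠ ⊤ := by
    intro htop
    have h1 : Nat.card f.range ≤ Nat.card φ.ker := by
      have e1 : Nat.card f.range * Nat.card f.ker = Nat.card Sj := by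
        rw [← Nat.card_congr (QuotientGroup.quotientKerEquivRange f).toEquiv,
          ← Subgroup.card_eq_card_quotient_mul_card_subgroup]
      have e2 : Nat.card φ.range * Nat.card φ.ker = Nat.card Sj := by
        rw [← Nat.card_congr (QuotientGroup.quotientKerEquivRange φ).toEquiv,
          ← Subgroup.card_eq_card_quotient_mul_card_subgroup]
      have e3 : Nat.card φ.range ≤ Nat.card f.ker :=
        Nat.le_of_dvd Nat.card_pos (Subgroup.card_dvd_of_le hle)
      have := Nat.card_pos (α := f.ker)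
      nlinarith
    have h2 : Nat.card φ.ker ≤ Nat.card {C : ClassGroup (𝓞 L) // galClass T.σ C = C} := by
      refine Nat.card_le_card_of_injective
        (fun s => ⟨(s.1 : ClassGroup (𝓞 L)), div_eq_one.mp (congrArg Subtype.val s.2)⟩)
        fun s t h => Subtype.ext (Subtype.ext
          (congrArg (fun z : {C : ClassGroup (𝓞 L) // galClass T.σ C = C} => z.1) h))
    have h3 : Nat.card (Ray K) = Nat.card f.range := by
      show _ = Nat.card H
      rw [htop, Subgroup.card_top]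
    have h4 := T.card_fixed_le
    have h5 := S.card_ray
    have := Nat.card_pos (α := ClassGroup (𝓞 K))
    omega
  have hcube : ∀ g : Ray K, g ^ 3 ∈ H := by
    intro g
    obtain ⟨a, rfl⟩ := S.cls_surjective g
    have hext : (extI (a : Ideal (𝓞 K)) : Ideal (𝓞 L)) ∈ oddIdeals L := by
      rw [T.odd_iff]
      intro h
      have := T.prime
      have hu : (a : Ideal (𝓞 K)) ≤ T.P2.under (𝓞 K) := Ideal.map_le_iff_le_comap.mp h
      have hmax : (span {(2 : 𝓞 K)}).IsMaximal :=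
        ((span_singleton_prime two_ne_zero).mpr S.prime_two).isMaximal (by simp)
      have hunder : span {(2 : 𝓞 K)} = T.P2.under (𝓞 K) := by
        refine hmax.eq_of_le (Ideal.IsPrime.ne_top inferInstance) ?_
        rw [span_singleton_le_iff_mem, Ideal.mem_comap, map_ofNat]
        exact T.two_mem_P2
      rw [← hunder] at hu
      have h2 := absNorm_dvd_absNorm_of_le hu
      rw [show span {(2 : 𝓞 K)} = span {((2 : ℕ) : 𝓞 K)} by norm_num, absNorm_span_natCast,
        RingOfIntegers.rank, S.deg] at h2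
      exact (Nat.not_even_iff_odd.mpr a.2) (even_iff_two_dvd.mpr ((dvd_mul_right 2 2).trans h2))
    refine ⟨⟨j ⟨_, hext⟩, _, rfl⟩, ?_⟩
    rw [← hfA, ← map_pow]
    show S.cls _ = S.cls _
    congr 1
    refine Subtype.ext ?_
    show relNorm (𝓞 K) (extI (a : Ideal (𝓞 K)) : Ideal (𝓞 L)) = ((a ^ 3 : oddIdeals K) : Ideal (𝓞 K))
    rw [relNorm_algebraMap, T.rank_eq]
    rfl
  obtain ⟨c, hc, hker⟩ := exists_hom_zmod_three H hH hcube
  exact ⟨c, hc, fun A => hker ⟨_, (hfA A).symm⟩⟩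

end Cyclic3

end FA.Theta
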