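import Fermat.Agent.Theta.QuadField

/-!
# Ray classes modulo `2` of an imaginary quadratic field in which `2` is inert

Odd ideals modulo principal ideals `(α)`, `α ≡ 1 (mod 2)`: a finite abelian group with three times
as many elements as the class group.
-/

set_option autoImplicit false

noncomputable section

open Module NumberField Ideal
open scoped nonZeroDivisors

namespace FA.Theta

section General

variable {F : Type*} [Field F] [NumberField F]

/-- A prime divisor of an ideal containing a prime divisor of its norm. -/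
lemma exists_prime_dvd_of_dvd_absNorm {p : ℕ} (hp : p.Prime) {I : Ideal (𝓞 F)}
    (h : p ∣ absNorm I) :
    ∃ P : Ideal (𝓞 F), P.IsMaximal ∧ (p : 𝓞 F) ∈ P ∧ P ∣ I := by
  obtain ⟨P, hP, hu, hd⟩ := Ideal.exists_isMaximal_dvd_of_dvd_absNorm' hp I h
  refine ⟨P, hP, ?_, hd⟩
  have : ((p : ℕ) : ℤ) ∈ P.under ℤ := hu ▸ Ideal.mem_span_singleton_self _
  simpa [Ideal.mem_comap] using this

end General

variable {K : Type*} [Field K] [NumberField K]

/-- `x ≡ 1 (mod 2)`. -/
def OneMod2 (x : 𝓞 K) : Prop := (2 : 𝓞 K) ∣ x - 1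

lemma OneMod2.mul {x y : 𝓞 K} (hx : OneMod2 x) (hy : OneMod2 y) : OneMod2 (x * y) := by
  have := dvd_add (hx.mul_right y) hy
  convert this using 1
  unfold OneMod2
  ring_nf

lemma oneMod2_one : OneMod2 (1 : 𝓞 K) := by simp [OneMod2]

/-- The ideals of odd norm. -/
def oddIdeals (K : Type*) [Field K] [NumberField K] : Submonoid (Ideal (𝓞 K)) where
  carrier := {a | Odd (absNorm a)}
  one_mem' := by simp
  mul_mem' {a b} ha hb := by
    simp only [Set.mem_ofPred_eq, map_mul, Nat.odd_mul] at *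
    exact ⟨ha, hb⟩

lemma mem_oddIdeals {a : Ideal (𝓞 K)} : a ∈ oddIdeals K ↔ Odd (absNorm a) := Iff.rfl

lemma ne_bot_of_odd {a : Ideal (𝓞 K)} (ha : a ∈ oddIdeals K) : a ≠ ⊥ := by
  rintro rfl
  simp [mem_oddIdeals] at ha

/-- Ray equivalence modulo `2`. -/
def Rel (a b : oddIdeals K) : Prop :=
  ∃ α β : 𝓞 K, OneMod2 α ∧ OneMod2 β ∧
    span {α} * (a : Ideal (𝓞 K)) = span {β} * (b : Ideal (𝓞 K))

/-- The congruence of ray equivalence. -/
def rayCon (K : Type*) [Field K] [NumberField K] : Con (oddIdeals K) where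
  r := Rel
  iseqv :=
    { refl := fun a => ⟨1, 1, oneMod2_one, oneMod2_one, rfl⟩
      symm := fun ⟨α, β, hα, hβ, h⟩ => ⟨β, α, hβ, hα, h.symm⟩
      trans := fun ⟨α, β, hα, hβ, h⟩ ⟨α', β', hα', hβ', h'⟩ =>
        ⟨α * α', β * β', hα.mul hα', hβ.mul hβ', by
          rw [← Ideal.span_singleton_mul_span_singleton, ← Ideal.span_singleton_mul_span_singleton,
            mul_comm (span {α}), mul_assoc, h, ← mul_assoc, mul_comm (span {α'}), mul_assoc, h',
            ← mul_assoc]⟩ }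
  mul' := fun {a b c d} ⟨α, β, hα, hβ, h⟩ ⟨α', β', hα', hβ', h'⟩ =>
    ⟨α * α', β * β', hα.mul hα', hβ.mul hβ', by
      rw [← Ideal.span_singleton_mul_span_singleton, ← Ideal.span_singleton_mul_span_singleton,
        Submonoid.coe_mul, Submonoid.coe_mul, mul_mul_mul_comm, h, h', mul_mul_mul_comm]⟩

/-- The ray class monoid. -/
abbrev RayM (K : Type*) [Field K] [NumberField K] := (rayCon K).Quotient

lemma rayM_mk_eq {a b : oddIdeals K} : (a : RayM K) = b ↔ Rel a b := (rayCon K).eq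

/-- The ray class group. -/
abbrev Ray (K : Type*) [Field K] [NumberField K] := (RayM K)ˣ

namespace IQ

variable {D : ℕ} (S : IQ K D)

include S

lemma absNorm_span (x : 𝓞 K) : (absNorm (span {x}) : ℤ) = Algebra.norm ℤ x := by
  rw [absNorm_span_singleton, Int.natAbs_of_nonneg (S.norm_nonneg x)]

lemma odd_span_iff (x : 𝓞 K) : span {x} ∈ oddIdeals K ↔ ¬ (2 : 𝓞 K) ∣ x := by
  rw [mem_oddIdeals, ← S.two_dvd_norm_iff, ← S.absNorm_span, Nat.odd_iff]
  omega

lemma not_dvd_of_oneMod2 {x : 𝓞 K} (h : OneMod2 x) : ¬ (2 : 𝓞 K) ∣ x := fun h' =>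
  S.prime_two.not_isUnit (isUnit_of_dvd_one (by simpa using dvd_sub h' h))

/-- Every ideal is a power of `2` times an odd ideal. -/
lemma exists_odd_part (I : Ideal (𝓞 K)) (hI : I ≠ ⊥) :
    ∃ (k : ℕ) (J : oddIdeals K), I = span {(2 : 𝓞 K)} ^ k * (J : Ideal (𝓞 K)) := by
  induction h : absNorm I using Nat.strong_induction_on generalizing I with
  | _ n ih =>
    by_cases hodd : Odd n
    · exact ⟨0, ⟨I, by rw [mem_oddIdeals, h]; exact hodd⟩, by simp⟩
    have h2 : 2 ∣ absNorm I := by rw [h]; exact even_iff_two_dvd.mp (Nat.not_odd_iff_even.mp hodd)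
    obtain ⟨P, hP, hmem, hdvd⟩ := exists_prime_dvd_of_dvd_absNorm Nat.prime_two h2
    have hmax : (span {(2 : 𝓞 K)}).IsMaximal :=
      ((span_singleton_prime two_ne_zero).mpr S.prime_two).isMaximal (by simp)
    have hP2 : span {(2 : 𝓞 K)} = P := hmax.eq_of_le hP.ne_top (by
      rw [span_singleton_le_iff_mem]; exact_mod_cast hmem)
    obtain ⟨I', rfl⟩ := hP2 ▸ hdvd
    have hI' : I' ≠ ⊥ := fun e => hI (by simp [e])
    obtain ⟨k, J, rfl⟩ := ih (absNorm I') (by
      rw [← h, map_mul]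
      refine lt_mul_of_one_lt_left (Nat.pos_of_ne_zero (absNorm_eq_zero_iff.not.mpr hI')) ?_
      rw [Nat.one_lt_iff_ne_zero_and_ne_one]
      exact ⟨absNorm_eq_zero_iff.not.mpr (by simp), fun e => hmax.ne_top (absNorm_eq_one_iff.mp e)⟩)
      I' hI' rfl
    exact ⟨k + 1, J, by ring⟩

lemma isUnit_rayM (c : RayM K) : IsUnit c := by
  induction c using Con.induction_on with
  | _ a =>
    let a₀ : (Ideal (𝓞 K))⁰ := ⟨a, mem_nonZeroDivisors_of_ne_zero (ne_bot_of_odd a.2)⟩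
    have hp : ((a : Ideal (𝓞 K)) ^ Fintype.card (ClassGroup (𝓞 K))).IsPrincipal := by
      have h := pow_card_eq_one (x := ClassGroup.mk0 a₀)
      rw [← map_pow, ClassGroup.mk0_eq_one_iff (by
        exact mem_nonZeroDivisors_of_ne_zero (pow_ne_zero _ (ne_bot_of_odd a.2)))] at h
      exact h
    obtain ⟨x, hx⟩ := hp.principal
    rw [Ideal.submodule_span_eq] at hx
    have hodd : ¬ (2 : 𝓞 K) ∣ x := by
      rw [← S.odd_span_iff, ← hx]
      exact Submonoid.pow_mem _ a.2 _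
    refine IsUnit.of_pow_eq_one (n := Fintype.card (ClassGroup (𝓞 K)) * 3) ?_
      (by positivity)
    change ((rayCon K).mk' a) ^ _ = (rayCon K).mk' 1
    rw [← map_pow]
    refine rayM_mk_eq.mpr ?_
    refine ⟨1, x ^ 3, oneMod2_one, S.cube_mod_two x hodd, ?_⟩
    simp [pow_mul, hx, Ideal.span_singleton_pow]

/-- The class of an odd ideal. -/
def cls : oddIdeals K →* Ray K where
  toFun a := (S.isUnit_rayM (a : RayM K)).unit
  map_one' := Units.ext (by simp)
  map_mul' a b := Units.ext (by simp)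

lemma cls_surjective : Function.Surjective S.cls := fun u => by
  obtain ⟨a, ha⟩ : ∃ a : oddIdeals K, (a : RayM K) = u := Con.induction_on u.val fun a => ⟨a, rfl⟩
  exact ⟨a, Units.ext ha⟩

lemma cls_eq_iff {a b : oddIdeals K} : S.cls a = S.cls b ↔ Rel a b := by
  rw [Units.ext_iff]; exact rayM_mk_eq

lemma cls_eq_one_of_oneMod2 {a : oddIdeals K} {x : 𝓞 K} (ha : (a : Ideal (𝓞 K)) = span {x})
    (hx : OneMod2 x) : S.cls a = 1 := by
  rw [← S.cls.map_one, cls_eq_iff]
  exact ⟨1, x, oneMod2_one, hx, by simp [ha]⟩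

/-- The ideal of an element prime to `2`. -/
def oddSpan (x : 𝓞 K) (hx : ¬ (2 : 𝓞 K) ∣ x) : oddIdeals K :=
  ⟨span {x}, (S.odd_span_iff x).mpr hx⟩

omit S in
lemma exists_fraction {a b : Ideal (𝓞 K)} (ha : a ≠ ⊥) (hb : b ≠ ⊥)
    (h : ClassGroup.mk0 ⟨a, mem_nonZeroDivisors_of_ne_zero ha⟩ =
      ClassGroup.mk0 ⟨b, mem_nonZeroDivisors_of_ne_zero hb⟩) :
    ∃ x y : 𝓞 K, x ≠ 0 ∧ y ≠ 0 ∧ span {x} * a = span {y} * b :=
  let ⟨x, y, hx, hy, e⟩ := ClassGroup.mk0_eq_mk0_iff.mp h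
  ⟨x, y, hx, hy, e⟩

omit S in
/-- The ideal as a nonzero ideal. -/
def toNZ : oddIdeals K →* (Ideal (𝓞 K))⁰ where
  toFun a := ⟨(a : Ideal (𝓞 K)), mem_nonZeroDivisors_of_ne_zero (ne_bot_of_odd a.2)⟩
  map_one' := rfl
  map_mul' _ _ := rfl

omit S in
@[simp] lemma coe_toNZ (a : oddIdeals K) : ((toNZ a : (Ideal (𝓞 K))⁰) : Ideal (𝓞 K)) = a := rfl

lemma clHom_rel : rayCon K ≤ Con.ker (ClassGroup.mk0.comp (toNZ (K := K))) := by
  rintro a b ⟨α, β, hα, hβ, h⟩
  exact ClassGroup.mk0_eq_mk0_iff.mpr ⟨α, β, fun e => S.not_dvd_of_oneMod2 hα (e ▸ dvd_zero _),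
    fun e => S.not_dvd_of_oneMod2 hβ (e ▸ dvd_zero _), h⟩

/-- The map to the class group. -/
def toCl : Ray K →* ClassGroup (𝓞 K) :=
  MonoidHom.comp (Con.lift (rayCon K) (ClassGroup.mk0.comp toNZ) S.clHom_rel)
    (Units.coeHom (RayM K))

lemma toCl_cls (a : oddIdeals K) : S.toCl (S.cls a) = ClassGroup.mk0 (toNZ a) := by
  simp [toCl, cls]

lemma toCl_surjective : Function.Surjective S.toCl := by
  intro C
  obtain ⟨I, rfl⟩ := ClassGroup.mk0_surjective C
  obtain ⟨k, J, hJ⟩ := S.exists_odd_part I (mem_nonZeroDivisors_iff_ne_zero.mp I.2)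
  refine ⟨S.cls J, ?_⟩
  rw [toCl_cls, ClassGroup.mk0_eq_mk0_iff]
  exact ⟨2 ^ k, 1, pow_ne_zero _ two_ne_zero, one_ne_zero, by
    simp [hJ, Ideal.span_singleton_pow]⟩

lemma omega_odd : ¬ (2 : 𝓞 K) ∣ S.ω := by
  rw [show S.ω = S.el 0 1 by simp [el], S.two_dvd_iff, S.im_el]
  norm_num

/-- The class of `(ω)`, of order three. -/
def omegaCls : Ray K := S.cls (S.oddSpan S.ω S.omega_odd)

lemma cls_oddSpan_eq_one_iff {x : 𝓞 K} (hx : ¬ (2 : 𝓞 K) ∣ x) :
    S.cls (S.oddSpan x hx) = 1 ↔ OneMod2 x := by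
  refine ⟨fun h => ?_, fun h => S.cls_eq_one_of_oneMod2 rfl h⟩
  rw [← S.cls.map_one, cls_eq_iff] at h
  obtain ⟨α, β, hα, hβ, h⟩ := h
  simp only [oddSpan, Submonoid.coe_one, mul_one, Ideal.span_singleton_mul_span_singleton,
    Ideal.span_singleton_eq_span_singleton] at h
  obtain ⟨u, hu⟩ := h
  have : OneMod2 (β * (u : 𝓞 K) ^ 2) := by
    rcases S.units u u.isUnit with e | e <;> simp [e, hβ]
  unfold OneMod2 at *
  have key : α * x - β = α * x * (1 - (u : 𝓞 K)) := by rw [← hu]; ring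
  have h2 : (2 : 𝓞 K) ∣ 1 - (u : 𝓞 K) := by
    rcases S.units u u.isUnit with e | e <;> simp [e]
    norm_num
  have e : x - 1 = α * x * (1 - (u : 𝓞 K)) + (β - 1) - x * (α - 1) := by
    rw [← key]; ring
  rw [e]
  exact dvd_sub (dvd_add (dvd_mul_of_dvd_right h2 _) hβ) (dvd_mul_of_dvd_right hα _)

lemma omegaCls_cube : S.omegaCls ^ 3 = 1 := by
  rw [omegaCls, ← map_pow]
  exact S.cls_eq_one_of_oneMod2 (x := S.ω ^ 3)
    (by simp [oddSpan, Ideal.span_singleton_pow]) (S.cube_mod_two _ S.omega_odd)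

lemma omegaCls_ne_one : S.omegaCls ≠ 1 := by
  rw [omegaCls, Ne, S.cls_oddSpan_eq_one_iff, OneMod2, S.two_dvd_iff,
    show S.ω - 1 = S.el (-1) 1 by simp [el]; ring, S.im_el]
  norm_num

lemma toCl_omegaCls : S.toCl S.omegaCls = 1 := by
  rw [omegaCls, toCl_cls]
  exact (ClassGroup.mk0_eq_one_iff _).mpr ⟨S.ω, rfl⟩

lemma mem_ker_toCl {g : Ray K} (hg : S.toCl g = 1) : g ∈ Subgroup.zpowers S.omegaCls := by
  obtain ⟨a, rfl⟩ := S.cls_surjective g
  rw [toCl_cls, ClassGroup.mk0_eq_one_iff] at hg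
  obtain ⟨x, hx⟩ := hg.principal
  rw [Ideal.submodule_span_eq, coe_toNZ] at hx
  have hodd : ¬ (2 : 𝓞 K) ∣ x := by rw [← S.odd_span_iff, ← hx]; exact a.2
  have step : ∀ r : 𝓞 K, ∀ hr : ¬ (2 : 𝓞 K) ∣ r, (2 : 𝓞 K) ∣ x - r →
      S.cls a = S.cls (S.oddSpan r hr) := by
    intro r hr hxr
    rw [cls_eq_iff]
    refine ⟨r * x ^ 2, x ^ 3, ?_, S.cube_mod_two x hodd, ?_⟩
    · have := dvd_sub (S.cube_mod_two x hodd) (hxr.mul_right (x ^ 2))
      unfold OneMod2
      convert this using 1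
      ring
    · simp only [hx, oddSpan, Ideal.span_singleton_mul_span_singleton]
      congr 1; congr 1; ring
  rcases S.residue x hodd with h | h | h
  · rw [S.cls_eq_one_of_oneMod2 hx h]; exact Subgroup.one_mem _
  · rw [step _ S.omega_odd h]; exact Subgroup.mem_zpowers _
  · have hr : ¬ (2 : 𝓞 K) ∣ S.ω ^ 2 := fun e => S.omega_odd (S.prime_two.dvd_of_dvd_pow e)
    rw [step _ hr h, show S.oddSpan (S.ω ^ 2) hr = S.oddSpan S.ω S.omega_odd ^ 2 from
      Subtype.ext (by simp [oddSpan, Ideal.span_singleton_pow]), map_pow]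
    exact Subgroup.pow_mem _ (Subgroup.mem_zpowers _) 2

lemma finite_ray : Finite (Ray K) := by
  have hker : Finite (S.toCl).ker := by
    have : Finite (Subgroup.zpowers S.omegaCls) :=
      Nat.finite_of_card_ne_zero (by
        rw [Nat.card_zpowers]
        exact (orderOf_pos_iff.mpr (isOfFinOrder_iff_pow_eq_one.mpr
          ⟨3, by norm_num, S.omegaCls_cube⟩)).ne')
    exact Finite.of_injective (fun g => (⟨g.1, S.mem_ker_toCl g.2⟩ : Subgroup.zpowers S.omegaCls))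
      fun g h e => Subtype.ext (congrArg (fun z : Subgroup.zpowers S.omegaCls => (z : Ray K)) e)
  have : Finite (Ray K ⧸ (S.toCl).ker) :=
    Finite.of_equiv _ (QuotientGroup.quotientKerEquivOfSurjective _ S.toCl_surjective).toEquiv.symm
  exact Finite.of_equiv _ (Subgroup.groupEquivQuotientProdSubgroup (s := (S.toCl).ker)).symm

/-- The ray class group has three times as many elements as the class group. -/
theorem card_ray : Nat.card (Ray K) = 3 * Nat.card (ClassGroup (𝓞 K)) := by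
  have hker : (S.toCl).ker = Subgroup.zpowers S.omegaCls := by
    refine le_antisymm (fun g hg => S.mem_ker_toCl hg) ?_
    rw [Subgroup.zpowers_le]
    exact S.toCl_omegaCls
  rw [Subgroup.card_eq_card_quotient_mul_card_subgroup (S.toCl).ker,
    Nat.card_congr (QuotientGroup.quotientKerEquivOfSurjective _ S.toCl_surjective).toEquiv,
    hker, Nat.card_zpowers, orderOf_eq_prime S.omegaCls_cube S.omegaCls_ne_one, mul_comm]

end IQ

/-- A proper subgroup containing all cubes is killed by a surjection onto `ℤ/3`. -/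
theorem exists_hom_zmod_three {G : Type*} [CommGroup G] (H : Subgroup G) (hH : H ≠ ⊤)
    (hcube : ∀ g : G, g ^ 3 ∈ H) :
    ∃ c : G →* Multiplicative (ZMod 3), Function.Surjective c ∧ H ≤ c.ker := by
  have : Fact (Nat.Prime 3) := ⟨Nat.prime_three⟩
  let V := Additive (G ⧸ H)
  let : Module (ZMod 3) V := AddCommGroup.zmodModule (n := 3) (by
    intro v
    obtain ⟨g, hg⟩ := QuotientGroup.mk_surjective (Additive.toMul v)
    apply Additive.toMul.injective
    rw [toMul_nsmul, toMul_zero, ← hg, ← QuotientGroup.mk_pow]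
    exact (QuotientGroup.eq_one_iff _).mpr (hcube g))
  obtain ⟨g, hg⟩ : ∃ g, g ∉ H := by
    by_contra hc; push Not at hc; exact hH (eq_top_iff.mpr fun g _ => hc g)
  let v : V := Additive.ofMul (QuotientGroup.mk g)
  have hv : v ≠ 0 := fun e => hg ((QuotientGroup.eq_one_iff g).mp e)
  obtain ⟨f, hf⟩ : ∃ f : Module.Dual (ZMod 3) V, f v ≠ 0 := by
    by_contra hc; push Not at hc; exact hv ((Module.forall_dual_apply_eq_zero_iff _ v).mp hc)
  let c : G →* Multiplicative (ZMod 3) := MonoidHom.mk'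
    (fun x => Multiplicative.ofAdd (f (Additive.ofMul (QuotientGroup.mk x : G ⧸ H))))
    (fun x y => by rw [QuotientGroup.mk_mul, ofMul_mul, map_add, ofAdd_add])
  refine ⟨c, fun y => ?_, fun h hh => ?_⟩
  · obtain ⟨k, hk⟩ : ∃ k : ℕ, (k : ZMod 3) = y.toAdd * (f v)⁻¹ := ⟨_, ZMod.natCast_zmod_val _⟩
    refine ⟨g ^ k, ?_⟩
    rw [map_pow]
    apply Multiplicative.toAdd.injective
    rw [toAdd_pow]
    show k • f v = y.toAdd
    rw [nsmul_eq_mul, hk, mul_assoc, inv_mul_cancel₀ hf, mul_one]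
  · rw [MonoidHom.mem_ker]
    show Multiplicative.ofAdd (f (Additive.ofMul (QuotientGroup.mk h))) = 1
    rw [(QuotientGroup.eq_one_iff h).mpr hh]
    simp

end FA.Theta
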