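import Fermat.Agent.Theta.Eigen
import Fermat.Agent.Theta.Ambiguous

/-!
# The cyclic cubic extension of `ℚ(√-D)` cut out by an Eisenstein cubic of discriminant `-4Ds²`

`G = X³ + 2BX² + 4CX + 2E`, `E` odd, with discriminant `-D(2s)²` and `B² - 3C` prime to it.
This is the `2`-torsion polynomial, at `X/2`, of a semistable curve with good supersingular
reduction at `2`.  The eigenform of the resulting cubic character is congruent to `1` at a prime
only if the cubic has no root there.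
-/

set_option autoImplicit false

noncomputable section

open Module NumberField Ideal Polynomial
open scoped nonZeroDivisors Pointwise

namespace FA.Theta

/-- The coefficients. -/
structure CubicDatum (D : ℕ) where
  B : ℤ
  C : ℤ
  E : ℤ
  s : ℤ
  odd : ¬ (2 : ℤ) ∣ E
  disc : 64 * B ^ 2 * C ^ 2 - 256 * C ^ 3 - 64 * B ^ 3 * E - 108 * E ^ 2 + 288 * B * C * E
    = -(D : ℤ) * (2 * s) ^ 2
  coprime : IsCoprime (B ^ 2 - 3 * C) ((D : ℤ) * s ^ 2)
  sqfree : Squarefree D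
  mod8 : D % 8 = 3
  gt : 3 < D

namespace CubicDatum

variable {D : ℕ} (T : CubicDatum D)

/-- The value of the cubic. -/
def ev {R : Type} [CommRing R] (x : R) : R :=
  x ^ 3 + 2 * (T.B : R) * x ^ 2 + 4 * (T.C : R) * x + 2 * (T.E : R)

/-- Its derivative. -/
def dv {R : Type} [CommRing R] (x : R) : R :=
  3 * x ^ 2 + 4 * (T.B : R) * x + 4 * (T.C : R)

lemma map_ev {R R' : Type} [CommRing R] [CommRing R'] (f : R →+* R') (x : R) :
    f (T.ev x) = T.ev (f x) := by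
  simp [ev, map_ofNat]

include T in
lemma pos : 0 < D := by have := T.gt; omega

lemma s_ne_zero : T.s ≠ 0 := fun h => by
  have e := T.disc
  rw [h, mul_zero, zero_pow two_ne_zero, mul_zero] at e
  obtain ⟨j, hj⟩ := Int.not_even_iff_odd.mp fun he => T.odd (even_iff_two_dvd.mp he)
  obtain ⟨z, hz⟩ : (8 : ℤ) ∣ 108 * T.E ^ 2 :=
    ⟨8 * T.B ^ 2 * T.C ^ 2 - 32 * T.C ^ 3 - 8 * T.B ^ 3 * T.E + 36 * T.B * T.C * T.E, by
      linear_combination -e⟩
  rw [hj] at hz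
  have h9 : 108 * (2 * j + 1) ^ 2 = 8 * (54 * (j ^ 2 + j)) + 108 := by ring
  omega

/-! ### The quadratic field -/

/-- `X² + D`. -/
def quad (_T : CubicDatum D) : ℚ[X] := X ^ 2 + Polynomial.C (D : ℚ)

lemma quad_monic : T.quad.Monic := monic_X_pow_add_C _ two_ne_zero

lemma quad_natDegree : T.quad.natDegree = 2 := natDegree_X_pow_add_C

instance fact_quad : Fact (Irreducible T.quad) := ⟨by
  rw [T.quad_monic.irreducible_iff_roots_eq_zero_of_degree_le_three (by rw [T.quad_natDegree])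
    (by rw [T.quad_natDegree]; norm_num), Multiset.eq_zero_iff_forall_notMem]
  intro r hr
  have := isRoot_of_mem_roots hr
  simp [quad] at this
  have : (0 : ℚ) < D := by exact_mod_cast T.pos
  nlinarith [sq_nonneg r]⟩

/-- `ℚ(√-D)`. -/
abbrev QF : Type := AdjoinRoot T.quad

instance charZero_QF : CharZero T.QF :=
  charZero_of_injective_algebraMap (algebraMap ℚ T.QF).injective

instance finite_QF : FiniteDimensional ℚ T.QF :=
  Module.Finite.of_basis (AdjoinRoot.powerBasis T.quad_monic.ne_zero).basis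

instance numberField_QF : NumberField T.QF where
  to_finiteDimensional := by convert T.finite_QF

lemma root_sq : (AdjoinRoot.root T.quad) ^ 2 = -(D : T.QF) := by
  have h : aeval (AdjoinRoot.root T.quad) T.quad = 0 := AdjoinRoot.eval₂_root T.quad
  conv at h => lhs; arg 2; unfold quad
  simp only [map_add, map_pow, aeval_X, aeval_C, map_natCast] at h
  linear_combination h

/-- `√-D`. -/
def delta : 𝓞 T.QF :=
  ⟨AdjoinRoot.root T.quad, IsIntegral.of_pow two_pos (by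
    rw [T.root_sq]
    exact (isIntegral_natCast (R := ℤ) D).neg)⟩

/-- `ℚ(√-D)` with its square root. -/
def iq : IQ T.QF D where
  δ := T.delta
  sq := RingOfIntegers.coe_injective (by rw [map_pow, map_neg, map_natCast]; exact T.root_sq)
  deg := by
    rw [PowerBasis.finrank (AdjoinRoot.powerBasis T.quad_monic.ne_zero),
      AdjoinRoot.powerBasis_dim, T.quad_natDegree]
  sqfree := T.sqfree
  mod8 := T.mod8
  gt := T.gt

/-! ### The cubic field -/

/-- The cubic. -/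
def cubic : T.QF[X] :=
  X ^ 3 + Polynomial.C (2 * (T.B : T.QF)) * X ^ 2 + Polynomial.C (4 * (T.C : T.QF)) * X +
    Polynomial.C (2 * (T.E : T.QF))

lemma cubic_monic : T.cubic.Monic := by
  unfold cubic; monicity!

lemma cubic_natDegree : T.cubic.natDegree = 3 := by
  unfold cubic; compute_degree!

lemma not_root (x : T.QF) : T.ev x ≠ 0 := by
  intro hx
  have hint : IsIntegral ℤ x := by
    refine ⟨X ^ 3 + Polynomial.C (2 * T.B) * X ^ 2 + Polynomial.C (4 * T.C) * X +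
      Polynomial.C (2 * T.E), by monicity!, ?_⟩
    simp only [eval₂_add, eval₂_mul, eval₂_pow, eval₂_X, eval₂_C, algebraMap_int_eq,
      Int.coe_castRingHom]
    push_cast
    exact hx
  obtain ⟨z, rfl⟩ : ∃ z : 𝓞 T.QF, (z : T.QF) = x := ⟨⟨x, hint⟩, rfl⟩
  have hz : T.ev z = 0 := RingOfIntegers.coe_injective <| by
    rw [T.map_ev]
    simpa using hx
  obtain ⟨w, rfl⟩ : (2 : 𝓞 T.QF) ∣ z := T.iq.prime_two.dvd_of_dvd_pow (n := 3)
    ⟨-((T.B : 𝓞 T.QF) * z ^ 2 + 2 * (T.C : 𝓞 T.QF) * z + (T.E : 𝓞 T.QF)), by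
      rw [ev] at hz; linear_combination hz⟩
  have h2 : (2 : 𝓞 T.QF) ∣ (T.E : 𝓞 T.QF) :=
    ⟨-(2 * w ^ 3 + 2 * (T.B : 𝓞 T.QF) * w ^ 2 + 2 * (T.C : 𝓞 T.QF) * w), by
      refine mul_left_cancel₀ (two_ne_zero : (2 : 𝓞 T.QF) ≠ 0) ?_
      rw [ev] at hz; linear_combination hz⟩
  have h3 := T.iq.el_re_im (T.E : 𝓞 T.QF)
  have he : T.iq.el T.E 0 = (T.E : 𝓞 T.QF) := by simp [IQ.el]
  rw [← he, T.iq.two_dvd_iff, T.iq.re_el] at h2
  exact T.odd h2.1

instance fact_cubic : Fact (Irreducible T.cubic) := ⟨by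
  rw [T.cubic_monic.irreducible_iff_roots_eq_zero_of_degree_le_three
    (by rw [T.cubic_natDegree]; norm_num) (by rw [T.cubic_natDegree]),
    Multiset.eq_zero_iff_forall_notMem]
  intro r hr
  have := isRoot_of_mem_roots hr
  simp [cubic] at this
  exact T.not_root r (by rw [ev]; exact this)⟩

/-- The cubic field over `ℚ(√-D)`. -/
abbrev CF : Type := AdjoinRoot T.cubic

instance charZero_CF : CharZero T.CF :=
  charZero_of_injective_algebraMap (algebraMap T.QF T.CF).injective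

instance finite_CF : FiniteDimensional T.QF T.CF :=
  Module.Finite.of_basis (AdjoinRoot.powerBasis T.cubic_monic.ne_zero).basis

instance numberField_CF : NumberField T.CF where
  to_finiteDimensional := Module.Finite.trans T.QF T.CF

lemma deg_CF : finrank T.QF T.CF = 3 := by
  rw [PowerBasis.finrank (AdjoinRoot.powerBasis T.cubic_monic.ne_zero),
    AdjoinRoot.powerBasis_dim, T.cubic_natDegree]

/-- The root. -/
def r₁ : T.CF := AdjoinRoot.root T.cubic

lemma ev_r₁ : T.ev T.r₁ = 0 := by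
  have h : aeval (AdjoinRoot.root T.cubic) T.cubic = 0 := AdjoinRoot.eval₂_root T.cubic
  conv at h => lhs; arg 2; unfold cubic
  simp only [map_add, map_mul, map_pow, aeval_X, aeval_C, map_intCast, map_ofNat] at h
  rw [ev, r₁]
  exact h

lemma disc_cast {R : Type} [CommRing R] :
    64 * (T.B : R) ^ 2 * (T.C : R) ^ 2 - 256 * (T.C : R) ^ 3 - 64 * (T.B : R) ^ 3 * (T.E : R)
      - 108 * (T.E : R) ^ 2 + 288 * (T.B : R) * (T.C : R) * (T.E : R)
    = -(D : R) * (2 * (T.s : R)) ^ 2 := by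
  have h := congrArg (Int.cast : ℤ → R) T.disc
  push_cast at h
  exact h

/-- The discriminant as a product. -/
lemma disc_factor {R : Type} [CommRing R] {x : R} (hx : T.ev x = 0) :
    T.dv x ^ 2 * ((x + 2 * (T.B : R)) ^ 2 - 4 * (x ^ 2 + 2 * (T.B : R) * x + 4 * (T.C : R)))
      = -(D : R) * (2 * (T.s : R)) ^ 2 := by
  rw [← T.disc_cast]
  simp only [ev] at hx
  simp only [dv]
  linear_combination
    (-27 * x ^ 3 - 54 * (T.B : R) * x ^ 2 - 108 * (T.C : R) * x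
      + (54 * (T.E : R) + 32 * (T.B : R) ^ 3 - 144 * (T.B : R) * (T.C : R))) * hx

lemma dv_r₁_ne_zero : T.dv T.r₁ ≠ 0 := by
  intro h
  have h2 := T.disc_factor T.ev_r₁
  rw [h, zero_pow two_ne_zero, zero_mul] at h2
  have hD : (D : T.CF) ≠ 0 := Nat.cast_ne_zero.mpr T.pos.ne'
  have hs : (T.s : T.CF) ≠ 0 := Int.cast_ne_zero.mpr T.s_ne_zero
  exact mul_ne_zero (neg_ne_zero.mpr hD) (pow_ne_zero 2 (mul_ne_zero two_ne_zero hs)) h2.symm

/-- The two other roots. -/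
def other (e : T.CF) : T.CF :=
  (-(T.r₁ + 2 * (T.B : T.CF)) +
    e * (2 * (T.s : T.CF) * algebraMap T.QF T.CF (AdjoinRoot.root T.quad) / T.dv T.r₁)) / 2

lemma other_quad {e : T.CF} (he : e ^ 2 = 1) :
    T.other e ^ 2 + (T.r₁ + 2 * (T.B : T.CF)) * T.other e +
      (T.r₁ ^ 2 + 2 * (T.B : T.CF) * T.r₁ + 4 * (T.C : T.CF)) = 0 := by
  have hw : (2 * (T.s : T.CF) * algebraMap T.QF T.CF (AdjoinRoot.root T.quad) / T.dv T.r₁) ^ 2 =
      (T.r₁ + 2 * (T.B : T.CF)) ^ 2 -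
        4 * (T.r₁ ^ 2 + 2 * (T.B : T.CF) * T.r₁ + 4 * (T.C : T.CF)) := by
    rw [div_pow, div_eq_iff (pow_ne_zero 2 T.dv_r₁_ne_zero), mul_comm _ (T.dv T.r₁ ^ 2),
      T.disc_factor T.ev_r₁, mul_pow, ← map_pow, T.root_sq, map_neg, map_natCast]
    ring
  unfold other
  linear_combination (1 / 4 : T.CF) * hw +
    (1 / 4 : T.CF) * (2 * (T.s : T.CF) * algebraMap T.QF T.CF (AdjoinRoot.root T.quad) /
      T.dv T.r₁) ^ 2 * he

lemma ev_other {e : T.CF} (he : e ^ 2 = 1) : T.ev (T.other e) = 0 := by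
  have h1 := T.other_quad he
  have h2 := T.ev_r₁
  simp only [ev] at h2 ⊢
  linear_combination (T.other e - T.r₁) * h1 + h2

lemma other_ne {e : T.CF} (he : e ^ 2 = 1) : T.other e ≠ T.r₁ := by
  intro h
  apply T.dv_r₁_ne_zero
  have h1 := T.other_quad he
  rw [h] at h1
  rw [dv]
  linear_combination h1

/-- The automorphism sending the root to another one. -/
def auto (e : T.CF) (he : e ^ 2 = 1) : T.CF ≃ₐ[T.QF] T.CF :=
  AlgEquiv.ofBijective
    (AdjoinRoot.liftAlgHom T.cubic (Algebra.ofId T.QF T.CF) (T.other e) (by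
      have := T.ev_other he
      conv_lhs => arg 3; unfold cubic
      simp only [eval₂_add, eval₂_mul, eval₂_pow, eval₂_X, eval₂_C]
      simp only [map_mul, map_intCast, map_ofNat]
      exact this))
    (AlgHom.bijective _)

lemma auto_r₁ (e : T.CF) (he : e ^ 2 = 1) : T.auto e he T.r₁ = T.other e := by
  simp [auto, r₁]

instance galois_CF : IsGalois T.QF T.CF := by
  classical
  refine IsGalois.of_card_aut_eq_finrank _ _ (le_antisymm ?_ ?_)
  · rw [Nat.card_eq_fintype_card]; exact AlgEquiv.card_le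
  have hs : (T.s : T.CF) ≠ 0 := Int.cast_ne_zero.mpr T.s_ne_zero
  have hδ : algebraMap T.QF T.CF (AdjoinRoot.root T.quad) ≠ 0 := by
    rw [_root_.map_ne_zero]
    intro h
    have := T.root_sq
    rw [h, zero_pow two_ne_zero, zero_eq_neg] at this
    exact Nat.cast_ne_zero.mpr T.pos.ne' this
  have hne : T.other 1 ≠ T.other (-1) := by
    intro h
    unfold other at h
    have h' : 2 * (T.s : T.CF) * algebraMap T.QF T.CF (AdjoinRoot.root T.quad) / T.dv T.r₁ = 0 := by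
      linear_combination h
    exact div_ne_zero (mul_ne_zero (mul_ne_zero two_ne_zero hs) hδ) T.dv_r₁_ne_zero h'
  have n1 : (1 : T.CF ≃ₐ[T.QF] T.CF) ≠ T.auto 1 (one_pow 2) := fun h =>
    T.other_ne (one_pow 2) (by rw [← T.auto_r₁ 1 (one_pow 2), ← h]; rfl)
  have n2 : (1 : T.CF ≃ₐ[T.QF] T.CF) ≠ T.auto (-1) (by ring) := fun h =>
    T.other_ne (e := -1) (by ring) (by rw [← T.auto_r₁ (-1) (by ring), ← h]; rfl)
  have n3 : T.auto 1 (one_pow 2) ≠ T.auto (-1) (by ring) := fun h =>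
    hne (by rw [← T.auto_r₁ 1 (one_pow 2), h, T.auto_r₁])
  rw [T.deg_CF, Nat.card_eq_fintype_card]
  exact (Finset.card_eq_three.mpr ⟨_, _, _, n1, n2, n3, rfl⟩).ge.trans (Finset.card_le_univ _)

lemma natCard_gal : Nat.card (T.CF ≃ₐ[T.QF] T.CF) = 3 := by
  rw [IsGalois.card_aut_eq_finrank, T.deg_CF]

/-- The root in the ring of integers. -/
def y : 𝓞 T.CF :=
  ⟨T.r₁, by
    refine ⟨X ^ 3 + Polynomial.C (2 * T.B) * X ^ 2 + Polynomial.C (4 * T.C) * X +
      Polynomial.C (2 * T.E), by monicity!, ?_⟩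
    simp only [eval₂_add, eval₂_mul, eval₂_pow, eval₂_X, eval₂_C, algebraMap_int_eq,
      Int.coe_castRingHom]
    push_cast
    exact T.ev_r₁⟩

lemma ev_y : T.ev T.y = 0 := RingOfIntegers.coe_injective <| by
  rw [T.map_ev]
  rw [map_zero]; exact T.ev_r₁

lemma ev_smul_y (g : T.CF ≃ₐ[T.QF] T.CF) : T.ev (g • T.y) = 0 := by
  have := congrArg (g • ·) T.ev_y
  simp only [smul_zero] at this
  rw [← this]
  exact (T.map_ev (MulSemiringAction.toRingHom _ (𝓞 T.CF) g) T.y).symm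

lemma eq_one_of_smul_y {g : T.CF ≃ₐ[T.QF] T.CF} (h : g • T.y = T.y) : g = 1 := by
  refine AlgEquiv.coe_toAlgHom_injective (AdjoinRoot.algHom_ext ?_)
  exact congrArg (fun z : 𝓞 T.CF => (z : T.CF)) h

lemma mul_comm_gal (g h : T.CF ≃ₐ[T.QF] T.CF) : g * h = h * g := by
  have : Fact (Nat.Prime 3) := ⟨Nat.prime_three⟩
  have := isCyclic_of_prime_card T.natCard_gal
  let := IsCyclic.commGroup (α := T.CF ≃ₐ[T.QF] T.CF)
  exact mul_comm g h

/-- The generator. -/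
def gen : T.CF ≃ₐ[T.QF] T.CF := T.auto 1 (one_pow 2)

lemma gen_ne_one : T.gen ≠ 1 := fun h => T.other_ne (one_pow 2) (by
  rw [← T.auto_r₁ 1 (one_pow 2)]; exact DFunLike.congr_fun h T.r₁)

lemma mem_zpowers_gen (g : T.CF ≃ₐ[T.QF] T.CF) : g ∈ Subgroup.zpowers T.gen :=
  haveI : Fact (Nat.Prime 3) := ⟨Nat.prime_three⟩
  mem_zpowers_of_prime_card T.natCard_gal T.gen_ne_one

/-- The factorisation at the three conjugates. -/
lemma ev_eq_prod {R : Type} [CommRing R] [IsDomain R] {a b c : R} (ha : T.ev a = 0)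
    (hb : T.ev b = 0) (hc : T.ev c = 0) (hab : a ≠ b) (hbc : b ≠ c) (hca : c ≠ a) (x : R) :
    T.ev x = (x - a) * (x - b) * (x - c) ∧ a + b + c = -(2 * (T.B : R)) ∧
      a * b + b * c + c * a = 4 * (T.C : R) := by
  simp only [ev] at ha hb hc ⊢
  have h1 : a ^ 2 + a * b + b ^ 2 + 2 * (T.B : R) * (a + b) + 4 * (T.C : R) = 0 :=
    (mul_eq_zero.mp (show (a - b) * (a ^ 2 + a * b + b ^ 2 + 2 * (T.B : R) * (a + b)
      + 4 * (T.C : R)) = 0 by linear_combination ha - hb)).resolve_left (sub_ne_zero.mpr hab)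
  have h2 : b ^ 2 + b * c + c ^ 2 + 2 * (T.B : R) * (b + c) + 4 * (T.C : R) = 0 :=
    (mul_eq_zero.mp (show (b - c) * (b ^ 2 + b * c + c ^ 2 + 2 * (T.B : R) * (b + c)
      + 4 * (T.C : R)) = 0 by linear_combination hb - hc)).resolve_left (sub_ne_zero.mpr hbc)
  have h3 : a + b + c + 2 * (T.B : R) = 0 :=
    (mul_eq_zero.mp (show (a - c) * (a + b + c + 2 * (T.B : R)) = 0 by
      linear_combination h1 - h2)).resolve_left (sub_ne_zero.mpr hca.symm)
  refine ⟨?_, by linear_combination h3, by linear_combination (a + b) * h3 - h1⟩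
  linear_combination (x ^ 2 - (a + b) * x + a * b) * h3 + (x - a) * h1 + ha

lemma orbit_facts {τ : T.CF ≃ₐ[T.QF] T.CF} (hτ : τ ≠ 1) :
    τ • T.y ≠ T.y ∧ τ • τ • T.y ≠ τ • T.y ∧ τ • τ • T.y ≠ T.y := by
  refine ⟨fun h => hτ (T.eq_one_of_smul_y h), fun h => hτ (T.eq_one_of_smul_y ?_), fun h => ?_⟩
  · exact MulAction.injective τ h
  · have h2 : τ * τ = 1 := T.eq_one_of_smul_y (by rw [mul_smul]; exact h)
    apply hτ
    have h3 : τ ^ 3 = 1 := by rw [← T.natCard_gal]; exact pow_card_eq_one'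
    rwa [pow_succ, pow_two, h2, one_mul] at h3

/-- A prime containing the difference of two conjugates contains `4Ds²`. -/
lemma disc_mem {Q : Ideal (𝓞 T.CF)} {τ g : T.CF ≃ₐ[T.QF] T.CF} (hτ : τ ≠ 1)
    (h : τ • g • T.y - g • T.y ∈ Q) :
    (D : 𝓞 T.CF) * (2 * (T.s : 𝓞 T.CF)) ^ 2 ∈ Q := by
  obtain ⟨h1, h2, h3⟩ := T.orbit_facts hτ
  have e : ∀ z : T.CF ≃ₐ[T.QF] T.CF, z • g • T.y = g • z • T.y := fun z => by
    rw [smul_smul, smul_smul, T.mul_comm_gal]
  set a := g • T.y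
  set b := τ • g • T.y
  set c := τ • τ • g • T.y
  have ha : T.ev a = 0 := T.ev_smul_y _
  have hb : T.ev b = 0 := by rw [show b = (τ * g) • T.y from (mul_smul _ _ _).symm]; exact T.ev_smul_y _
  have hc : T.ev c = 0 := by
    rw [show c = (τ * τ * g) • T.y by rw [mul_smul, mul_smul]]; exact T.ev_smul_y _
  have hab : a ≠ b := fun h => h1 (MulAction.injective g ((e τ).symm.trans h.symm))
  have hbc : b ≠ c := fun h => hab (MulAction.injective τ h)
  have hca : c ≠ a := fun h => h3 (MulAction.injective g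
    (((by simpa only [mul_smul] using e (τ * τ) : c = g • τ • τ • T.y)).symm.trans h))
  obtain ⟨-, hs, hp⟩ := T.ev_eq_prod ha hb hc hab hbc hca a
  have hdisc := T.disc_factor ha
  have key : (D : 𝓞 T.CF) * (2 * (T.s : 𝓞 T.CF)) ^ 2 =
      (b - a) * (-((a - c) * T.dv a * ((a + 2 * (T.B : 𝓞 T.CF)) ^ 2 -
        4 * (a ^ 2 + 2 * (T.B : 𝓞 T.CF) * a + 4 * (T.C : 𝓞 T.CF))))) * (-1) := by
    have hd : T.dv a = (a - b) * (a - c) := by
      rw [dv]; linear_combination (2 * a) * hs - hp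
    linear_combination hdisc - (T.dv a *
      ((a + 2 * (T.B : 𝓞 T.CF)) ^ 2 - 4 * (a ^ 2 + 2 * (T.B : 𝓞 T.CF) * a + 4 * (T.C : 𝓞 T.CF)))) * hd
  rw [key]
  exact Q.mul_mem_right _ (Q.mul_mem_right _ h)

/-- Inertia is trivial away from `2`. -/
lemma unramified (Q : Ideal (𝓞 T.CF)) (hQ : Q.IsMaximal) (h2 : (2 : 𝓞 T.CF) ∉ Q)
    (τ : T.CF ≃ₐ[T.QF] T.CF) (h : ∀ x : 𝓞 T.CF, τ • x - x ∈ Q) : τ = 1 := by
  by_contra hτ
  have hQp := hQ.isPrime
  obtain ⟨h1, h1', h3⟩ := T.orbit_facts hτ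
  have hd := T.disc_mem (g := 1) hτ (by rw [one_smul]; exact h T.y)
  rw [mul_pow, mul_left_comm] at hd
  have hds : (D : 𝓞 T.CF) * (T.s : 𝓞 T.CF) ^ 2 ∈ Q :=
    (hQp.mem_or_mem hd).resolve_left fun e => h2 (hQp.mem_of_pow_mem 2 e)
  have hb : T.ev (τ • T.y) = 0 := T.ev_smul_y _
  have hc : T.ev (τ • τ • T.y) = 0 := by rw [smul_smul]; exact T.ev_smul_y _
  obtain ⟨-, hs, hp⟩ := T.ev_eq_prod T.ev_y hb hc h1.symm h1'.symm h3 T.y
  have hab : τ • T.y - T.y ∈ Q := h _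
  have hbc : τ • τ • T.y - τ • T.y ∈ Q := h _
  have h8 : (2 : 𝓞 T.CF) ^ 3 * ((T.B : 𝓞 T.CF) ^ 2 - 3 * (T.C : 𝓞 T.CF)) ∈ Q := by
    have e : (2 : 𝓞 T.CF) ^ 3 * ((T.B : 𝓞 T.CF) ^ 2 - 3 * (T.C : 𝓞 T.CF)) =
        (τ • T.y - T.y) * (τ • T.y - T.y) + (τ • τ • T.y - τ • T.y) * (τ • τ • T.y - τ • T.y) +
        (τ • τ • T.y - T.y) * (τ • τ • T.y - T.y) := by
      linear_combination (-2 * (T.y + τ • T.y + τ • τ • T.y) + 4 * (T.B : 𝓞 T.CF)) * hs + 6 * hp
    rw [e]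
    refine add_mem (add_mem (Q.mul_mem_left _ hab) (Q.mul_mem_left _ hbc)) (Q.mul_mem_left _ ?_)
    simpa using add_mem hbc hab
  have hk : (T.B : 𝓞 T.CF) ^ 2 - 3 * (T.C : 𝓞 T.CF) ∈ Q :=
    (hQp.mem_or_mem h8).resolve_left fun e => h2 (hQp.mem_of_pow_mem 3 e)
  obtain ⟨u, v, huv⟩ := T.coprime
  refine hQp.ne_top ((Ideal.eq_top_iff_one _).mpr ?_)
  have := congrArg (Int.cast : ℤ → 𝓞 T.CF) huv
  push_cast at this
  rw [← this]
  exact add_mem (Q.mul_mem_left _ hk) (Q.mul_mem_left _ hds)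

/-- The prime above `2`. -/
def P2 : Ideal (𝓞 T.CF) := span {(2 : 𝓞 T.CF), T.y}

lemma y_cube : T.y ^ 3 =
    2 * -((T.B : 𝓞 T.CF) * T.y ^ 2 + 2 * (T.C : 𝓞 T.CF) * T.y + (T.E : 𝓞 T.CF)) := by
  have := T.ev_y
  simp only [ev] at this
  linear_combination this

lemma P2_pow : T.P2 ^ 3 = span {(2 : 𝓞 T.CF)} := by
  refine le_antisymm ?_ ?_
  · rw [pow_succ, pow_two, P2, span_mul_span', span_mul_span', span_le]
    rintro _ ⟨_, ⟨a, ha, b, hb, rfl⟩, c, hc, rfl⟩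
    simp only [Set.mem_insert_iff, Set.mem_singleton_iff] at ha hb hc
    simp only [SetLike.mem_coe, mem_span_singleton]
    rcases ha with rfl | rfl
    · exact dvd_mul_of_dvd_left (dvd_mul_right _ _) _
    rcases hb with rfl | rfl
    · exact dvd_mul_of_dvd_left (dvd_mul_left _ _) _
    rcases hc with rfl | rfl
    · exact dvd_mul_left _ _
    exact ⟨_, by rw [← pow_two, ← pow_succ]; exact T.y_cube⟩
  · rw [span_singleton_le_iff_mem]
    obtain ⟨j, hj⟩ := Int.not_even_iff_odd.mp fun he => T.odd (even_iff_two_dvd.mp he)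
    have hE : (T.E : 𝓞 T.CF) = 2 * (j : 𝓞 T.CF) + 1 := by rw [hj]; push_cast; ring
    have h2 : (2 : 𝓞 T.CF) ∈ T.P2 := subset_span (Set.mem_insert _ _)
    have hy : T.y ∈ T.P2 := subset_span (Set.mem_insert_of_mem _ rfl)
    have hb : (T.B : 𝓞 T.CF) * T.y ^ 2 + 2 * (T.C : 𝓞 T.CF) * T.y + 2 * (j : 𝓞 T.CF) ∈ T.P2 := by
      refine add_mem (add_mem ?_ ?_) (T.P2.mul_mem_right _ h2)
      · rw [pow_two, ← mul_assoc]; exact T.P2.mul_mem_left _ hy
      · exact T.P2.mul_mem_left _ hy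
    set m := (T.B : 𝓞 T.CF) * T.y ^ 2 + 2 * (T.C : 𝓞 T.CF) * T.y + 2 * (j : 𝓞 T.CF)
    have hy3 : T.y ^ 3 = -(2 * (m + 1)) := by
      rw [T.y_cube, hE]; simp only [m]; ring
    have e : (2 : 𝓞 T.CF) = -(T.y ^ 3 * (1 - m + m ^ 2)) - 2 * m ^ 3 := by rw [hy3]; ring
    rw [e]
    exact sub_mem (neg_mem (Ideal.mul_mem_right _ _ (Ideal.pow_mem_pow hy 3)))
      (Ideal.mul_mem_left _ _ (Ideal.pow_mem_pow hb 3))

lemma tot : (extI (span {(2 : 𝓞 T.QF)}) : Ideal (𝓞 T.CF)) = T.P2 ^ 3 := by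
  rw [T.P2_pow, extI, Ideal.map_span, Set.image_singleton, map_ofNat]

lemma finrank_CF : finrank ℚ T.CF = 6 := by
  rw [← Module.finrank_mul_finrank ℚ T.QF T.CF, T.iq.deg, T.deg_CF]

lemma isMaximal_P2 : T.P2.IsMaximal := by
  have h64 : absNorm T.P2 = 4 := by
    have h := congrArg absNorm T.P2_pow
    rw [map_pow, show (2 : 𝓞 T.CF) = ((2 : ℕ) : 𝓞 T.CF) by norm_num, absNorm_span_natCast,
      RingOfIntegers.rank, T.finrank_CF] at h
    exact Nat.pow_left_injective three_ne_zero (h.trans (by norm_num))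
  obtain ⟨Q, hQ, hle⟩ := exists_le_maximal T.P2 (fun h => by simp [h] at h64)
  have hQ2 : relNorm (𝓞 T.QF) Q ≤ span {(2 : 𝓞 T.QF)} := by
    refine (relNorm_le_comap _ Q).trans ?_
    have hmax : (span {(2 : 𝓞 T.QF)}).IsMaximal :=
      ((span_singleton_prime two_ne_zero).mpr T.iq.prime_two).isMaximal (by simp)
    refine (hmax.eq_of_le (comap_ne_top _ hQ.ne_top) ?_).ge
    rw [span_singleton_le_iff_mem, Ideal.mem_comap, map_ofNat]
    exact hle (subset_span (Set.mem_insert _ _))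
  have h4 := absNorm_dvd_absNorm_of_le hQ2
  rw [absNorm_relNorm, show (2 : 𝓞 T.QF) = ((2 : ℕ) : 𝓞 T.QF) by norm_num, absNorm_span_natCast,
    RingOfIntegers.rank, T.iq.deg] at h4
  obtain ⟨R, hR⟩ := Ideal.dvd_iff_le.mpr hle
  have hR1 : absNorm R = 1 := by
    have h := congrArg absNorm hR
    rw [h64, map_mul] at h
    obtain ⟨k, hk⟩ := h4
    rw [hk] at h
    have : k * absNorm R = 1 := by linarith
    exact Nat.eq_one_of_mul_eq_one_left this
  rw [absNorm_eq_one_iff.mp hR1, mul_top] at hR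
  exact hR ▸ hQ

/-- The cyclic cubic situation. -/
def cyclic : Cyclic3 T.iq T.CF where
  galois := T.galois_CF
  deg := T.deg_CF
  σ := T.gen
  gen := T.mem_zpowers_gen
  P2 := T.P2
  prime := T.isMaximal_P2
  tot := T.tot
  unr := T.unramified

/-- At a prime of degree one where the cubic has a root, the norm from the cubic field is onto. -/
lemma normCls_surj {l : ℕ} (hl : l.Prime) (hlD : ¬ (l : ℤ) ∣ (D : ℤ) * (2 * T.s) ^ 2) {r : ℤ}
    (hr : (l : ℤ) ∣ T.ev r) (P : oddIdeals T.QF) (hP : absNorm (P : Ideal (𝓞 T.QF)) = l) :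
    ∃ A : oddIdeals T.CF, T.cyclic.normCls A = T.iq.cls P := by
  classical
  have hPm : (P : Ideal (𝓞 T.QF)).IsMaximal := T.iq.isMaximal_of_prime_norm hl hP
  have hPp := hPm.isPrime
  obtain ⟨Q, hQle, hQp, hQc⟩ := exists_ideal_over_prime_of_isIntegral
    (P : Ideal (𝓞 T.QF)) (⊥ : Ideal (𝓞 T.CF)) (by
      rw [comap_bot_of_injective _ (FaithfulSMul.algebraMap_injective _ _)]; exact bot_le)
  have hQ : Q.IsMaximal := isMaximal_of_isIntegral_of_isMaximal_comap Q (hQc ▸ hPm)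
  have hlQ : (l : 𝓞 T.CF) ∈ Q := by
    have h : (l : 𝓞 T.QF) ∈ Q.under (𝓞 T.QF) := by
      rw [show Q.under (𝓞 T.QF) = _ from hQc, ← hP]; exact absNorm_mem _
    simpa [Ideal.mem_comap] using h
  have hlZ : ∀ z : ℤ, (l : ℤ) ∣ z → (z : 𝓞 T.CF) ∈ Q := by
    rintro _ ⟨k, rfl⟩
    push_cast
    exact Q.mul_mem_right _ hlQ
  have hQbot : Q ≠ ⊥ := fun h => by
    rw [h, Ideal.mem_bot, Nat.cast_eq_zero] at hlQ; exact hl.ne_zero hlQ
  have : Finite (𝓞 T.CF ⧸ Q) := Ideal.finiteQuotientOfFreeOfNeBot Q hQbot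
  obtain ⟨φ, hφ⟩ := IsArithFrobAt.exists_of_isInvariant (𝓞 T.QF) (T.CF ≃ₐ[T.QF] T.CF) Q
  have hcard : Nat.card (𝓞 T.QF ⧸ Q.under (𝓞 T.QF)) = l := by
    rw [show Q.under (𝓞 T.QF) = _ from hQc, ← Submodule.cardQuot_apply, ← absNorm_apply, hP]
  have hfr : ∀ x : 𝓞 T.CF, φ • x - x ^ l ∈ Q := fun x => by
    have := hφ x
    rwa [hcard] at this
  -- one of the conjugates is congruent to `r`
  obtain ⟨g, hg⟩ : ∃ g : T.CF ≃ₐ[T.QF] T.CF, (r : 𝓞 T.CF) - g • T.y ∈ Q := by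
    obtain ⟨h1, h2, h3⟩ := T.orbit_facts T.gen_ne_one
    obtain ⟨e, -, -⟩ := T.ev_eq_prod T.ev_y (T.ev_smul_y T.gen)
      (show T.ev (T.gen • T.gen • T.y) = 0 by rw [smul_smul]; exact T.ev_smul_y _)
      h1.symm h2.symm h3 (r : 𝓞 T.CF)
    have hev : T.ev (r : 𝓞 T.CF) ∈ Q := by
      have := hlZ _ hr
      rwa [← eq_intCast (Int.castRingHom (𝓞 T.CF)), T.map_ev] at this
    rw [e] at hev
    rcases hQp.mem_or_mem hev with h | h
    · rcases hQp.mem_or_mem h with h | h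
      · exact ⟨1, by rwa [one_smul]⟩
      · exact ⟨_, h⟩
    · exact ⟨T.gen * T.gen, by rwa [mul_smul]⟩
  have hφ1 : φ = 1 := by
    by_contra hne
    have hfix : φ • g • T.y - g • T.y ∈ Q := by
      have h1 := smul_mem_pointwise_smul φ _ _ hg
      have hrl : (r : 𝓞 T.CF) ^ l - (r : 𝓞 T.CF) ∈ Q := by
        have : Fact l.Prime := ⟨hl⟩
        have hd : (l : ℤ) ∣ r ^ l - r := by
          rw [← ZMod.intCast_zmod_eq_zero_iff_dvd, Int.cast_sub, Int.cast_pow, ZMod.pow_card,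
            sub_self]
        simpa using hlZ _ hd
      have hpow : (r : 𝓞 T.CF) ^ l - (g • T.y) ^ l ∈ Q := by
        obtain ⟨k, hk⟩ := sub_dvd_pow_sub_pow (r : 𝓞 T.CF) (g • T.y) l
        rw [hk]; exact Q.mul_mem_right _ hg
      have e : φ • g • T.y - g • T.y = (φ • g • T.y - (g • T.y) ^ l) -
          ((r : 𝓞 T.CF) ^ l - (g • T.y) ^ l) + ((r : 𝓞 T.CF) ^ l - (r : 𝓞 T.CF)) +
          ((r : 𝓞 T.CF) - g • T.y) := by ring
      rw [e]
      exact add_mem (add_mem (sub_mem (hfr _) hpow) hrl) hg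
    have hd := T.disc_mem hne hfix
    obtain ⟨u, v, huv⟩ := (Nat.prime_iff_prime_int.mp hl).coprime_iff_not_dvd.mpr hlD
    refine hQp.ne_top ((Ideal.eq_top_iff_one _).mpr ?_)
    have := congrArg (Int.cast : ℤ → 𝓞 T.CF) huv
    push_cast at this
    rw [← this]
    exact add_mem (Q.mul_mem_left _ hlQ) (Q.mul_mem_left _ hd)
  -- so the residue field has `l` elements
  have hQl : absNorm Q ≤ l := by
    let : Field (𝓞 T.CF ⧸ Q) := Ideal.Quotient.field Q
    let : Fintype (𝓞 T.CF ⧸ Q) := Fintype.ofFinite _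
    rw [absNorm_apply, Submodule.cardQuot_apply, Nat.card_eq_fintype_card]
    set p : (𝓞 T.CF ⧸ Q)[X] := X ^ l - X with hp
    have hp0 : p ≠ 0 := FiniteField.X_pow_card_sub_X_ne_zero _ hl.one_lt
    have hall : (Finset.univ : Finset (𝓞 T.CF ⧸ Q)).val ≤ p.roots := by
      refine (Multiset.le_iff_subset Finset.univ.nodup).mpr fun z _ => ?_
      obtain ⟨x, rfl⟩ := Ideal.Quotient.mk_surjective z
      rw [mem_roots hp0, hp]
      have h := hfr x
      rw [hφ1, one_smul, ← neg_mem_iff, neg_sub, ← Ideal.Quotient.eq, map_pow] at h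
      simp [h]
    calc Fintype.card (𝓞 T.CF ⧸ Q) ≤ Multiset.card p.roots := Multiset.card_le_card hall
      _ ≤ p.natDegree := p.card_roots'
      _ = l := FiniteField.X_pow_card_sub_X_natDegree_eq _ hl.one_lt
  have hle : relNorm (𝓞 T.QF) Q ≤ (P : Ideal (𝓞 T.QF)) := (relNorm_le_comap _ Q).trans hQc.le
  have hQodd : Q ∈ oddIdeals T.CF := by
    rw [mem_oddIdeals, ← absNorm_relNorm (𝓞 T.QF)]
    obtain ⟨k, hk⟩ := absNorm_dvd_absNorm_of_le hle
    rw [hP] at hk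
    rw [absNorm_relNorm] at hk ⊢
    have hk1 : k = 1 := by
      have hpos : absNorm Q ≠ 0 := absNorm_eq_zero_iff.not.mpr hQbot
      rcases k with _ | _ | k
      · simp [hk] at hpos
      · rfl
      · have := hl.pos
        nlinarith
    have := (P : oddIdeals T.QF).2
    rw [mem_oddIdeals, hP] at this
    rwa [hk, hk1, mul_one]
  refine ⟨⟨Q, hQodd⟩, congrArg T.iq.cls (Subtype.ext ?_)⟩
  show relNorm (𝓞 T.QF) Q = (P : Ideal (𝓞 T.QF))
  obtain ⟨R, hR⟩ := Ideal.dvd_iff_le.mpr hle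
  have hk := congrArg absNorm hR
  rw [absNorm_relNorm, map_mul, hP] at hk
  have hR1 : absNorm R = 1 := by
    have hpos : absNorm Q ≠ 0 := absNorm_eq_zero_iff.not.mpr hQbot
    rcases hcR : absNorm R with _ | _ | k
    · rw [hcR, mul_zero] at hk; exact absurd hk hpos
    · rfl
    · rw [hcR] at hk
      have := hl.pos
      nlinarith
  rw [hR, absNorm_eq_one_iff.mp hR1, mul_top]

/-- The character of the situation. -/
theorem exists_character : ∃ c : Ray T.QF →* Multiplicative (ZMod 3), Function.Surjective c ∧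
    ∀ l : ℕ, l.Prime → ¬ (l : ℤ) ∣ (D : ℤ) * (2 * T.s) ^ 2 →
      T.iq.HasDegOne c l → ∀ r : ℤ, ¬ (l : ℤ) ∣ T.ev r := by
  obtain ⟨c, hc, hker⟩ := T.cyclic.exists_character
  refine ⟨c, hc, fun l hl hlD ⟨P, hP, hcP⟩ r hr => hcP ?_⟩
  obtain ⟨A, hA⟩ := T.normCls_surj hl hlD hr P hP
  rw [← hA, hker]

end CubicDatum

end FA.Theta
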