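import Fermat.Agent.Theta.Eigen

/-!
# Doubled forms of odd ideals

`2 N(y) / N(𝔞)` on the whole ideal `𝔞` is a form of determinant `D`; it takes even values and
counts the elements of the lattice of `𝔞` of even relative norm.
-/

set_option autoImplicit false

noncomputable section

open Module NumberField Ideal

namespace FA.Theta

variable {K : Type*} [Field K] [NumberField K]

namespace IQ

variable {D : ℕ} (S : IQ K D)

include S

/-- The doubled form of an odd ideal. -/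
theorem exists_dform (a : oddIdeals K) :
    ∃ (Q : BQF D) (e : ℤ × ℤ →+ 𝓞 K), Function.Injective e ∧
      (∀ x, x ∈ (a : Ideal (𝓞 K)) ↔ ∃ v, e v = x) ∧
      ∀ v, 2 * Algebra.norm ℤ (e v) = Q.val v * (absNorm (a : Ideal (𝓞 K)) : ℤ) := by
  classical
  set I : Ideal (𝓞 K) := (a : Ideal (𝓞 K))
  set N : ℕ := absNorm I with hN
  let bI := Ideal.selfBasis S.basis I (ne_bot_of_odd a.2)
  have hdet := Ideal.natAbs_det_basis_change S.basis I bI
  set b₁ : 𝓞 K := (bI 0 : 𝓞 K) with hb₁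
  set b₂ : 𝓞 K := (bI 1 : 𝓞 K) with hb₂
  set r₁ := S.re b₁
  set i₁ := S.im b₁
  set r₂ := S.re b₂
  set i₂ := S.im b₂
  have hd : (r₁ * i₂ - r₂ * i₁).natAbs = N := by
    refine Eq.trans ?_ hdet
    rw [Basis.det_apply, Matrix.det_fin_two]
    rfl
  have hnorm : ∀ p q : ℤ, Algebra.norm ℤ (p • b₁ + q • b₂) =
      p ^ 2 * (r₁ ^ 2 + r₁ * i₁ + S.e * i₁ ^ 2) +
        p * q * (2 * r₁ * r₂ + r₁ * i₂ + r₂ * i₁ + 2 * S.e * i₁ * i₂) +
        q ^ 2 * (r₂ ^ 2 + r₂ * i₂ + S.e * i₂ ^ 2) := by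
    intro p q
    have : p • b₁ + q • b₂ = S.el (p * r₁ + q * r₂) (p * i₁ + q * i₂) := by
      conv_lhs => rw [← S.el_re_im b₁, ← S.el_re_im b₂]
      simp [el, zsmul_eq_mul, r₁, r₂, i₁, i₂]; ring
    rw [this, S.norm_el]
    ring
  have hdvd : ∀ p q : ℤ, (N : ℤ) ∣ Algebra.norm ℤ (p • b₁ + q • b₂) := fun p q =>
    absNorm_dvd_norm_of_mem (add_mem (zsmul_mem (bI 0).2 _) (zsmul_mem (bI 1).2 _))
  obtain ⟨A, hA⟩ := hdvd 1 0
  obtain ⟨C, hC⟩ := hdvd 0 1
  obtain ⟨B, hB⟩ := hdvd 1 1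
  rw [hnorm] at hA hC hB
  ring_nf at hA hC hB
  have hNz : (N : ℤ) ≠ 0 := by
    exact_mod_cast (Nat.pos_of_ne_zero fun h => by
      have := a.2; rw [mem_oddIdeals] at this; rw [← hN] at *; simp [h] at this).ne'
  have hdetN : (r₁ * i₂ - r₂ * i₁) ^ 2 = (N : ℤ) ^ 2 := by rw [← Int.natAbs_sq, hd]
  have he := S.four_e
  have hdetQ : (2 * A) * (2 * C) - (B - A - C) ^ 2 = (D : ℤ) := by
    refine mul_left_cancel₀ (pow_ne_zero 2 hNz) ?_
    have e1 : (N : ℤ) * A = r₁ ^ 2 + r₁ * i₁ + S.e * i₁ ^ 2 := by rw [← hA]; ring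
    have e2 : (N : ℤ) * C = r₂ ^ 2 + r₂ * i₂ + S.e * i₂ ^ 2 := by rw [← hC]; ring
    have e3 : (N : ℤ) * (B - A - C) = 2 * r₁ * r₂ + r₁ * i₂ + r₂ * i₁ + 2 * S.e * i₁ * i₂ := by
      rw [mul_sub, mul_sub, ← hB, e1, e2]; ring
    calc (N : ℤ) ^ 2 * (2 * A * (2 * C) - (B - A - C) ^ 2)
        = 4 * ((N : ℤ) * A) * ((N : ℤ) * C) - ((N : ℤ) * (B - A - C)) ^ 2 := by ring
      _ = (r₁ * i₂ - r₂ * i₁) ^ 2 * (4 * S.e - 1) := by rw [e1, e2, e3]; ring
      _ = (N : ℤ) ^ 2 * D := by rw [hdetN, he]; ring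
  have hApos : 0 < 2 * A := by
    have hDp : (0 : ℤ) < D := by exact_mod_cast S.pos
    have h0 : 0 ≤ (N : ℤ) * A := by
      rw [← hA]
      have := S.norm_nonneg b₁
      have h1 := hnorm 1 0
      simp only [one_smul, zero_smul, add_zero] at h1
      rw [h1] at this
      linarith
    have hNp : (0 : ℤ) < N := by omega
    have hA0 : 0 ≤ A := nonneg_of_mul_nonneg_right h0 hNp
    rcases hA0.lt_or_eq with h | h
    · linarith
    · rw [← h] at hdetQ; nlinarith [sq_nonneg (B - C)]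
  let e : ℤ × ℤ →+ 𝓞 K :=
    { toFun := fun v => v.1 • b₁ + v.2 • b₂
      map_zero' := by simp
      map_add' := fun v w => by simp [add_smul]; abel }
  refine ⟨⟨2 * A, B - A - C, 2 * C, hApos, hdetQ, S.pos⟩, e, ?_, ?_, ?_⟩
  · rw [injective_iff_map_eq_zero]
    intro v hv
    have h0 : v.1 • bI 0 + v.2 • bI 1 = 0 := Subtype.ext (by simpa [e] using hv)
    have h := Fintype.linearIndependent_iff.mp bI.linearIndependent ![v.1, v.2]
      (by simpa [Fin.sum_univ_two] using h0)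
    exact Prod.ext (by simpa using h 0) (by simpa using h 1)
  · intro x
    refine ⟨fun hx => ?_, ?_⟩
    · have := congrArg (fun z : I => (z : 𝓞 K)) (bI.sum_repr ⟨x, hx⟩)
      simp only [Fin.sum_univ_two, Submodule.coe_add] at this
      exact ⟨(_, _), this⟩
    · rintro ⟨v, rfl⟩
      exact add_mem (zsmul_mem (bI 0).2 _) (zsmul_mem (bI 1).2 _)
  · intro v
    change 2 * Algebra.norm ℤ (v.1 • b₁ + v.2 • b₂) = _
    rw [hnorm]
    simp only [BQF.val, Int.cast_id]
    linear_combination 2 * v.1 ^ 2 * hA + 2 * v.2 ^ 2 * hC +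
      2 * v.1 * v.2 * (hB - hA - hC)

/-- The doubled form. -/
def dform (a : oddIdeals K) : BQF D := (S.exists_dform a).choose

/-- The parametrisation of the ideal. -/
def dparam (a : oddIdeals K) : ℤ × ℤ →+ 𝓞 K := (S.exists_dform a).choose_spec.choose

lemma dparam_injective (a : oddIdeals K) : Function.Injective (S.dparam a) :=
  (S.exists_dform a).choose_spec.choose_spec.1

lemma mem_iff_dparam (a : oddIdeals K) (x : 𝓞 K) :
    x ∈ (a : Ideal (𝓞 K)) ↔ ∃ v, S.dparam a v = x :=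
  (S.exists_dform a).choose_spec.choose_spec.2.1 x

lemma norm_dparam (a : oddIdeals K) (v : ℤ × ℤ) :
    2 * Algebra.norm ℤ (S.dparam a v) = (S.dform a).val v * (absNorm (a : Ideal (𝓞 K)) : ℤ) :=
  (S.exists_dform a).choose_spec.choose_spec.2.2 v

/-- The doubled form takes even values. -/
lemma two_dvd_dform_val (a : oddIdeals K) (v : ℤ × ℤ) : (2 : ℤ) ∣ (S.dform a).val v := by
  have h : (2 : ℤ) ∣ (S.dform a).val v * (absNorm (a : Ideal (𝓞 K)) : ℤ) :=
    ⟨_, (S.norm_dparam a v).symm⟩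
  refine (Int.prime_two.dvd_or_dvd h).resolve_right fun h2 => ?_
  exact (Nat.not_even_iff_odd.mpr a.2) (even_iff_two_dvd.mpr (Int.natCast_dvd_natCast.mp h2))

lemma dform_rep_odd (a : oddIdeals K) {m : ℕ} (hm : Odd m) : (S.dform a).rep m = 0 := by
  rw [BQF.rep, Finset.card_eq_zero, Finset.eq_empty_iff_forall_notMem]
  intro v hv
  rw [Set.Finite.mem_toFinset, Set.mem_ofPred_eq] at hv
  have h := S.two_dvd_dform_val a v
  rw [hv] at h
  obtain ⟨j, rfl⟩ := hm
  omega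

/-- Elements of even relative norm in the lattice are twice elements of the ideal. -/
theorem cnt_two_mul (a : oddIdeals K) (m : ℕ) : S.cnt a (2 * m) = (S.dform a).rep m := by
  have hset : S.cntSet a (2 * m) =
      (fun v => 2 * S.dparam a v) '' {v | (S.dform a).val v = (m : ℤ)} := by
    have hpos : (absNorm (a : Ideal (𝓞 K)) : ℤ) ≠ 0 := by exact_mod_cast (absNorm_pos a).ne'
    have h4 : ∀ y : 𝓞 K, Algebra.norm ℤ (2 * y) = 4 * Algebra.norm ℤ y := fun y => by
      rw [map_mul, show (2 : 𝓞 K) = S.el 2 0 by simp [el], S.norm_el]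
      ring
    ext x
    simp only [cntSet, Set.mem_ofPred_eq, Set.mem_image]
    constructor
    · rintro ⟨⟨hx, -⟩, hn⟩
      obtain ⟨y, rfl⟩ := (S.two_dvd_norm_iff x).mp ⟨(m : ℤ) * absNorm (a : Ideal (𝓞 K)), by
        rw [hn]; push_cast; ring⟩
      have hy : y ∈ (a : Ideal (𝓞 K)) := by
        obtain ⟨k, hk⟩ : ∃ k, absNorm (a : Ideal (𝓞 K)) = 2 * k + 1 := a.2
        have h1 : ((2 * k + 1 : ℕ) : 𝓞 K) * y ∈ (a : Ideal (𝓞 K)) :=
          Ideal.mul_mem_right _ _ (hk ▸ absNorm_mem _)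
        have h2 := sub_mem h1 (Ideal.mul_mem_left _ (k : 𝓞 K) hx)
        convert h2 using 1
        push_cast
        ring
      obtain ⟨v, rfl⟩ := (S.mem_iff_dparam a y).mp hy
      rw [h4] at hn
      refine ⟨v, mul_right_cancel₀ hpos ?_, rfl⟩
      rw [← S.norm_dparam]
      push_cast at hn
      linarith
    · rintro ⟨v, hv, rfl⟩
      refine ⟨⟨Ideal.mul_mem_left _ _ ((S.mem_iff_dparam a _).mpr ⟨v, rfl⟩),
        ((S.two_dvd_iff _).mp (dvd_mul_right _ _)).2⟩, ?_⟩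
      rw [h4]
      have := S.norm_dparam a v
      rw [hv] at this
      push_cast
      linarith
  have hinj : Function.Injective fun v => 2 * S.dparam a v := fun v w h =>
    S.dparam_injective a (mul_left_cancel₀ two_ne_zero h)
  rw [cnt, hset, Set.ncard_image_of_injective _ hinj, BQF.rep,
    Set.ncard_eq_toFinset_card _ ((S.dform a).finite_val_eq m)]

lemma cnt_even_of_odd (a : oddIdeals K) {m : ℕ} (hm : Odd m) : S.cnt a (2 * m) = 0 := by
  rw [cnt_two_mul, S.dform_rep_odd a hm]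

/-- Transport between ideals differing by a principal one. -/
lemma dform_rep_le {a b : oddIdeals K} {α β : 𝓞 K} (hα : α ≠ 0) (hβ : β ≠ 0)
    (h : span {α} * (a : Ideal (𝓞 K)) = span {β} * (b : Ideal (𝓞 K))) (m : ℕ) :
    (S.dform a).rep m ≤ (S.dform b).rep m := by
  have hex : ∀ v, ∃ w, α * S.dparam a v = β * S.dparam b w := fun v => by
    have : α * S.dparam a v ∈ span {β} * (b : Ideal (𝓞 K)) :=
      h ▸ mul_mem_mul (mem_span_singleton_self α) ((S.mem_iff_dparam a _).mpr ⟨v, rfl⟩)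
    obtain ⟨y, hy, hxy⟩ := mem_span_singleton_mul.mp this
    obtain ⟨w, hw⟩ := (S.mem_iff_dparam b y).mp hy
    exact ⟨w, by rw [hw, hxy]⟩
  choose φ hφ using hex
  refine Finset.card_le_card_of_injOn φ (fun v hv => ?_) fun v _ w _ e =>
    S.dparam_injective a (mul_left_cancel₀ hα (by rw [hφ v, hφ w, e]))
  simp only [Finset.mem_coe, Set.Finite.mem_toFinset, Set.mem_ofPred_eq] at hv ⊢
  have e := congrArg (Algebra.norm ℤ) (hφ v)
  have e2 := congrArg (fun I => (absNorm I : ℤ)) h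
  simp only [map_mul, Nat.cast_mul, S.absNorm_span] at e2
  rw [map_mul, map_mul] at e
  have h1 := S.norm_dparam a v
  have h2 := S.norm_dparam b (φ v)
  rw [hv] at h1
  have hne : Algebra.norm ℤ β * (absNorm (b : Ideal (𝓞 K)) : ℤ) ≠ 0 := by
    refine mul_ne_zero (Algebra.norm_ne_zero_iff.mpr hβ) ?_
    exact_mod_cast (absNorm_pos b).ne'
  refine mul_left_cancel₀ hne ?_
  linear_combination (-Algebra.norm ℤ β) * h2 + Algebra.norm ℤ α * h1 + (-2 : ℤ) * e + (m : ℤ) * e2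

/-- Invariance of the counts of even norm under principal ideals. -/
theorem cnt_mul_oddSpan (a : oddIdeals K) (x : 𝓞 K) (hx : ¬ (2 : 𝓞 K) ∣ x) (m : ℕ) :
    S.cnt (a * S.oddSpan x hx) (2 * m) = S.cnt a (2 * m) := by
  have hx0 : x ≠ 0 := fun h => hx (h ▸ dvd_zero _)
  rw [cnt_two_mul, cnt_two_mul]
  refine le_antisymm (S.dform_rep_le one_ne_zero hx0 ?_ m) (S.dform_rep_le hx0 one_ne_zero ?_ m) <;>
    simp [oddSpan, Ideal.span_singleton_one, mul_comm]

/-- The Gauss sums of the doubled forms are unchanged under squares of ideals prime to `n`. -/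
theorem dgauss_mul_sq (a b : oddIdeals K) (n : ℕ) [NeZero n]
    (hb : (absNorm (b : Ideal (𝓞 K))).Coprime n) (u : ZMod n) :
    (S.dform (a * (b * b))).gauss n u 0 = (S.dform a).gauss n u 0 := by
  have hex : ∀ v, ∃ w, S.dparam (a * (b * b)) v = S.dparam a w := fun v => by
    obtain ⟨w, hw⟩ := (S.mem_iff_dparam a _).mp
      (Ideal.mul_le_left ((S.mem_iff_dparam (a * (b * b)) _).mpr ⟨v, rfl⟩))
    exact ⟨w, hw.symm⟩
  choose φ hφ using hex
  have huniq : ∀ v w, S.dparam (a * (b * b)) v = S.dparam a w → φ v = w := fun v w h =>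
    S.dparam_injective a ((hφ v).symm.trans h)
  let φ' : ℤ × ℤ →+ ℤ × ℤ :=
    { toFun := φ
      map_zero' := huniq _ _ (by simp)
      map_add' := fun v w => huniq _ _ (by rw [map_add, map_add, hφ, hφ]) }
  refine BQF.gauss_eq_of_map _ _ φ' (m := (absNorm (b : Ideal (𝓞 K)) : ℤ)) (fun v => ?_) ?_ u
  · have e := congrArg (fun z => 2 * Algebra.norm ℤ z) (hφ v)
    rw [S.norm_dparam, S.norm_dparam] at e
    simp only [Submonoid.coe_mul, map_mul, Nat.cast_mul] at e
    refine mul_right_cancel₀ (b := (absNorm (a : Ideal (𝓞 K)) : ℤ))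
      (by exact_mod_cast (absNorm_pos a).ne') ?_
    show (S.dform a).val (φ v) * _ = _
    linear_combination -e
  · rw [Int.cast_natCast, ZMod.isUnit_iff_coprime]
    exact hb

/-- The doubled forms of a class. -/
theorem dgauss_congr {a b : oddIdeals K} {α β : 𝓞 K} (hβ : β ≠ 0)
    (h : span {α} * (a : Ideal (𝓞 K)) = span {β} * (b : Ideal (𝓞 K))) (n : ℕ) [NeZero n]
    (u : ZMod n) : (S.dform a).gauss n u 0 = (S.dform b).gauss n u 0 := by
  have hex : ∀ v, ∃ w, α * S.dparam a v = β * S.dparam b w := fun v => by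
    have : α * S.dparam a v ∈ span {β} * (b : Ideal (𝓞 K)) :=
      h ▸ mul_mem_mul (mem_span_singleton_self α) ((S.mem_iff_dparam a _).mpr ⟨v, rfl⟩)
    obtain ⟨y, hy, hxy⟩ := mem_span_singleton_mul.mp this
    obtain ⟨w, hw⟩ := (S.mem_iff_dparam b y).mp hy
    exact ⟨w, by rw [hw, hxy]⟩
  choose φ hφ using hex
  have huniq : ∀ v w, α * S.dparam a v = β * S.dparam b w → φ v = w := fun v w e =>
    S.dparam_injective b (mul_left_cancel₀ hβ ((hφ v).symm.trans e))
  let φ' : ℤ × ℤ →+ ℤ × ℤ :=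
    { toFun := φ
      map_zero' := huniq _ _ (by simp)
      map_add' := fun v w => huniq _ _ (by rw [map_add, map_add, mul_add, mul_add, hφ, hφ]) }
  refine BQF.gauss_eq_of_map _ _ φ' (m := 1) (fun v => ?_) (by simp) u
  have e := congrArg (Algebra.norm ℤ) (hφ v)
  have e2 := congrArg (fun I => (absNorm I : ℤ)) h
  simp only [map_mul, Nat.cast_mul, S.absNorm_span] at e2
  rw [map_mul, map_mul] at e
  have h1 := S.norm_dparam a v
  have h2 := S.norm_dparam b (φ v)
  have hne : Algebra.norm ℤ β * (absNorm (b : Ideal (𝓞 K)) : ℤ) ≠ 0 := by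
    refine mul_ne_zero (Algebra.norm_ne_zero_iff.mpr hβ) ?_
    exact_mod_cast (absNorm_pos b).ne'
  refine mul_left_cancel₀ hne ?_
  show _ * (S.dform b).val (φ v) = _
  linear_combination (-Algebra.norm ℤ β) * h2 + Algebra.norm ℤ α * h1 + (-2 : ℤ) * e +
    (S.dform a).val v * e2

lemma dgauss_rep_sq (g : Ray K) (b : oddIdeals K) (n : ℕ) [NeZero n]
    (hb : (absNorm (b : Ideal (𝓞 K))).Coprime n) (u : ZMod n) :
    (S.dform (S.rep (g * (S.cls b * S.cls b)))).gauss n u 0 =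
      (S.dform (S.rep g)).gauss n u 0 := by
  rw [← S.dgauss_mul_sq (S.rep g) b n hb u]
  obtain ⟨α, β, hα, hβ, h⟩ := S.cls_eq_iff.mp
    (show S.cls (S.rep (g * (S.cls b * S.cls b))) = S.cls (S.rep g * (b * b)) by simp [cls_rep])
  exact S.dgauss_congr (by rintro rfl; exact S.not_dvd_of_oneMod2 hβ (dvd_zero _)) h n u

end IQ

end FA.Theta
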