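import Fermat.Agent.Theta.QForm

/-!
# Poisson summation for a binary positive form
-/

set_option autoImplicit false

noncomputable section

open Complex Real
open scoped Real

namespace FA.Theta

/-- `e(z) = exp(2πiz)`. -/
def ex (z : ℂ) : ℂ := Complex.exp (2 * π * I * z)

lemma ex_add (z w : ℂ) : ex (z + w) = ex z * ex w := by
  rw [ex, ex, ex, mul_add, Complex.exp_add]

lemma ex_intCast (n : ℤ) : ex (n : ℂ) = 1 := by
  rw [ex, mul_comm]; exact Complex.exp_int_mul_two_pi_mul_I n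

lemma norm_ex (z : ℂ) : ‖ex z‖ = Real.exp (-(2 * π * z.im)) := by
  rw [ex, Complex.norm_exp]
  congr 1
  simp

lemma summable_gauss {k : ℝ} (hk : 0 < k) (t : ℝ) :
    Summable fun n : ℤ => Real.exp (-k * ((n : ℝ) + t) ^ 2) := by
  have h0 : Summable fun n : ℤ => Real.exp (-(k / 2) * (n : ℝ) ^ 2) := by
    have h := ((summable_jacobiTheta₂_term_iff (0 : ℂ) ((k / 2 / π : ℝ) * I)).mpr
      (by simp; positivity)).norm
    refine h.congr fun n => ?_
    rw [norm_jacobiTheta₂_term]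
    congr 1
    simp
    field_simp
  refine Summable.of_nonneg_of_le (fun n => (Real.exp_pos _).le) (fun n => ?_)
    (h0.mul_left (Real.exp (k * t ^ 2)))
  rw [← Real.exp_add]
  apply Real.exp_le_exp.mpr
  nlinarith [mul_nonneg hk.le (sq_nonneg ((n : ℝ) + 2 * t))]

lemma summable_gauss_prod {k l : ℝ} (hk : 0 < k) (hl : 0 < l) (s t : ℝ) :
    Summable fun v : ℤ × ℤ =>
      Real.exp (-k * ((v.1 : ℝ) + s) ^ 2) * Real.exp (-l * ((v.2 : ℝ) + t) ^ 2) :=
  (summable_gauss hk s).mul_of_nonneg (summable_gauss hl t) (fun _ => (Real.exp_pos _).le)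
    fun _ => (Real.exp_pos _).le

/-- The shifted, twisted Gaussian sum. -/
theorem gauss_poisson {a : ℂ} (ha : 0 < a.re) (t u : ℂ) :
    ∑' n : ℤ, cexp (-π * a * ((n : ℂ) + t) ^ 2 + 2 * π * I * u * ((n : ℂ) + t)) =
      1 / a ^ (1 / 2 : ℂ) * ∑' m : ℤ, cexp (-π / a * ((m : ℂ) - u) ^ 2 + 2 * π * I * m * t) := by
  have ha0 : a ≠ 0 := fun h => by simp [h] at ha
  have h := Complex.tsum_exp_neg_quadratic ha (-a * t + I * u)
  calc ∑' n : ℤ, cexp (-π * a * ((n : ℂ) + t) ^ 2 + 2 * π * I * u * ((n : ℂ) + t))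
      = cexp (-π * a * t ^ 2 + 2 * π * I * u * t) *
          ∑' n : ℤ, cexp (-π * a * (n : ℂ) ^ 2 + 2 * π * (-a * t + I * u) * n) := by
        rw [← tsum_mul_left]
        refine tsum_congr fun n => ?_
        rw [← Complex.exp_add]
        congr 1
        ring
    _ = _ := by
        rw [h, mul_left_comm, ← tsum_mul_left]
        congr 1
        refine tsum_congr fun n => ?_
        rw [← Complex.exp_add]
        congr 1
        field_simp
        linear_combination (2 * a * t * u * I - a ^ 2 * t ^ 2 - 2 * u * n + u ^ 2 * (1 - I ^ 2)) * I_sq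

namespace BQF

variable {D : ℕ} (Q : BQF D)

lemma summable_val {z : ℂ} (hz : 0 < z.im) (s : ℝ × ℝ) :
    Summable fun v : ℤ × ℤ => ex (z * Q.val ((v.1 : ℂ) + s.1, (v.2 : ℂ) + s.2)) := by
  have hS := Q.sum_pos
  have hD : (0 : ℝ) < (D : ℝ) := by exact_mod_cast Q.D_pos
  set δ : ℝ := D / ((Q.a : ℝ) + Q.c) with hδ
  have hk : 0 < 2 * π * z.im * δ := by positivity
  refine Summable.of_norm_bounded (summable_gauss_prod hk hk s.1 s.2) fun v => ?_
  set w : ℝ × ℝ := ((v.1 : ℝ) + s.1, (v.2 : ℝ) + s.2) with hw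
  have hcast : Q.val ((v.1 : ℂ) + s.1, (v.2 : ℂ) + s.2) = ((Q.val w : ℝ) : ℂ) := by
    simp [val, hw]
  rw [hcast, norm_ex, Complex.im_mul_ofReal, ← Real.exp_add]
  apply Real.exp_le_exp.mpr
  have hlb : δ * (w.1 ^ 2 + w.2 ^ 2) ≤ Q.val w := by
    rw [hδ, div_mul_eq_mul_div, div_le_iff₀ hS, mul_comm (Q.val w)]
    exact Q.lower_bound w
  have := mul_le_mul_of_nonneg_left hlb (show 0 ≤ 2 * π * z.im by positivity)
  simp only [hw] at this ⊢
  linarith

/-- Poisson summation for `Q`. -/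
theorem poisson {z : ℂ} (hz : 0 < z.im) (s : ℝ × ℝ) :
    ∑' v : ℤ × ℤ, ex (z * Q.val ((v.1 : ℂ) + s.1, (v.2 : ℂ) + s.2)) =
      I / (2 * z * (Real.sqrt D : ℝ)) *
        ∑' w : ℤ × ℤ, ex (-(Q.adj.val ((w.1 : ℂ), (w.2 : ℂ))) / (4 * D * z) +
          ((w.1 : ℂ) * s.1 + (w.2 : ℂ) * s.2)) := by
  have hA : (0 : ℝ) < (Q.a : ℝ) := by exact_mod_cast Q.pos
  have hD : (0 : ℝ) < (D : ℝ) := by exact_mod_cast Q.D_pos
  have hz0 : z ≠ 0 := fun h => by simp [h] at hz
  have hdet := Q.det_cast (R := ℂ)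
  set r : ℝ := (D : ℝ) / (Q.a : ℝ) ^ 2 with hr
  have hr0 : 0 < r := by positivity
  set a₁ : ℂ := -2 * I * z * (Q.a : ℂ) with ha₁
  set a₂ : ℂ := a₁ * (r : ℂ) with ha₂
  have hre₁ : 0 < a₁.re := by simp [ha₁]; positivity
  have hre₂ : 0 < a₂.re := by simp [ha₂]; positivity
  have hne₁ : a₁ ≠ 0 := fun h => by simp [h] at hre₁
  have hA0 : (Q.a : ℂ) ≠ 0 := by exact_mod_cast Q.pos.ne'
  have hD0 : (D : ℂ) ≠ 0 := by exact_mod_cast Q.D_pos.ne'
  set c : ℝ := (Q.b : ℝ) / (Q.a : ℝ) with hc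
  -- the intermediate double series
  let G : ℤ → ℤ → ℂ := fun y n =>
    cexp (-π / a₁ * (n : ℂ) ^ 2 + 2 * π * I * n * s.1) *
      cexp (-π * a₂ * ((y : ℂ) + s.2) ^ 2 + 2 * π * I * ((n : ℂ) * c) * ((y : ℂ) + s.2))
  have hinv : 0 < (1 / a₁).re := by
    rw [one_div, Complex.inv_re]
    exact div_pos hre₁ (Complex.normSq_pos.mpr hne₁)
  have hG : Summable (Function.uncurry G) := by
    refine Summable.of_norm_bounded (summable_gauss_prod (mul_pos Real.pi_pos hre₂)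
      (mul_pos Real.pi_pos hinv) s.2 0) fun v => le_of_eq ?_
    simp only [G, Function.uncurry, norm_mul, Complex.norm_exp]
    rw [mul_comm]
    congr 2 <;> simp [sq, Complex.mul_re, Complex.div_re, Complex.inv_re] <;> ring
  have hxsum : ∀ y : ℤ, ∑' x : ℤ, ex (z * Q.val ((x : ℂ) + s.1, (y : ℂ) + s.2)) =
      1 / a₁ ^ (1 / 2 : ℂ) * ∑' n : ℤ, G y n := by
    intro y
    set y' : ℂ := (y : ℂ) + s.2 with hy'
    have h := gauss_poisson hre₁ ((s.1 : ℂ) + (c : ℂ) * y') 0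
    calc ∑' x : ℤ, ex (z * Q.val ((x : ℂ) + s.1, y'))
        = cexp (-π * a₂ * y' ^ 2) * ∑' x : ℤ, cexp (-π * a₁ *
            ((x : ℂ) + ((s.1 : ℂ) + (c : ℂ) * y')) ^ 2 + 2 * π * I * 0 * ((x : ℂ) +
              ((s.1 : ℂ) + (c : ℂ) * y'))) := by
          rw [← tsum_mul_left]
          refine tsum_congr fun x => ?_
          rw [← Complex.exp_add, ex]
          congr 1
          simp only [val, ha₂, ha₁, hr, hc]
          push_cast
          field_simp
          linear_combination (z * y' ^ 2) * hdet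
      _ = _ := by
          rw [h, mul_left_comm, ← tsum_mul_left]
          congr 1
          refine tsum_congr fun n => ?_
          simp only [G, hy']
          rw [← Complex.exp_add, ← Complex.exp_add]
          congr 1
          ring
  have hysum : ∀ n : ℤ, ∑' y : ℤ, G y n = cexp (-π / a₁ * (n : ℂ) ^ 2 + 2 * π * I * n * s.1) *
      (1 / a₂ ^ (1 / 2 : ℂ) *
        ∑' m : ℤ, cexp (-π / a₂ * ((m : ℂ) - (n : ℂ) * c) ^ 2 + 2 * π * I * m * s.2)) := fun n => by
    rw [← gauss_poisson hre₂]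
    exact tsum_mul_left
  have hsummand : ∀ n m : ℤ,
      cexp (-π / a₁ * (n : ℂ) ^ 2 + 2 * π * I * n * s.1) *
        cexp (-π / a₂ * ((m : ℂ) - (n : ℂ) * c) ^ 2 + 2 * π * I * m * s.2) =
      ex (-(Q.adj.val ((n : ℂ), (m : ℂ))) / (4 * D * z) + ((n : ℂ) * s.1 + (m : ℂ) * s.2)) := by
    intro n m
    rw [← Complex.exp_add, ex]
    congr 1
    simp only [val_adj, ha₂, ha₁, hr, hc]
    push_cast
    field_simp
    ring_nf
    simp only [I_sq]
    linear_combination (-4 * (n : ℂ) ^ 2) * hdet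
  have hw : Summable fun w : ℤ × ℤ =>
      ex (-(Q.adj.val ((w.1 : ℂ), (w.2 : ℂ))) / (4 * D * z) + ((w.1 : ℂ) * s.1 + (w.2 : ℂ) * s.2)) := by
    have him : 0 < (-1 / (4 * (D : ℂ) * z)).im := by
      rw [neg_div, Complex.neg_im, one_div, Complex.inv_im, neg_div, neg_neg]
      refine div_pos ?_ (Complex.normSq_pos.mpr (by simp [hD0, hz0]))
      simp
      positivity
    refine Summable.of_norm_bounded (Q.adj.summable_val him (0, 0)).norm fun w => le_of_eq ?_
    rw [norm_ex, norm_ex]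
    simp [div_eq_mul_inv, mul_comm]
  calc ∑' v : ℤ × ℤ, ex (z * Q.val ((v.1 : ℂ) + s.1, (v.2 : ℂ) + s.2))
      = ∑' y : ℤ, ∑' x : ℤ, ex (z * Q.val ((x : ℂ) + s.1, (y : ℂ) + s.2)) := by
        rw [(Q.summable_val hz s).tsum_prod]
        exact Summable.tsum_comm (Q.summable_val hz s) |>.symm
    _ = 1 / a₁ ^ (1 / 2 : ℂ) * ∑' n : ℤ, ∑' y : ℤ, G y n := by
        simp only [hxsum, tsum_mul_left]
        rw [Summable.tsum_comm hG]
    _ = 1 / a₁ ^ (1 / 2 : ℂ) * (1 / a₂ ^ (1 / 2 : ℂ)) * ∑' n : ℤ, ∑' m : ℤ,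
          ex (-(Q.adj.val ((n : ℂ), (m : ℂ))) / (4 * D * z) + ((n : ℂ) * s.1 + (m : ℂ) * s.2)) := by
        rw [tsum_congr hysum, mul_assoc (1 / a₁ ^ (1 / 2 : ℂ)), ← tsum_mul_left (a := 1 / a₂ ^ (1 / 2 : ℂ))]
        congr 1
        refine tsum_congr fun n => ?_
        rw [mul_left_comm, ← tsum_mul_left]
        simp only [hsummand]
    _ = _ := by
        rw [← hw.tsum_prod]
        congr 1
        have e : a₂ ^ (1 / 2 : ℂ) = a₁ ^ (1 / 2 : ℂ) * (Real.sqrt r : ℝ) := by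
          have hr' : (r : ℂ) ≠ 0 := by exact_mod_cast hr0.ne'
          rw [ha₂, mul_comm a₁, Complex.cpow_def_of_ne_zero (mul_ne_zero hr' hne₁),
            Complex.cpow_def_of_ne_zero hne₁, Complex.log_ofReal_mul hr0 hne₁, add_mul,
            Complex.exp_add, mul_comm, Real.sqrt_eq_rpow, Real.rpow_def_of_pos hr0,
            Complex.ofReal_exp]
          simp
        have e2 : a₁ ^ (1 / 2 : ℂ) * a₁ ^ (1 / 2 : ℂ) = a₁ := by
          rw [← Complex.cpow_add _ _ hne₁]; norm_num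
        have e3 : Real.sqrt r = Real.sqrt D / (Q.a : ℝ) := by
          rw [hr, Real.sqrt_div' _ (sq_nonneg _), Real.sqrt_sq hA.le]
        rw [one_div_mul_one_div, e, ← mul_assoc, e2, e3, ha₁]
        have : (Real.sqrt (D : ℝ) : ℂ) ≠ 0 := by exact_mod_cast (Real.sqrt_pos.mpr hD).ne'
        push_cast
        field_simp
        simp [I_sq]

end BQF

end FA.Theta
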