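import Mathlib

/-!
# The ring of integers of an imaginary quadratic field in which `2` is inert

`K` is given by a square root `δ` of `-D` with `D ≡ 3 (mod 8)` squarefree, `3 < D`.
-/

set_option autoImplicit false

noncomputable section

open Module NumberField

namespace FA.Theta

/-- `K = ℚ(δ)`, `δ ^ 2 = -D`. -/
structure IQ (K : Type*) [Field K] [NumberField K] (D : ℕ) where
  /-- the square root of `-D` -/
  δ : 𝓞 K
  sq : δ ^ 2 = -(D : 𝓞 K)
  deg : finrank ℚ K = 2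
  sqfree : Squarefree D
  mod8 : D % 8 = 3
  gt : 3 < D

/-- `D (p/q)^2` is integral for squarefree `D` only if `q = 1`. -/
lemma den_eq_one_of_sq {D : ℕ} (hD : Squarefree D) {r : ℚ} {m : ℤ} (h : (D : ℚ) * r ^ 2 = m) :
    r.den = 1 := by
  have hz : (D : ℤ) * r.num ^ 2 = m * (r.den : ℤ) ^ 2 := by
    have hq : (D : ℚ) * (r.num : ℚ) ^ 2 = m * (r.den : ℚ) ^ 2 := by
      rw [← h, ← Rat.mul_den_eq_num r]
      ring
    exact_mod_cast hq
  have hco : IsCoprime ((r.den : ℤ) ^ 2) (r.num ^ 2) :=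
    (Int.isCoprime_iff_nat_coprime.mpr (by simpa using r.reduced.symm)).pow
  have : r.den * r.den ∣ D := by
    have : ((r.den : ℤ) ^ 2) ∣ (D : ℤ) :=
      hco.dvd_of_dvd_mul_right (hz ▸ dvd_mul_left _ _)
    rw [← sq]
    exact_mod_cast this
  exact Nat.isUnit_iff.mp (hD _ this)

namespace IQ

variable {K : Type*} [Field K] [NumberField K] {D : ℕ} (S : IQ K D)

include S

lemma pos : 0 < D := by have := S.gt; omega

lemma sqK : (S.δ : K) ^ 2 = -(D : K) := by
  have := congrArg (fun z : 𝓞 K => (z : K)) S.sq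
  simpa using this

lemma delta_ne_rat (r : ℚ) : (S.δ : K) ≠ algebraMap ℚ K r := by
  intro h
  have h2 := S.sqK
  rw [h, ← map_pow, ← map_natCast (algebraMap ℚ K), ← map_neg] at h2
  have := (algebraMap ℚ K).injective h2
  have : (0 : ℚ) < D := by exact_mod_cast S.pos
  nlinarith [sq_nonneg r]

lemma indepQ : LinearIndependent ℚ ![(1 : K), (S.δ : K)] := by
  rw [LinearIndependent.pair_iff' one_ne_zero]
  intro r h
  exact S.delta_ne_rat r (by rw [← h, Algebra.smul_def, mul_one])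

/-- The rational basis `1, δ`. -/
def qBasis : Basis (Fin 2) ℚ K :=
  basisOfLinearIndependentOfCardEqFinrank S.indepQ (by simp [S.deg])

lemma qBasis_apply (i : Fin 2) : S.qBasis i = ![(1 : K), (S.δ : K)] i := by
  simp [qBasis]

lemma exists_coords (x : K) : ∃ u v : ℚ, x = algebraMap ℚ K u + algebraMap ℚ K v * S.δ :=
  ⟨S.qBasis.repr x 0, S.qBasis.repr x 1, by
    conv_lhs => rw [← S.qBasis.sum_repr x]
    simp [Fin.sum_univ_two, qBasis_apply, Algebra.smul_def]⟩

lemma trace_delta : Algebra.trace ℚ K (S.δ : K) = 0 := by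
  have e0 : (S.δ : K) * S.qBasis 0 = S.qBasis 1 := by simp [qBasis_apply]
  have e1 : (S.δ : K) * S.qBasis 1 = (-(D : ℚ)) • S.qBasis 0 := by
    simp [qBasis_apply, Algebra.smul_def]
    rw [← pow_two]; exact S.sqK
  rw [Algebra.trace_eq_matrix_trace S.qBasis, Matrix.trace_fin_two,
    Algebra.leftMulMatrix_eq_repr_mul, Algebra.leftMulMatrix_eq_repr_mul, e0, e1, map_smul]
  simp

lemma exists_int_coords (x : 𝓞 K) : ∃ m n : ℤ, (2 : 𝓞 K) * x = m + n * S.δ ∧ (2 : ℤ) ∣ m - n := by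
  obtain ⟨u, v, h⟩ := S.exists_coords (x : K)
  have ht : Algebra.trace ℚ K (x : K) = 2 * u := by
    rw [h, map_add, Algebra.trace_algebraMap, S.deg, ← Algebra.smul_def, map_smul, S.trace_delta,
      smul_zero, add_zero]
    simp
  obtain ⟨t, htt⟩ := IsIntegrallyClosed.isIntegral_iff.mp
    (ht ▸ Algebra.isIntegral_trace (x.2) : IsIntegral ℤ (2 * u))
  rw [eq_intCast] at htt
  have hy : (((2 : 𝓞 K) * x - t : 𝓞 K) : K) = algebraMap ℚ K (2 * v) * S.δ := by
    simp only [RingOfIntegers.coe_eq_algebraMap] at h ⊢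
    simp only [map_sub, map_mul, map_intCast, map_ofNat]
    rw [h, ← map_intCast (algebraMap ℚ K) t, htt]
    simp only [map_mul, map_ofNat]
    ring
  have hint : IsIntegral ℤ (-(D : ℚ) * (2 * v) ^ 2) := by
    rw [← isIntegral_algebraMap_iff (algebraMap ℚ K).injective]
    have : IsIntegral ℤ ((((2 : 𝓞 K) * x - t : 𝓞 K) : K) ^ 2) :=
      (RingOfIntegers.isIntegral_coe _).pow 2
    rw [hy, mul_pow, S.sqK] at this
    convert this using 1
    simp [mul_comm]
  obtain ⟨m, hm⟩ := IsIntegrallyClosed.isIntegral_iff.mp hint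
  rw [eq_intCast] at hm
  have hden := den_eq_one_of_sq S.sqfree (r := 2 * v) (m := -m) (by push_cast; linarith)
  have hv : (((2 * v).num : ℤ) : ℚ) = 2 * v := Rat.coe_int_num_of_den_eq_one hden
  set n : ℤ := (2 * v).num
  have heq : (2 : 𝓞 K) * x = t + n * S.δ := by
    apply RingOfIntegers.coe_injective
    simp only [RingOfIntegers.coe_eq_algebraMap] at h ⊢
    simp only [map_add, map_mul, map_intCast, map_ofNat]
    rw [h, ← map_intCast (algebraMap ℚ K) t, htt, ← map_intCast (algebraMap ℚ K) n, hv]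
    simp only [map_mul, map_ofNat]
    ring
  refine ⟨t, n, heq, ?_⟩
  -- `4 ∣ t² + D n²`
  have h4 : IsIntegral ℤ ((((t ^ 2 + D * n ^ 2 : ℤ)) : ℚ) / 4) := by
    rw [← isIntegral_algebraMap_iff (algebraMap ℚ K).injective]
    have hx : IsIntegral ℤ ((x : K) * ((t : K) - (x : K))) := x.2.mul ((isIntegral_algebraMap (x := t)).sub x.2)
    convert hx using 1
    have e := congrArg (fun z : 𝓞 K => (z : K)) heq
    simp only [RingOfIntegers.coe_eq_algebraMap, map_add, map_sub, map_mul, map_pow, map_intCast, map_natCast, map_ofNat, map_one, map_zero] at e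
    have e2 := S.sqK
    simp only [RingOfIntegers.coe_eq_algebraMap] at e2 ⊢
    simp only [map_div₀, map_intCast, map_ofNat]
    push_cast
    field_simp
    linear_combination (2 * (x : K) - t + n * S.δ) * e + (n : K) ^ 2 * e2
  obtain ⟨k, hk⟩ := IsIntegrallyClosed.isIntegral_iff.mp h4
  rw [eq_intCast, eq_div_iff (by norm_num : (4 : ℚ) ≠ 0)] at hk
  have hk' : k * 4 = t ^ 2 + D * n ^ 2 := by exact_mod_cast hk
  have hD2 : ∃ e : ℤ, (D : ℤ) = 8 * e + 3 := ⟨(D / 8 : ℕ), by have := S.mod8; omega⟩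
  obtain ⟨e, he⟩ := hD2
  rcases Int.even_or_odd t with ⟨a, rfl⟩ | ⟨a, rfl⟩ <;>
    rcases Int.even_or_odd n with ⟨b, hb⟩ | ⟨b, hb⟩ <;> rw [hb] at hk' ⊢ <;> rw [he] at hk'
  · exact ⟨a - b, by ring⟩
  · exfalso; ring_nf at hk'; omega
  · exfalso; ring_nf at hk'; omega
  · exact ⟨a - b, by ring⟩

/-- `ω = (1 + δ) / 2`. -/
lemma exists_omega : ∃ w : 𝓞 K, 2 * w = 1 + S.δ := by
  obtain ⟨e, he⟩ : ∃ e : ℕ, D + 1 = 4 * e := ⟨(D + 1) / 4, by have := S.mod8; omega⟩
  have hint : IsIntegral ℤ ((1 + (S.δ : K)) / 2) := by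
    refine ⟨Polynomial.X ^ 2 + Polynomial.C (-1) * Polynomial.X + Polynomial.C (e : ℤ),
      by monicity!, ?_⟩
    have he' : (D : K) + 1 = 4 * (e : K) := by exact_mod_cast congrArg (Nat.cast (R := K)) he
    have := S.sqK
    simp
    field_simp
    linear_combination this - he'
  obtain ⟨w, hw⟩ : ∃ w : 𝓞 K, (w : K) = (1 + (S.δ : K)) / 2 := ⟨⟨_, hint⟩, rfl⟩
  refine ⟨w, RingOfIntegers.coe_injective ?_⟩
  simp only [RingOfIntegers.coe_eq_algebraMap] at hw
  rw [map_mul, map_add, map_ofNat, map_one, hw]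
  field_simp

/-- `ω = (1 + δ) / 2`. -/
def ω : 𝓞 K := S.exists_omega.choose

lemma two_omega : 2 * S.ω = 1 + S.δ := S.exists_omega.choose_spec

/-- `(D + 1) / 4`. -/
def e (_ : IQ K D) : ℤ := ((D + 1) / 4 : ℕ)

lemma four_e : 4 * S.e = (D : ℤ) + 1 := by
  have := S.mod8
  simp only [e]
  omega

lemma e_odd : Odd S.e := by
  have := S.mod8
  have := S.four_e
  rw [Int.odd_iff]
  omega

lemma omega_sq : S.ω ^ 2 = S.ω - (S.e : 𝓞 K) := by
  have h : (4 : 𝓞 K) * (S.ω ^ 2) = 4 * (S.ω - (S.e : 𝓞 K)) := by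
    have h1 := S.two_omega
    have h2 : (4 : 𝓞 K) * (S.e : 𝓞 K) = (D : 𝓞 K) + 1 := by
      have := congrArg (Int.cast : ℤ → 𝓞 K) S.four_e
      push_cast at this
      exact this
    linear_combination (2 * S.ω + 1 + S.δ - 2) * h1 + S.sq + h2
  exact mul_left_cancel₀ (by norm_num) h

lemma indepZ : LinearIndependent ℤ ![(1 : 𝓞 K), S.ω] := by
  rw [LinearIndependent.pair_iff]
  intro s t h
  rw [zsmul_eq_mul, zsmul_eq_mul, mul_one] at h
  have h' := congrArg (fun z : 𝓞 K => (z : K)) (congrArg ((2 : 𝓞 K) * ·) h)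
  simp only [mul_add, mul_left_comm (2 : 𝓞 K) (t : 𝓞 K), S.two_omega] at h'
  simp only [RingOfIntegers.coe_eq_algebraMap, map_add, map_sub, map_mul, map_pow, map_intCast, map_natCast, map_ofNat, map_one, map_zero] at h'
  have := LinearIndependent.pair_iff.mp S.indepQ (2 * s + t) t (by
    simp only [Algebra.smul_def, map_add, map_mul, map_intCast, map_ofNat, mul_one]
    linear_combination h')
  obtain ⟨h1, h2⟩ := this
  have ht : t = 0 := by exact_mod_cast h2
  subst ht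
  simpa using h1

lemma spanZ : ⊤ ≤ Submodule.span ℤ (Set.range ![(1 : 𝓞 K), S.ω]) := by
  rintro x -
  obtain ⟨m, n, h, k, hk⟩ := S.exists_int_coords x
  have hx : x = (k : ℤ) • (1 : 𝓞 K) + n • S.ω := by
    refine mul_left_cancel₀ (two_ne_zero : (2 : 𝓞 K) ≠ 0) ?_
    rw [h, zsmul_eq_mul, zsmul_eq_mul, mul_one, mul_add, mul_left_comm, S.two_omega]
    have := congrArg (Int.cast : ℤ → 𝓞 K) hk
    push_cast at this
    linear_combination this
  rw [hx]
  exact add_mem (Submodule.smul_mem _ _ (Submodule.subset_span ⟨0, rfl⟩))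
    (Submodule.smul_mem _ _ (Submodule.subset_span ⟨1, rfl⟩))

/-- The integral basis `1, ω`. -/
def basis : Basis (Fin 2) ℤ (𝓞 K) := Basis.mk S.indepZ S.spanZ

lemma basis_zero : S.basis 0 = 1 := by simp [basis]

lemma basis_one : S.basis 1 = S.ω := by simp [basis]

/-- The element `m + n ω`. -/
def el (m n : ℤ) : 𝓞 K := (m : 𝓞 K) + (n : 𝓞 K) * S.ω

/-- The coefficient of `1`. -/
def re (x : 𝓞 K) : ℤ := S.basis.repr x 0

/-- The coefficient of `ω`. -/
def im (x : 𝓞 K) : ℤ := S.basis.repr x 1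

lemma el_re_im (x : 𝓞 K) : S.el (S.re x) (S.im x) = x := by
  conv_rhs => rw [← S.basis.sum_repr x]
  simp [Fin.sum_univ_two, el, re, im, basis_zero, basis_one, zsmul_eq_mul]

lemma repr_el (m n : ℤ) : ⇑(S.basis.repr (S.el m n)) = ![m, n] := by
  have : S.el m n = m • S.basis 0 + n • S.basis 1 := by
    simp [el, basis_zero, basis_one, zsmul_eq_mul]
  rw [this, map_add, map_zsmul, map_zsmul, Basis.repr_self, Basis.repr_self]
  ext i; fin_cases i <;> simp

lemma re_el (m n : ℤ) : S.re (S.el m n) = m := by rw [re, repr_el]; rfl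

lemma im_el (m n : ℤ) : S.im (S.el m n) = n := by rw [im, repr_el]; rfl

lemma el_mul (m n m' n' : ℤ) :
    S.el m n * S.el m' n' = S.el (m * m' - n * n' * S.e) (m * n' + n * m' + n * n') := by
  simp only [el]
  push_cast
  linear_combination ((n : 𝓞 K) * n') * S.omega_sq

/-- The norm, on coordinates. -/
lemma norm_el (m n : ℤ) : Algebra.norm ℤ (S.el m n) = m ^ 2 + m * n + S.e * n ^ 2 := by
  rw [Algebra.norm_eq_matrix_det S.basis, Matrix.det_fin_two]
  simp only [Algebra.leftMulMatrix_eq_repr_mul]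
  have h0 : S.el m n * S.basis 0 = S.el m n := by rw [basis_zero, mul_one]
  have h1 : S.el m n * S.basis 1 = S.el (-(n * S.e)) (m + n) := by
    rw [basis_one, show S.ω = S.el 0 1 by simp [el], el_mul]; congr 1 <;> ring
  rw [h0, h1, repr_el, repr_el]
  simp
  ring

lemma four_norm (x : 𝓞 K) :
    4 * Algebra.norm ℤ x = (2 * S.re x + S.im x) ^ 2 + D * S.im x ^ 2 := by
  conv_lhs => rw [← S.el_re_im x, S.norm_el]
  linear_combination S.im x ^ 2 * S.four_e

lemma norm_nonneg (x : 𝓞 K) : 0 ≤ Algebra.norm ℤ x := by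
  have h := S.four_norm x
  have : (0 : ℤ) ≤ D * S.im x ^ 2 := by positivity
  nlinarith [sq_nonneg (2 * S.re x + S.im x)]

lemma two_dvd_iff (x : 𝓞 K) : (2 : 𝓞 K) ∣ x ↔ 2 ∣ S.re x ∧ 2 ∣ S.im x := by
  constructor
  · rintro ⟨y, rfl⟩
    have : (2 : 𝓞 K) * y = S.el (2 * S.re y) (2 * S.im y) := by
      conv_lhs => rw [← S.el_re_im y]
      simp [el]; ring
    rw [this, re_el, im_el]
    exact ⟨dvd_mul_right _ _, dvd_mul_right _ _⟩
  · rintro ⟨⟨a, ha⟩, b, hb⟩
    exact ⟨S.el a b, by rw [← S.el_re_im x, ha, hb]; simp [el]; ring⟩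

lemma two_dvd_norm_iff (x : 𝓞 K) : (2 : ℤ) ∣ Algebra.norm ℤ x ↔ (2 : 𝓞 K) ∣ x := by
  rw [S.two_dvd_iff]
  conv_lhs => rw [← S.el_re_im x, S.norm_el]
  obtain ⟨k, hk⟩ := S.e_odd
  simp only [← even_iff_two_dvd, hk, parity_simps]
  tauto

lemma prime_two : Prime (2 : 𝓞 K) := by
  refine ⟨two_ne_zero, fun h => ?_, fun a b h => ?_⟩
  · have := ((S.two_dvd_iff 1).mp (by exact h.dvd)).1
    rw [show (1 : 𝓞 K) = S.el 1 0 by simp [el], re_el] at this
    norm_num at this
  · simp only [← S.two_dvd_norm_iff, map_mul] at h ⊢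
    exact Int.prime_two.dvd_or_dvd h

/-- The residue classes modulo `2` of an element prime to `2`. -/
lemma residue (x : 𝓞 K) (hx : ¬ (2 : 𝓞 K) ∣ x) :
    (2 : 𝓞 K) ∣ x - 1 ∨ (2 : 𝓞 K) ∣ x - S.ω ∨ (2 : 𝓞 K) ∣ x - S.ω ^ 2 := by
  rw [S.two_dvd_iff] at hx
  have h1 : ∀ m n : ℤ, (2 : 𝓞 K) ∣ x - S.el m n ↔ 2 ∣ S.re x - m ∧ 2 ∣ S.im x - n := by
    intro m n
    rw [S.two_dvd_iff]
    conv_lhs => rw [← S.el_re_im x]
    rw [show S.el (S.re x) (S.im x) - S.el m n = S.el (S.re x - m) (S.im x - n) by simp [el]; ring,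
      re_el, im_el]
  rw [show (1 : 𝓞 K) = S.el 1 0 by simp [el], S.omega_sq, show S.ω - (S.e : 𝓞 K) = S.el (-S.e) 1 by
    simp [el]; ring, show S.ω = S.el 0 1 by simp [el]]
  simp only [h1]
  obtain ⟨k, hk⟩ := S.e_odd
  rw [hk]
  omega

lemma cube_mod_two (x : 𝓞 K) (hx : ¬ (2 : 𝓞 K) ∣ x) : (2 : 𝓞 K) ∣ x ^ 3 - 1 := by
  obtain ⟨k, hk⟩ := S.e_odd
  have hω : (2 : 𝓞 K) ∣ S.ω ^ 3 - 1 := ⟨-(k : 𝓞 K) * S.ω - (k + 1), by
    rw [pow_succ, S.omega_sq, hk]; push_cast
    have h' := S.omega_sq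
    rw [hk] at h'; push_cast at h'
    linear_combination h'⟩
  have step : ∀ a : 𝓞 K, (2 : 𝓞 K) ∣ a ^ 3 - 1 → (2 : 𝓞 K) ∣ x - a → (2 : 𝓞 K) ∣ x ^ 3 - 1 := by
    intro a ha hxa
    have := dvd_add (hxa.mul_right (x ^ 2 + x * a + a ^ 2)) ha
    convert this using 1
    ring
  rcases S.residue x hx with h | h | h
  · exact step 1 (by simp) h
  · exact step _ hω h
  · refine step _ ?_ h
    have := hω.mul_right (S.ω ^ 3 + 1)
    convert this using 1
    ring

lemma units (u : 𝓞 K) (hu : IsUnit u) : u = 1 ∨ u = -1 := by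
  have h : IsUnit (Algebra.norm ℤ u) := hu.map _
  have h4 := S.four_norm u
  have hpos := S.norm_nonneg u
  rcases Int.isUnit_iff.mp h with h1 | h1
  · rw [h1] at h4
    have hD : (4 : ℤ) ≤ D := by have := S.gt; omega
    have hn : S.im u = 0 := by
      by_contra hne
      have : (1 : ℤ) ≤ S.im u ^ 2 := by
        have := sq_pos_iff.mpr hne; omega
      have hD' : (5 : ℤ) ≤ D := by have := S.mod8; omega
      nlinarith [sq_nonneg (2 * S.re u + S.im u)]
    rw [hn] at h4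
    have : S.re u ^ 2 = 1 := by linarith [h4, (by ring : (2 * S.re u + 0) ^ 2 = 4 * S.re u ^ 2)]
    rw [← S.el_re_im u, hn]
    rcases sq_eq_one_iff.mp this with h | h <;> simp [h, el]
  · omega

end IQ

end FA.Theta
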