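import Fermat.Agent.Theta.Double

/-!
# A form of level `4D` isotypic for a sign of `SL(2, ℤ/2)` congruent to the weight one series

The series of `c` times the series of the doubled principal form (or, when the conductor of `c`
is one, the doubled series of `c` times it) is an eigenfunction, with the same sign, of
`τ ↦ τ + 1/2` and of its conjugate by the Fricke involution.
-/

set_option autoImplicit false

noncomputable section

open UpperHalfPlane hiding I
open Module NumberField Ideal Finset Complex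
open scoped Real

local notation "𝕢" => Function.Periodic.qParam

namespace FA.Theta

namespace BQF

variable {D : ℕ} (Q : BQF D)

/-- A form and its adjugate have the same theta series. -/
lemma theta_adj (τ : ℍ) : Q.adj.theta τ = Q.theta τ := by
  let e : ℤ × ℤ ≃ ℤ × ℤ :=
    { toFun := fun v => (v.2, -v.1)
      invFun := fun v => (-v.2, v.1)
      left_inv := fun v => by simp
      right_inv := fun v => by simp }
  rw [theta, ← e.tsum_eq]
  refine tsum_congr fun v => ?_
  congr 2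
  simp only [e, Equiv.coe_fn_mk, val, adj]
  push_cast
  ring

/-- The transformation under the Fricke involution of level `4D`. -/
theorem theta_fricke (τ w : ℍ) (hw : (w : ℂ) = -1 / (4 * D * (τ : ℂ))) :
    Q.theta w = -2 * I * (Real.sqrt D : ℝ) * τ * Q.theta τ := by
  have h := Q.poisson τ.im_pos (0, 0)
  simp only [Complex.ofReal_zero, add_zero, mul_zero] at h
  have h2 : ∑' v : ℤ × ℤ, ex (-(Q.adj.val ((v.1 : ℂ), (v.2 : ℂ))) / (4 * D * (τ : ℂ))) =
      Q.theta w := by
    rw [← Q.theta_adj w, theta]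
    refine tsum_congr fun v => ?_
    congr 1
    rw [hw]
    ring
  rw [h2] at h
  have hτ : (τ : ℂ) ≠ 0 := τ.ne_zero
  have hD : (Real.sqrt (D : ℝ) : ℂ) ≠ 0 := by
    exact_mod_cast (Real.sqrt_pos.mpr (by exact_mod_cast Q.D_pos)).ne'
  simp only [theta] at h ⊢
  rw [h]
  field_simp
  linear_combination (∑' v : ℤ × ℤ, ex ((w : ℂ) * Q.val ((v.1 : ℂ), (v.2 : ℂ)))) * I_sq

end BQF

namespace IQ

variable {K : Type*} [Field K] [NumberField K] {D : ℕ} (S : IQ K D)
  (c : Ray K →* Multiplicative (ZMod 3)) (hc : Function.Surjective c)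

include S

open scoped Classical in
lemma card_ker_toCl [Fintype (Ray K)] :
    (Finset.univ.filter fun g => S.toCl g = 1).card = 3 := by
  classical
  have hord : orderOf S.omegaCls = 3 :=
    orderOf_eq_prime (hp := ⟨Nat.prime_three⟩) S.omegaCls_cube S.omegaCls_ne_one
  have hset : (Finset.univ.filter fun g => S.toCl g = 1) =
      (Finset.range 3).image (S.omegaCls ^ ·) := by
    ext g
    simp only [Finset.mem_filter, Finset.mem_univ, true_and, Finset.mem_image, Finset.mem_range]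
    constructor
    · intro hg
      have h := mem_zpowers_iff_mem_range_orderOf.mp (S.mem_ker_toCl hg)
      rw [hord] at h
      simpa [eq_comm] using h
    · rintro ⟨i, -, rfl⟩
      rw [map_pow, S.toCl_omegaCls, one_pow]
  rw [hset, Finset.card_image_of_injOn, Finset.card_range]
  intro i hi j hj h
  exact pow_injOn_Iio_orderOf (by simpa [hord] using hi) (by simpa [hord] using hj) h

open scoped Classical in
/-- Twice the trivial class represents `4`. -/
lemma cnt_four (g : Ray K) :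
    S.cnt (S.rep g) 4 = if S.toCl g = 1 then 2 else 0 := by
  set a := S.rep g with ha
  have hcl : S.toCl g = ClassGroup.mk0 (toNZ a) := by rw [← S.toCl_cls, ha, S.cls_rep]
  have hN : (absNorm (a : Ideal (𝓞 K)) : ℤ) ≠ 0 := by exact_mod_cast (absNorm_pos a).ne'
  -- solutions are generators of the ideal
  have hsol : ∀ v, (S.dform a).val v = (2 : ℤ) ↔
      (a : Ideal (𝓞 K)) = span {S.dparam a v} := by
    intro v
    have h1 := S.norm_dparam a v
    have hle : span {S.dparam a v} ≤ (a : Ideal (𝓞 K)) :=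
      (span_singleton_le_iff_mem _).mpr ((S.mem_iff_dparam a _).mpr ⟨v, rfl⟩)
    constructor
    · intro hv
      rw [hv] at h1
      have h2 : absNorm (span {S.dparam a v}) = absNorm (a : Ideal (𝓞 K)) := by
        have := S.absNorm_span (S.dparam a v)
        omega
      obtain ⟨J, hJ⟩ := Ideal.dvd_iff_le.mpr hle
      rw [hJ, map_mul, mul_eq_left₀ (absNorm_pos a).ne', absNorm_eq_one_iff] at h2
      rw [hJ, h2, mul_top]
    · intro hv
      have h2 := S.absNorm_span (S.dparam a v)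
      rw [← hv] at h2
      refine mul_right_cancel₀ hN ?_
      rw [← h1, ← h2]
  rw [show (4 : ℕ) = 2 * 2 from rfl, cnt_two_mul, BQF.rep]
  split_ifs with h
  · rw [hcl, ClassGroup.mk0_eq_one_iff] at h
    obtain ⟨x, hx⟩ := h.principal
    rw [Ideal.submodule_span_eq, coe_toNZ] at hx
    obtain ⟨v, hv⟩ := (S.mem_iff_dparam a x).mp (hx ▸ mem_span_singleton_self x)
    have hx0 : x ≠ 0 := fun e => ne_bot_of_odd a.2 (by rw [hx, e]; simp)
    have hset : ((S.dform a).finite_val_eq ((2 : ℕ) : ℤ)).toFinset = {v, -v} := by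
      ext w
      simp only [Set.Finite.mem_toFinset, Set.mem_ofPred_eq, Finset.mem_insert,
        Finset.mem_singleton, Nat.cast_ofNat, hsol, hx]
      rw [Ideal.span_singleton_eq_span_singleton]
      constructor
      · rintro ⟨u, hu⟩
        rcases S.units u u.isUnit with e | e <;> rw [e] at hu
        · left; exact S.dparam_injective a (by rw [hv, ← hu, mul_one])
        · right; exact S.dparam_injective a (by rw [map_neg, hv, ← hu]; ring)
      · rintro (rfl | rfl)
        · rw [hv]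
        · exact ⟨-1, by rw [map_neg, hv]; simp⟩
    rw [hset, Finset.card_pair]
    intro e
    refine hx0 ?_
    have e2 := congrArg (S.dparam a) e
    rw [map_neg, hv] at e2
    simpa using eq_neg_iff_add_eq_zero.mp e2
  · rw [Finset.card_eq_zero, Finset.eq_empty_iff_forall_notMem]
    intro v hv
    rw [Set.Finite.mem_toFinset, Set.mem_ofPred_eq, Nat.cast_ofNat, hsol] at hv
    exact h (by
      rw [hcl]
      exact (ClassGroup.mk0_eq_one_iff _).mpr ⟨S.dparam a v, hv⟩)

include hc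

lemma wcoef_four (h : c S.omegaCls = 1) : S.wcoef c 4 = 3 := by
  classical
  have := S.finite_ray
  let : Fintype (Ray K) := Fintype.ofFinite _
  have hker : ∀ g, S.toCl g = 1 → c g = 1 := fun g hg => by
    obtain ⟨i, rfl⟩ := Subgroup.mem_zpowers_iff.mp (S.mem_ker_toCl hg)
    rw [map_zpow, h, one_zpow]
  have h0 : ∑ g ∈ S.colour c 0, (S.cnt (S.rep g) 4 : ℤ) = 6 := by
    have e : (S.colour c 0).filter (fun g => S.toCl g = 1) =
        Finset.univ.filter fun g => S.toCl g = 1 := by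
      ext g
      simp only [Finset.mem_filter, mem_colour, Finset.mem_univ, true_and, and_iff_right_iff_imp]
      exact fun hg => by simp [hker g hg]
    simp only [cnt_four, Nat.cast_ite, Nat.cast_ofNat, Nat.cast_zero]
    rw [← Finset.sum_filter, e, Finset.sum_const, card_ker_toCl]
    norm_num
  have h1 : ∑ g ∈ S.colour c 1, (S.cnt (S.rep g) 4 : ℤ) = 0 := by
    refine Finset.sum_eq_zero fun g hg => ?_
    rw [cnt_four, if_neg fun e => ?_, Nat.cast_zero]
    rw [mem_colour, hker g e] at hg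
    simp at hg
  have := S.two_wcoef c hc 4
  rw [h0, h1] at this
  omega

lemma wcoef_even (h : c S.omegaCls ≠ 1) (m : ℕ) : S.wcoef c (2 * m) = 0 := by
  set k := (c S.omegaCls).toAdd
  have hk : k ≠ 0 := fun e => h (Multiplicative.toAdd.injective (by simpa [k] using e))
  have hinv : ∀ j, ∑ g ∈ S.colour c j, (S.cnt (S.rep g) (2 * m) : ℤ) =
      ∑ g ∈ S.colour c (j + k), (S.cnt (S.rep g) (2 * m) : ℤ) := fun j => by
    rw [← S.colour_shift c]
    refine Finset.sum_congr rfl fun g _ => ?_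
    rw [omegaCls, ← S.cnt_rep_mul, S.cnt_mul_oddSpan]
  have hsum : ∑ g ∈ S.colour c 0, (S.cnt (S.rep g) (2 * m) : ℤ) =
      ∑ g ∈ S.colour c 1, (S.cnt (S.rep g) (2 * m) : ℤ) := by
    rcases (show ∀ j : ZMod 3, j ≠ 0 → j = 1 ∨ j = 2 by decide) k hk with e | e
    · have := hinv 0
      rw [e, zero_add] at this
      exact this
    · have := hinv 1
      rw [e, show (1 : ZMod 3) + 2 = 0 by decide] at this
      exact this.symm
  have := S.two_wcoef c hc (2 * m)
  omega

omit S hc in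
/-- The product of a weighted family with an even form. -/
theorem exists_product [Fintype (Ray K)] (Q : Ray K → BQF D) (P : BQF D) (a : ℕ → ℤ)
    (hG : ∀ (n : ℕ) [NeZero n] (x : ZMod n), ∑ g, wgt c g * (Q g).gauss n x 0 = 0)
    (ha : ∀ n, ∑ g, wgt c g * ((Q g).rep n : ℂ) = (a n : ℂ)) :
    ∃ (F : CuspForm (CongruenceSubgroup.Gamma0 (4 * D)) 2) (G : ℕ → ℤ),
      (∀ n, G n = ∑ ij ∈ antidiagonal n, a ij.1 * (P.rep ij.2 : ℤ)) ∧
      (∀ n, FA.Deform.qLin (4 * D) F n = (G n : ℂ)) ∧
      (∀ n, (2 : ℤ) ∣ G n - a n) ∧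
      (∀ τ : ℍ, HasSum (fun n => (G n : ℂ) * 𝕢 1 τ ^ n) (F τ)) ∧
      (∀ τ : ℍ, F τ = (∑ g, wgt c g * (Q g).theta τ) * P.theta τ) := by
  obtain ⟨F, hF⟩ := exists_cuspForm Finset.univ Q P (wgt c) hG
  let G : ℕ → ℤ := fun n => ∑ ij ∈ antidiagonal n, a ij.1 * (P.rep ij.2 : ℤ)
  have hco : ∀ n, PowerSeries.coeff n ((∑ g, wgt c g • (Q g).series) * P.series) = (G n : ℂ) := by
    intro n
    rw [PowerSeries.coeff_mul]
    simp only [G, Int.cast_sum, Int.cast_mul, Int.cast_natCast, map_sum, PowerSeries.coeff_smul,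
      BQF.series, PowerSeries.coeff_mk, smul_eq_mul]
    exact Finset.sum_congr rfl fun ij _ => by rw [ha]
  refine ⟨F, G, fun n => rfl, fun n => ?_, fun n => ?_, fun τ => ?_, fun τ => ?_⟩
  · rw [FA.Deform.qLin_apply, ModularFormClass.qCoeff, FA.Eis.HasQ.qExpansion_eq one_pos hF, hco]
  · have hmem : (n, 0) ∈ antidiagonal n := by simp
    simp only [G]
    rw [← Finset.add_sum_erase _ _ hmem, P.rep_zero, Nat.cast_one, mul_one, add_sub_cancel_left]
    refine Finset.dvd_sum fun ij hij => ?_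
    obtain ⟨hne, hij⟩ := Finset.mem_erase.mp hij
    have h2 : ij.2 ≠ 0 := fun h => hne (by
      rw [HasAntidiagonal.mem_antidiagonal, h, add_zero] at hij
      exact Prod.ext hij h)
    exact dvd_mul_of_dvd_right
      (Int.natCast_dvd_natCast.mpr (even_iff_two_dvd.mp (BQF.even_rep P h2))) _
  · simpa only [hco] using hF τ
  · have hprod : FA.Eis.HasQ 1 (((∑ g, wgt c g • (Q g).theta) * P.theta : ℍ → ℂ))
        ((∑ g, wgt c g • (Q g).series) * P.series) :=
      (FA.Eis.HasQ.sum Finset.univ fun g _ => (Q g).hasQ_theta.smul (wgt c g)).mul one_pos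
        P.hasQ_theta
    rw [(hF τ).unique (hprod τ)]
    simp [Finset.sum_apply]

open scoped Classical in
/-- **The signed form.** -/
theorem exists_signed_form :
    ∃ (ε : ℤ) (F : CuspForm (CongruenceSubgroup.Gamma0 (4 * D)) 2) (G : ℕ → ℤ),
      (ε = 1 ∨ ε = -1) ∧ (∀ n, FA.Deform.qLin (4 * D) F n = (G n : ℂ)) ∧
      (∃ n, ¬ (2 : ℤ) ∣ G n) ∧
      (∀ l : ℕ, l.Prime → ¬ l ∣ 4 * D → ∀ n, (2 : ℤ) ∣
        G (n * l) + (if l ∣ n then G (n / l) else 0) - S.predicted c l * G n) ∧
      (∀ τ w : ℍ, (w : ℂ) = τ + 1 / 2 → F w = ε * F τ) ∧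
      (∀ τ w : ℍ, (w : ℂ) = -1 / (4 * D * (τ : ℂ)) → F w = -(4 * D * (τ : ℂ) ^ 2) * F τ) := by
  have := S.finite_ray
  let : Fintype (Ray K) := Fintype.ofFinite _
  let P : BQF D := S.dform (1 : oddIdeals K)
  have hfricke : ∀ (Q : Ray K → BQF D) (F : ℍ → ℂ),
      (∀ τ : ℍ, F τ = (∑ g, wgt c g * (Q g).theta τ) * P.theta τ) →
      ∀ τ w : ℍ, (w : ℂ) = -1 / (4 * D * (τ : ℂ)) → F w = -(4 * D * (τ : ℂ) ^ 2) * F τ := by
    intro Q F hF τ w hw
    have hs : ((Real.sqrt (D : ℝ) : ℂ)) ^ 2 = (D : ℂ) := by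
      rw [← Complex.ofReal_pow, Real.sq_sqrt (Nat.cast_nonneg D), Complex.ofReal_natCast]
    rw [hF, hF, BQF.theta_fricke _ τ w hw]
    simp only [fun g => BQF.theta_fricke (Q g) τ w hw, mul_left_comm (wgt c _)]
    rw [← Finset.mul_sum]
    linear_combination (4 * (τ : ℂ) ^ 2 * (∑ g, wgt c g * (Q g).theta τ) * P.theta τ) *
      ((Real.sqrt (D : ℝ) : ℂ) ^ 2 * I_sq - hs)
  have hshift : ∀ (ε : ℤ) (F : ℍ → ℂ) (G : ℕ → ℤ),
      (∀ τ : ℍ, HasSum (fun n => (G n : ℂ) * 𝕢 1 τ ^ n) (F τ)) →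
      (∀ n, G n ≠ 0 → ((-1 : ℤ) ^ n = ε)) →
      ∀ τ w : ℍ, (w : ℂ) = τ + 1 / 2 → F w = ε * F τ := by
    intro ε F G hs hp τ w hw
    have hq : 𝕢 1 (w : ℂ) = -𝕢 1 (τ : ℂ) := by
      rw [Function.Periodic.qParam, Function.Periodic.qParam, hw,
        show 2 * (π : ℂ) * I * ((τ : ℂ) + 1 / 2) / ((1 : ℝ) : ℂ) =
          2 * (π : ℂ) * I * (τ : ℂ) / ((1 : ℝ) : ℂ) + π * I by push_cast; ring,
        Complex.exp_add, Complex.exp_pi_mul_I, mul_neg_one]
    refine (hs w).unique (((hs τ).mul_left (ε : ℂ)).congr_fun fun n => ?_)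
    rw [hq, neg_pow]
    rcases eq_or_ne (G n) 0 with h | h
    · rw [h]; simp
    · rw [← hp n h]; push_cast; ring
  have hPodd : ∀ m, Odd m → P.rep m = 0 := fun m => S.dform_rep_odd _
  have hkey := fun l hl hlN n => S.two_dvd_wcoef_hecke c hc (l := l) hl hlN n
  -- congruences pass from the weight one coefficients
  have htrans : ∀ (a G : ℕ → ℤ), (∀ n, (2 : ℤ) ∣ G n - a n) → ∀ (l : ℕ) (n : ℕ) (b : ℤ),
      (2 : ℤ) ∣ a (n * l) + (if l ∣ n then a (n / l) else 0) - b * a n →
      (2 : ℤ) ∣ G (n * l) + (if l ∣ n then G (n / l) else 0) - b * G n := by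
    intro a G h l n b hb
    obtain ⟨z, hz⟩ := hb
    obtain ⟨y₁, h₁⟩ := h (n * l)
    obtain ⟨y₂, h₂⟩ := h (n / l)
    obtain ⟨y₃, h₃⟩ := h n
    split_ifs at hz ⊢
    · exact ⟨z + y₁ + y₂ - b * y₃, by linear_combination hz + h₁ + h₂ - b * h₃⟩
    · exact ⟨z + y₁ - b * y₃, by linear_combination hz + h₁ - b * h₃⟩
  by_cases hω : c S.omegaCls = 1
  · -- conductor one
    let a : ℕ → ℤ := fun n => S.wcoef c (2 * n)
    obtain ⟨F, G, hGdef, hq, hG2, hs, hprod⟩ := exists_product c
      (fun g => S.dform (S.rep g)) P a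
      (fun n _ x => S.sum_wgt_eq_zero c hc n (NeZero.ne n) _
        fun g b hb => S.dgauss_rep_sq g b n hb x)
      (fun n => by simp only [a, ← S.sum_wgt_cnt c hc, cnt_two_mul])
    refine ⟨1, F, G, Or.inl rfl, hq, ⟨2, fun h => ?_⟩, fun l hl hlN n => ?_,
      hshift 1 F G hs fun n hn => ?_, hfricke _ F hprod⟩
    · have h2 := dvd_sub h (hG2 2)
      simp only [a, sub_sub_cancel, S.wcoef_four c hc hω] at h2
      norm_num at h2
    · refine htrans a G hG2 l n _ ?_
      have hl2 : l ≠ 2 := fun e => hlN (e ▸ dvd_mul_of_dvd_left (by norm_num) D)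
      have h := hkey l hl hlN (2 * n)
      have e : l ∣ 2 * n ↔ l ∣ n :=
        ⟨fun h => (hl.dvd_mul.mp h).resolve_left fun h =>
          hl2 ((Nat.prime_dvd_prime_iff_eq hl Nat.prime_two).mp h), fun h => h.mul_left 2⟩
      simp only [a, ← mul_assoc]
      split_ifs at h ⊢ with h1 h2
      · rwa [Nat.mul_div_assoc 2 (e.mp ‹_›)] at h
      all_goals first | exact absurd (e.mp ‹_›) ‹_› | exact absurd (e.mpr ‹_›) ‹_› | exact h
    · refine Even.neg_one_pow (Nat.not_odd_iff_even.mp fun hodd => hn ?_)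
      rw [hGdef]
      refine Finset.sum_eq_zero fun ij hij => ?_
      rw [HasAntidiagonal.mem_antidiagonal] at hij
      rcases Nat.even_or_odd ij.1 with he | he
      · have h2 : Odd ij.2 := Nat.odd_add.mp (by rwa [add_comm, hij]) |>.mpr he
        simp [hPodd _ h2]
      · have h0 : (2 : ℤ) * S.wcoef c (2 * ij.1) = 0 := by
          rw [← S.two_wcoef c hc]
          simp [S.cnt_even_of_odd _ he]
        simp [a, (mul_eq_zero.mp h0).resolve_left two_ne_zero]
  · obtain ⟨F, G, hGdef, hq, hG2, hs, hprod⟩ := exists_product c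
      (fun g => S.form (S.rep g)) P (S.wcoef c)
      (fun n _ x => S.sum_wgt_eq_zero c hc n (NeZero.ne n) _
        fun g b hb => S.gauss_rep_sq g b n hb x)
      (fun n => by simp only [S.rep_form, S.sum_wgt_cnt c hc])
    refine ⟨-1, F, G, Or.inr rfl, hq, ⟨1, fun h => ?_⟩,
      fun l hl hlN n => htrans _ G hG2 l n _ (hkey l hl hlN n),
      hshift (-1) F G hs fun n hn => ?_, hfricke _ F hprod⟩
    · have h2 := dvd_sub h (hG2 1)
      rw [sub_sub_cancel, S.wcoef_one c hc] at h2
      norm_num at h2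
    · refine Odd.neg_one_pow (Nat.not_even_iff_odd.mp fun heven => hn ?_)
      rw [hGdef]
      refine Finset.sum_eq_zero fun ij hij => ?_
      rw [HasAntidiagonal.mem_antidiagonal] at hij
      rcases Nat.even_or_odd ij.1 with ⟨m, hm⟩ | he
      · rw [hm, ← two_mul, S.wcoef_even c hc hω]; simp
      · have h2 : Odd ij.2 := by
          rw [← hij, Nat.even_add] at heven
          exact Nat.not_even_iff_odd.mp fun h => Nat.not_even_iff_odd.mpr he (heven.mpr h)
        simp [hPodd _ h2]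

end IQ

end FA.Theta
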